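import Fermat.Agent.LevelP.Break
import Fermat.Agent.EC.Mult.Ramification
import Fermat.Agent.EC.Red.ResidueQbar
import Mathlib.RingTheory.Polynomial.Cyclotomic.Eval

/-!
# Degree `p` extensions of the tame field at `p` inside `ℚ̄`

`wildGroup A ζ` is the part of inertia fixing `ζ`. A homomorphism `c : wildGroup A ζ →* C` with
`c σ ^ p = 1` and image generated by `c σ` cuts out a `CyclicData` with `π₀ = ζ - 1`.
-/

set_option autoImplicit false

noncomputable section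

open IsLocalRing
open scoped Pointwise

namespace Fermat.Agent.LevelP

local notation "Qb" => AlgebraicClosure ℚ
local notation "Γℚ" => (AlgebraicClosure ℚ ≃ₐ[ℚ] AlgebraicClosure ℚ)

variable (A : ValuationSubring Qb) {p : ℕ}

/-- Inertia elements fixing `ζ`. -/
def wildGroup (ζ : Qb) : Subgroup Γℚ :=
  A.inertiaSubgroupIn ℚ ⊓ MulAction.stabilizer Γℚ ζ

theorem mem_wildGroup {ζ : Qb} {τ : Γℚ} :
    τ ∈ wildGroup A ζ ↔ τ ∈ A.inertiaSubgroupIn ℚ ∧ τ ζ = ζ := Iff.rfl

variable {A}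

theorem valuation_zeta_sub_one_pow (hp : p.Prime) (hA : A.LiesOverPrime p) {ζ : Qb}
    (hζ : IsPrimitiveRoot ζ p) : A.valuation (ζ - 1) ^ (p - 1) = A.valuation (p : Qb) := by
  have : NeZero p := ⟨hp.ne_zero⟩
  have hA' : ∀ i : ℕ, ζ ^ i ∈ A := fun i => by
    refine (A.valuation_le_one_iff _).1 ?_
    rw [← pow_le_one_iff hp.ne_zero, ← map_pow, ← pow_mul, mul_comm, pow_mul, hζ.pow_eq_one,
      one_pow, map_one]
  have hle : ∀ (i : ℕ) (z : Qb), z ∈ A → A.valuation (z ^ i - 1) ≤ A.valuation (z - 1) := by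
    intro i z hz
    rw [← geom_sum_mul, map_mul]
    refine mul_le_of_le_one_left zero_le ((A.valuation_le_one_iff _).2 ?_)
    exact sum_mem fun j _ => pow_mem hz j
  have hv : ∀ μ ∈ primitiveRoots p Qb, A.valuation (1 - μ) = A.valuation (ζ - 1) := by
    intro μ hμ
    rw [mem_primitiveRoots hp.pos] at hμ
    obtain ⟨i, -, -, rfl⟩ := hζ.isPrimitiveRoot_iff.1 hμ
    obtain ⟨j, -, hj⟩ := hμ.eq_pow_of_pow_eq_one hζ.pow_eq_one
    rw [A.valuation.map_sub_swap]
    refine le_antisymm (hle i ζ (by simpa using hA' 1)) ?_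
    conv_lhs => rw [← hj]
    exact hle j _ (hA' i)
  have hprod : ∏ μ ∈ primitiveRoots p Qb, (1 - μ) = (p : Qb) := by
    have : Fact p.Prime := ⟨hp⟩
    rw [← Polynomial.eval_one_cyclotomic_prime (R := Qb) (p := p),
      Polynomial.cyclotomic_eq_prod_X_sub_primitiveRoots hζ, Polynomial.eval_prod]
    simp
  rw [← hprod, map_prod, Finset.prod_congr rfl hv, Finset.prod_const, hζ.card_primitiveRoots,
    Nat.totient_prime hp]

/-- The value group of the fixed field of `wildGroup A ζ` is generated by `v (ζ - 1)`. -/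
theorem exists_zpow_of_wildGroup_fixed (hp : p.Prime) (hA : A.LiesOverPrime p) {ζ : Qb}
    (hζ : IsPrimitiveRoot ζ p) {x : Qb} (hx : x ≠ 0) (hfix : ∀ τ ∈ wildGroup A ζ, τ x = x) :
    ∃ k : ℤ, A.valuation x = A.valuation (ζ - 1) ^ k := by
  classical
  have : NeZero p := ⟨hp.ne_zero⟩
  have : Fact p.Prime := ⟨hp⟩
  -- action of inertia on `ζ`
  let χ : A.inertiaSubgroupIn ℚ →* (ZMod p)ˣ :=
    ((hζ.autToPow ℚ).comp (A.inertiaSubgroupIn ℚ).subtype)
  have hker : ∀ τ : A.inertiaSubgroupIn ℚ, τ ∈ χ.ker ↔ (τ : Γℚ) ∈ wildGroup A ζ := by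
    intro τ
    rw [MonoidHom.mem_ker, mem_wildGroup, ← Units.val_eq_one]
    have hs := hζ.autToPow_spec ℚ (τ : Γℚ)
    constructor
    · intro h
      refine ⟨τ.2, ?_⟩
      rw [← hs]
      show ζ ^ ((χ τ : ZMod p)).val = ζ
      rw [h, ZMod.val_one, pow_one]
    · rintro ⟨-, h⟩
      rw [h] at hs
      have h1 := hζ.pow_inj (ZMod.val_lt _) hp.one_lt (hs.trans (pow_one ζ).symm)
      show ((χ τ : ZMod p)) = 1
      rw [← ZMod.natCast_zmod_val (χ τ : ZMod p)]
      exact (congrArg Nat.cast h1).trans Nat.cast_one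
  choose s hs using fun r : χ.range => r.2
  let R : Finset χ.range := Finset.univ
  let N : Qb := ∏ r ∈ R, (s r : Γℚ) x
  have hcong : ∀ τ τ' : A.inertiaSubgroupIn ℚ, χ τ = χ τ' → (τ : Γℚ) x = (τ' : Γℚ) x := by
    intro τ τ' h
    have h1 : (τ'⁻¹ * τ : A.inertiaSubgroupIn ℚ) ∈ χ.ker := by
      rw [MonoidHom.mem_ker, map_mul, map_inv, h, inv_mul_cancel]
    have h2 := hfix _ ((hker _).1 h1)
    apply_fun (fun y => (τ' : Γℚ) y) at h2
    rw [← AlgEquiv.mul_apply] at h2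
    simpa [← Subgroup.coe_mul] using h2
  have hNfix : ∀ τ ∈ A.inertiaSubgroupIn ℚ, τ N = N := by
    intro τ hτ
    rw [map_prod]
    let t : χ.range := ⟨χ ⟨τ, hτ⟩, ⟨_, rfl⟩⟩
    refine Fintype.prod_equiv (Equiv.mulLeft t) _ _ fun r => ?_
    rw [← AlgEquiv.mul_apply]
    exact hcong (⟨τ, hτ⟩ * s r) (s (t * r)) (by rw [map_mul, hs, hs]; rfl)
  have hval : A.valuation N = A.valuation x ^ Nat.card χ.range := by
    rw [map_prod, Finset.prod_congr rfl fun r _ => EC.Mult.valuation_apply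
      (EC.Mult.mem_decompositionSubgroup_of_mem_inertia (s r).2) x, Finset.prod_const,
      Finset.card_univ, ← Nat.card_eq_fintype_card]
  have hN0 : N ≠ 0 := by
    intro h
    rw [h, map_zero, eq_comm, pow_eq_zero_iff Nat.card_pos.ne'] at hval
    exact hx (A.valuation.zero_iff.1 hval)
  obtain ⟨k, hk⟩ := EC.Mult.exists_zpow_of_inertia_fixed hp hA hN0 hNfix
  obtain ⟨e, he⟩ : Nat.card χ.range ∣ p - 1 := by
    have h1 := Subgroup.card_subgroup_dvd_card χ.range
    rwa [Nat.card_eq_fintype_card (α := (ZMod p)ˣ), ZMod.card_units] at h1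
  refine ⟨k * e, (pow_left_inj₀ zero_le zero_le
    (Nat.card_pos (α := χ.range)).ne').1 ?_⟩
  rw [← hval, hk, ← valuation_zeta_sub_one_pow hp hA hζ, ← zpow_natCast, ← zpow_natCast,
    ← zpow_mul, ← zpow_mul, he]
  push_cast
  ring_nf

/-- Residues are represented by elements fixed by inertia. -/
theorem exists_inertia_fixed_residue_eq (hp : p.Prime) (hA : A.LiesOverPrime p) {x : Qb}
    (hx : x ∈ A) :
    ∃ a : Qb, a ∈ A ∧ (∀ τ ∈ A.inertiaSubgroupIn ℚ, τ a = a) ∧ A.valuation (x - a) < 1 := by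
  have : Fact p.Prime := ⟨hp⟩
  have := EC.charP_residueField A hp hA
  obtain ⟨m, hm, hx'⟩ := EC.exists_pow_q_pow_eq_self A hp hA (residue A ⟨x, hx⟩)
  obtain ⟨a, -, ha, hfix⟩ := EC.Inertia.exists_root_fixed (F := ℚ) (A := A)
    (Polynomial.X ^ p ^ m - Polynomial.X : Polynomial A) (α := residue A ⟨x, hx⟩)
    (by simp [Polynomial.IsRoot.def, hx']) (by simp [Polynomial.derivative_X_pow, hm.ne'])
  refine ⟨a, a.2, fun τ hτ => hfix τ hτ fun i => ?_, ?_⟩
  · simp only [Polynomial.coeff_sub, Polynomial.coeff_X_pow, Polynomial.coeff_X]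
    split_ifs <;> simp
  · rw [← A.mem_nonunits_iff]
    exact (EC.Inertia.residue_eq_iff_sub_mem_nonunits A (a := ⟨x, hx⟩) (b := a)).1 ha.symm

/-- Fixed subfield of a set of automorphisms. -/
def fixedSubfield (H : Subgroup Γℚ) : Subfield Qb :=
  (IntermediateField.fixedField H).toSubfield

theorem mem_fixedSubfield {H : Subgroup Γℚ} {x : Qb} :
    x ∈ fixedSubfield H ↔ ∀ τ ∈ H, τ x = x :=
  ⟨fun h τ hτ => h ⟨τ, hτ⟩, fun h τ => h τ.1 τ.2⟩

/-- A homomorphism on `wildGroup` with image generated by an element of order dividing `p`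
gives cyclic data. -/
theorem cyclicData_of_hom (hp : p.Prime) (hA : A.LiesOverPrime p) {ζ : Qb}
    (hζ : IsPrimitiveRoot ζ p) {C : Type*} [Group C] (c : wildGroup A ζ →* C)
    (σ : wildGroup A ζ) (hσp : c σ ^ p = 1) (hgen : ∀ τ, c τ ∈ Subgroup.zpowers (c σ)) :
    CyclicData A ((σ : Γℚ).toRingEquiv)
      (fixedSubfield (c.ker.map (wildGroup A ζ).subtype)) (ζ - 1) p where
  prime := hp
  natCast_lt_one := EC.Mult.valuation_natCast_lt_one hA
  valuation_map x := EC.Mult.valuation_apply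
    (EC.Mult.mem_decompositionSubgroup_of_mem_inertia σ.2.1) x
  map_mem x hx := by
    rw [mem_fixedSubfield] at hx ⊢
    rintro _ ⟨τ, hτ, rfl⟩
    have h := hx _ ⟨σ⁻¹ * τ * σ, by
      simp only [SetLike.mem_coe, MonoidHom.mem_ker, map_mul, map_inv, MonoidHom.mem_ker.1 hτ]
      group, rfl⟩
    apply_fun (fun y => (σ : Γℚ) y) at h
    rw [← AlgEquiv.mul_apply] at h
    simpa [mul_assoc] using h
  iterate_eq x hx := by
    have h := mem_fixedSubfield.1 hx ((σ ^ p : wildGroup A ζ) : Γℚ)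
      ⟨σ ^ p, by simpa [MonoidHom.mem_ker] using hσp, rfl⟩
    rw [SubgroupClass.coe_pow, AlgEquiv.coe_pow] at h
    exact h
  mem := by
    rw [mem_fixedSubfield]
    rintro _ ⟨τ, -, rfl⟩
    rw [map_sub, map_one]
    exact congrArg (· - 1) τ.2.2
  fixed := by
    rw [map_sub, map_one]
    exact congrArg (· - 1) σ.2.2
  ne_zero := sub_ne_zero.2 (hζ.ne_one hp.one_lt)
  lt_one := by
    rw [← pow_lt_one_iff_of_nonneg (n := p - 1) zero_le (by have := hp.two_le; omega),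
      valuation_zeta_sub_one_pow hp hA hζ]
    exact EC.Mult.valuation_natCast_lt_one hA
  value_fixed x hx hσx hx0 := by
    refine exists_zpow_of_wildGroup_fixed hp hA hζ hx0 fun τ hτ => ?_
    obtain ⟨n, hn⟩ := Subgroup.mem_zpowers_iff.1 (hgen ⟨τ, hτ⟩)
    have hk := mem_fixedSubfield.1 hx _
      ⟨(σ ^ n)⁻¹ * ⟨τ, hτ⟩, by simp [MonoidHom.mem_ker, hn], rfl⟩
    have hs : (σ : Γℚ) ∈ MulAction.stabilizer Γℚ x := hσx
    have h1 := (MulAction.stabilizer Γℚ x).zpow_mem hs n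
    have h2 : ((σ : Γℚ) ^ n)⁻¹ * τ ∈ MulAction.stabilizer Γℚ x := by
      rw [MulAction.mem_stabilizer_iff]
      simpa using hk
    have := mul_mem h1 h2
    rwa [mul_inv_cancel_left] at this
  residue_fixed x _ hxA := by
    obtain ⟨a, -, ha, hlt⟩ := exists_inertia_fixed_residue_eq hp hA hxA
    refine ⟨a, ?_, ha _ σ.2.1, hlt⟩
    rw [mem_fixedSubfield]
    rintro _ ⟨τ, -, rfl⟩
    exact ha _ τ.2.1

end Fermat.Agent.LevelP
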