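import Fermat.Agent.Periods.EigenSpace
import Fermat.Agent.Periods.Group
import Fermat.Agent.LevelRaise.Degeneracy
import Fermat.Agent.BadPrime.Raise
import Fermat.Prelude.Def_CuspForm_Newforms

/-!
# Old or `U_p ^ 2 = 1`

The good eigen-system of a normalised eigenform of level `M * p`, `p ∤ M`, either occurs at level
`M` or the form has `a_p ^ 2 = 1`.
-/

set_option autoImplicit false

noncomputable section

open CongruenceSubgroup ModularCurve ModularCurve.Period ModularFormClass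
open Fermat.Agent.Periods
open scoped MatrixGroups

namespace Fermat.Agent.LevelP

theorem heckeHom_int_eq {N p : ℕ} (hp : p.Prime) (φ : Additive (Gamma0 N) →+ ℂ) :
    heckeHom ℤ ℂ hp φ = heckeHom ℂ ℂ hp φ :=
  rfl

/-- A nonzero parabolic class with given eigenvalues at the primes outside `R` gives a normalised
eigenform with these eigenvalues. -/
theorem exists_eigenform_of_good_class {N : ℕ} [NeZero N] (R : ℕ) (a : ℕ → ℂ)
    {y : Additive (Gamma0 N) →+ ℂ} (hy : y ∈ parabolicHoms ℂ (Gamma0 N) ℂ) (hy0 : y ≠ 0)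
    (hNR : ∀ ℓ, ℓ ∣ N → ℓ ∣ R)
    (heig : ∀ (ℓ : ℕ) (hℓ : ℓ.Prime), ¬ ℓ ∣ R → heckeHom ℂ ℂ hℓ y = a ℓ • y) :
    ∃ g : CuspForm (Gamma0 N) 2, g.IsNormalizedEigenform ∧
      ∀ ℓ : ℕ, ℓ.Prime → ¬ ℓ ∣ R → qCoeff g ℓ = a ℓ := by
  obtain ⟨x, rfl⟩ : y ∈ LinearMap.range (periodHomPair N) := by
    rw [range_periodHomPair N]; exact hy
  have := BadPrime.finiteDimensional_cuspForm N
  have hN : ∀ {ℓ}, ¬ ℓ ∣ R → ¬ ℓ ∣ N := fun h h' => h (hNR _ h')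
  let W : Submodule ℂ (CuspForm (Gamma0 N) 2) :=
    ⨅ (ℓ : ℕ) (hℓ : ℓ.Prime) (hℓR : ¬ ℓ ∣ R),
      Module.End.eigenspace (CuspForm.heckeTLin 2 hℓ (hN hℓR)) (a ℓ)
  have mem_W : ∀ {v}, v ∈ W ↔ ∀ (ℓ : ℕ) (hℓ : ℓ.Prime) (hℓR : ¬ ℓ ∣ R),
      CuspForm.heckeTLin 2 hℓ (hN hℓR) v = a ℓ • v := by
    intro v; simp [W, Submodule.mem_iInf, Module.End.mem_eigenspace_iff]
  have key : ∀ (ℓ : ℕ) (hℓ : ℓ.Prime) (hℓR : ¬ ℓ ∣ R),
      CuspForm.heckeTLin 2 hℓ (hN hℓR) x.1 = a ℓ • x.1 ∧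
        CuspForm.heckeTLin 2 hℓ (hN hℓR) x.2 = a ℓ • x.2 := by
    intro ℓ hℓ hℓR
    have h := heig ℓ hℓ hℓR
    rw [← Prod.eta x, heckeHom_periodHomPair_T hℓ (hN hℓR), ← map_smul] at h
    exact Prod.ext_iff.mp (periodHomPair_injective N h)
  have hW : W ≠ ⊥ := by
    intro hbot
    have h1 : x.1 ∈ W := mem_W.mpr fun ℓ hℓ hℓR => (key ℓ hℓ hℓR).1
    have h2 : x.2 ∈ W := mem_W.mpr fun ℓ hℓ hℓR => (key ℓ hℓ hℓR).2
    rw [hbot, Submodule.mem_bot] at h1 h2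
    exact hy0 (by rw [show x = 0 from Prod.ext h1 h2, map_zero])
  obtain ⟨v, hvW, hv0, hv⟩ := Hecke.exists_common_eigenvector
    (CuspForm.heckeAlgebra N 2 ∅).val.toRingHom W hW (fun t z hz => mem_W.mpr fun ℓ hℓ hℓR => by
      have hcomm := congrArg Subtype.val
        (mul_comm (CuspForm.heckeAlgebra.T hℓ (hN hℓR) (Set.notMem_empty ℓ)) t)
      simp only [MulMemClass.coe_mul, CuspForm.heckeAlgebra.coe_T] at hcomm
      show CuspForm.heckeTLin 2 hℓ (hN hℓR) ((t : Module.End ℂ (CuspForm (Gamma0 N) 2)) z) = _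
      rw [← Module.End.mul_apply, hcomm, Module.End.mul_apply, mem_W.mp hz ℓ hℓ hℓR, map_smul]
      rfl)
  obtain ⟨φ, hφ⟩ := Hecke.exists_eigenchar _ hv0 hv
  obtain ⟨g, hg, -, hT, -⟩ := Hecke.exists_normalizedEigenform_of_eigenvector φ hv0 hφ
  refine ⟨g, hg, fun ℓ hℓ hℓR => ?_⟩
  rw [hT ℓ hℓ (hN hℓR)]
  exact smul_left_injective ℂ hv0 ((hφ _).symm.trans (mem_W.mp hvW ℓ hℓ hℓR))

/-- **Old at `p` or `a_p ^ 2 = 1`.** -/
theorem goodEigensystemOccursAt_or_sq_eq_one {M p : ℕ} [NeZero M] (hp : p.Prime) (hpM : ¬ p ∣ M)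
    {f : CuspForm (Gamma0 (M * p)) 2} (hf : f.IsNormalizedEigenform) :
    f.GoodEigensystemOccursAt M ∨ qCoeff f p ^ 2 = 1 := by
  have : NeZero (M * p) := ⟨Nat.mul_ne_zero (NeZero.ne M) hp.ne_zero⟩
  have hE := isEigen_of_isNormalizedEigenform hf
  set φ := periodHomPair (M * p) (f, 0) with hφdef
  have hφmem : φ ∈ eigenHoms (M * p) (fun n => qCoeff f n) :=
    periodHomPair_mem_eigenHoms_iff.mpr ⟨hE, ⟨fun _ _ _ => by simp, fun _ _ _ => by simp⟩⟩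
  have hφ0 : φ ≠ 0 := fun h0 => hf.ne_zero (congrArg Prod.fst
    (periodHomPair_injective (M * p) (h0.trans (map_zero (periodHomPair (M * p))).symm)))
  have hφc : φ ∈ cuspidalHoms ℤ (Gamma0 (M * p)) ℂ := by
    rw [← parabolicHoms_eq_cuspidalHoms]; exact hφmem.1
  by_cases h : LevelRaise.degTr M ℂ hp hpM φ = 0 ∧ LevelRaise.degTr' M ℂ hp hpM φ = 0
  · refine Or.inr ?_
    have h2 := LevelRaise.heckeHom_sq_of_degTr_eq_zero hp hpM φ h.1 h.2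
    rw [heckeHom_int_eq, heckeHom_int_eq, hφmem.2 p hp, map_smul, hφmem.2 p hp, smul_smul] at h2
    have h3 : (qCoeff f p * qCoeff f p - 1) • φ = 0 := by rw [sub_smul, one_smul, h2, sub_self]
    linear_combination (smul_eq_zero.mp h3).resolve_right hφ0
  refine Or.inl ?_
  obtain ⟨y, hyc, hy0, hy⟩ : ∃ y : Additive (Gamma0 M) →+ ℂ, y ∈ cuspidalHoms ℤ (Gamma0 M) ℂ ∧
      y ≠ 0 ∧ ∀ (ℓ : ℕ) (hℓ : ℓ.Prime), ¬ ℓ ∣ M * p →
        heckeHom ℂ ℂ hℓ y = qCoeff f ℓ • y := by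
    have hsmul : ∀ c : ℂ, c • φ = (AddMonoidHom.mulLeft c).comp φ := fun c => rfl
    have hne : ∀ {ℓ : ℕ}, ¬ ℓ ∣ M * p → ℓ ≠ p := fun hℓ h' => hℓ (h' ▸ dvd_mul_left p M)
    rcases not_and_or.mp h with h | h
    · refine ⟨_, LevelRaise.degTr_mem_cuspidalHoms hp hpM hφc, h, fun ℓ hℓ hℓN => ?_⟩
      rw [← heckeHom_int_eq, ← LevelRaise.degTr_heckeHom hp hpM hℓ (hne hℓN), heckeHom_int_eq,
        hφmem.2 ℓ hℓ, hsmul, LevelRaise.degTr_comp]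
      rfl
    · refine ⟨_, LevelRaise.degTr'_mem_cuspidalHoms hp hpM hφc, h, fun ℓ hℓ hℓN => ?_⟩
      rw [← heckeHom_int_eq, ← LevelRaise.degTr'_heckeHom hp hpM hℓ (hne hℓN), heckeHom_int_eq,
        hφmem.2 ℓ hℓ, hsmul, LevelRaise.degTr'_comp]
      rfl
  exact exists_eigenform_of_good_class (M * p) _
    (by rw [parabolicHoms_eq_cuspidalHoms]; exact hyc) hy0 (fun ℓ hℓ => hℓ.mul_right p) hy

end Fermat.Agent.LevelP
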