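import Fermat.Agent.LevelP.PeuEC

/-!
# No très ramifiée radical in the field of `E[p]`

For a multiplicative prime `p` with `p ∣ ord_p Δ` there is no `z` fixed by the inertia elements
acting trivially on `E[p]` with `z ^ p = u p ^ j (1 + η)`, `u` a unit fixed by inertia, `p ∤ j`,
`v η < v (ζ - 1) ^ p` and `η` fixed by those elements.
-/

set_option autoImplicit false

noncomputable section

open WeierstrassCurve IsLocalRing
open scoped WeierstrassCurve.Affine

namespace Fermat.Agent.LevelP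

open EC.TateTheta EC.Mult

local notation "Qb" => AlgebraicClosure ℚ
local notation "Γℚ" => (AlgebraicClosure ℚ ≃ₐ[ℚ] AlgebraicClosure ℚ)

section

variable {W : WeierstrassCurve ℤ} {A : ValuationSubring (AlgebraicClosure ℚ)}
  (D : MultData W A) {p : ℕ}

lemma inertia_res {σ : Γℚ} (hσ : σ ∈ A.inertiaSubgroupIn ℚ) :
    ∀ z ∈ A, A.valuation (σ.toRingEquiv z - z) < 1 := MultData.res hσ

lemma inertia_valuation {σ : Γℚ} (hσ : σ ∈ A.inertiaSubgroupIn ℚ) :
    ∀ z, A.valuation (σ.toRingEquiv z) = A.valuation z :=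
  valuation_apply (mem_decompositionSubgroup_of_mem_inertia hσ)

/-- Inertia acting on the normal form, through `wildGroup`. -/
def actPt {ζ : Qb} (τ : wildGroup A ζ) :
    (tateModel D.c).toAffine.Point → (tateModel D.c).toAffine.Point :=
  mapPt (τ : Γℚ).toRingEquiv (D.fixed τ.2.1).2

lemma actPt_one {ζ : Qb} (P : (tateModel D.c).toAffine.Point) :
    actPt D (1 : wildGroup A ζ) P = P := by
  rcases P with _ | ⟨x, y, h⟩ <;> rfl

lemma actPt_mul {ζ : Qb} (τ τ' : wildGroup A ζ) (P : (tateModel D.c).toAffine.Point) :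
    actPt D (τ * τ') P = actPt D τ (actPt D τ' P) := by
  rcases P with _ | ⟨x, y, h⟩ <;> rfl

lemma actPt_sub {ζ : Qb} (τ : wildGroup A ζ) (P Q : (tateModel D.c).toAffine.Point) :
    actPt D τ (P - Q) = actPt D τ P - actPt D τ Q :=
  (mapHom (τ : Γℚ).toRingEquiv (D.fixed τ.2.1).2).map_sub P Q

lemma actPt_nsmul {ζ : Qb} (τ : wildGroup A ζ) (n : ℕ) (P : (tateModel D.c).toAffine.Point) :
    actPt D τ (n • P) = n • actPt D τ P :=
  (mapHom (τ : Γℚ).toRingEquiv (D.fixed τ.2.1).2).map_nsmul n P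

variable (hp : p.Prime) (hA : A.LiesOverPrime p) {ζ : Qb} (hζ : IsPrimitiveRoot ζ p)
  (hcp : A.valuation D.c ≤ A.valuation (p : Qb))

include hp hA hζ hcp

/-- `wildGroup` fixes `p`-torsion in the kernel of reduction. -/
lemma actPt_eq_self_of_isE1 (τ : wildGroup A ζ) {T : (tateModel D.c).toAffine.Point}
    (hT : IsE1 A T) (hpT : p • T = 0) : actPt D τ T = T :=
  mapPt_eq_self_of_isE1 D.hc D.hc0 hp (Nat.cast_ne_zero.mpr hp.ne_zero) hcp _
    (inertia_valuation τ.2.1) (inertia_res τ.2.1) _ (sub_ne_zero.mpr (hζ.ne_one hp.one_lt))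
    (by rw [map_sub, map_one]; exact congrArg (· - 1) τ.2.2)
    (valuation_zeta_sub_one_pow hp hA hζ)
    (by
      rw [← pow_lt_one_iff_of_nonneg (n := p - 1) zero_le (by have := hp.two_le; omega),
        valuation_zeta_sub_one_pow hp hA hζ]
      exact valuation_natCast_lt_one hA) hT hpT

lemma isE1_actPt_sub (τ : wildGroup A ζ) {P : (tateModel D.c).toAffine.Point} (hP : p • P = 0) :
    IsE1 A (actPt D τ P - P) ∧ p • (actPt D τ P - P) = 0 := by
  have h : p • (actPt D τ P - P) = 0 := nsmul_mapPt_sub _ _ hP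
  exact ⟨isE1_of_isE0_torsion D.hc D.hc0 hp (valuation_natCast_lt_one hA) (n := 1)
    (by rwa [pow_one]) (isE0_mapPt_sub_of_valuation D.hc0 D.hc _ (inertia_valuation τ.2.1) _ P), h⟩

/-- The cocycle at a `p`-torsion point, a homomorphism on `wildGroup`. -/
def moveHom {P : (tateModel D.c).toAffine.Point} (hP : p • P = 0) :
    wildGroup A ζ →* Multiplicative (tateModel D.c).toAffine.Point where
  toFun τ := Multiplicative.ofAdd (actPt D τ P - P)
  map_one' := by simp [actPt_one]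
  map_mul' τ τ' := by
    rw [← ofAdd_add]
    congr 1
    obtain ⟨h1, h2⟩ := isE1_actPt_sub D hp hA hζ hcp τ' hP
    have h3 := actPt_eq_self_of_isE1 D hp hA hζ hcp τ h1 h2
    rw [actPt_sub] at h3
    rw [actPt_mul, eq_add_of_sub_eq h3]
    abel

lemma moveHom_eq_one_iff {P : (tateModel D.c).toAffine.Point} (hP : p • P = 0)
    (τ : wildGroup A ζ) : moveHom D hp hA hζ hcp hP τ = 1 ↔ actPt D τ P = P := by
  show Multiplicative.ofAdd (actPt D τ P - P) = 1 ↔ _
  rw [ofAdd_eq_one, sub_eq_zero]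

/-- The cocycle at `p`-torsion has cyclic image generated by any nontrivial value. -/
lemma moveHom_mem_zpowers {P : (tateModel D.c).toAffine.Point} (hP : p • P = 0)
    (σ τ : wildGroup A ζ) (hσ : moveHom D hp hA hζ hcp hP σ ≠ 1) :
    moveHom D hp hA hζ hcp hP τ ∈ Subgroup.zpowers (moveHom D hp hA hζ hcp hP σ) := by
  obtain ⟨T₁, -, hT₁, -, hT₁0, -, -, hspan⟩ := exists_basis_level_one D.hc0 D.hc hp
    (D.natCard_torsion hp) (natCard_isE0_torsion_le_of_residueChar D.hc D.hc0 hp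
      (valuation_natCast_lt_one hA) (Nat.cast_ne_zero.mpr hp.ne_zero) hcp)
  obtain ⟨i, hi⟩ := hspan _ (isE1_actPt_sub D hp hA hζ hcp σ hP).2
    (isE1_actPt_sub D hp hA hζ hcp σ hP).1.isE0
  obtain ⟨j, hj⟩ := hspan _ (isE1_actPt_sub D hp hA hζ hcp τ hP).2
    (isE1_actPt_sub D hp hA hζ hcp τ hP).1.isE0
  have hpi : ¬ (p : ℤ) ∣ (i : ℤ) := by
    rintro ⟨m, hm⟩
    refine hσ (show Multiplicative.ofAdd (actPt D σ P - P) = 1 from ?_)
    rw [hi, ← natCast_zsmul, hm, mul_comm, mul_zsmul, natCast_zsmul, hT₁, zsmul_zero, ofAdd_zero]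
  obtain ⟨s, t, hst⟩ := (Nat.prime_iff_prime_int.mp hp).coprime_iff_not_dvd.mpr hpi
  refine Subgroup.mem_zpowers_iff.mpr ⟨(j : ℤ) * t, ?_⟩
  show Multiplicative.ofAdd (actPt D σ P - P) ^ ((j : ℤ) * t) =
    Multiplicative.ofAdd (actPt D τ P - P)
  rw [← ofAdd_zsmul, hi, hj]
  congr 1
  rw [← natCast_zsmul, ← natCast_zsmul T₁ j, ← mul_zsmul,
    show (j : ℤ) * t * i = (j : ℤ) - (j * s) * p by linear_combination (j : ℤ) * hst, sub_zsmul,
    mul_zsmul, natCast_zsmul T₁ p, hT₁, zsmul_zero, neg_zero, add_zero]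

/-- Fixing one point off the identity component is fixing all of `E[p]`. -/
lemma smul_eq_self_of_actPt_eq_self {x y : Qb} {h : (tateModel D.c).toAffine.Nonsingular x y}
    (hP : p • (Affine.Point.some x y h) = 0) (hbad : ¬ IsE0 A (Affine.Point.some x y h))
    (τ : wildGroup A ζ) (hfix : actPt D τ (.some x y h) = .some x y h)
    {R : ((W.map (Int.castRingHom ℚ))⁄Qb).Point} (hR : p • R = 0) : (τ : Γℚ) • R = R := by
  obtain ⟨Q, rfl⟩ := D.equiv.surjective R
  have hQ : p • Q = 0 := D.equiv.injective (by rw [map_nsmul, hR, map_zero])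
  rw [← D.equiv_mapPt τ.2.1]
  congr 1
  obtain ⟨m, -, hm⟩ := exists_isE0_sub D.hc0 D.hc hp hP hbad
    (R := Q) (by rw [hQ]; trivial)
  have hpm : p • (Q - m • Affine.Point.some x y h) = 0 := by
    rw [nsmul_sub, hQ, smul_comm, hP]; simp
  have h1 := actPt_eq_self_of_isE1 D hp hA hζ hcp τ (isE1_of_isE0_torsion D.hc D.hc0 hp
    (valuation_natCast_lt_one hA) (n := 1) (by rwa [pow_one]) hm) hpm
  rw [actPt_sub, actPt_nsmul, hfix, sub_left_inj] at h1
  exact h1

/-- A moved `p`-torsion point gives an element moved by exactly `v (ζ - 1)`. -/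
lemma exists_moved (hp2 : Odd p) {N : ℤ} (hN : A.valuation D.c = A.valuation (p : Qb) ^ N)
    (hpN : (p : ℤ) ∣ N) {x y : Qb} {h : (tateModel D.c).toAffine.Nonsingular x y}
    (hP : p • (Affine.Point.some x y h) = 0) (hbad : ¬ IsE0 A (Affine.Point.some x y h))
    (σ : wildGroup A ζ) (hσ : actPt D σ (.some x y h) ≠ .some x y h) :
    ∃ z ∈ fixedSubfield ((moveHom D hp hA hζ hcp hP).ker.map (wildGroup A ζ).subtype),
      z ∈ A ∧ A.valuation (ζ - 1) ≤ A.valuation ((σ : Γℚ) z - z) := by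
  have hx : A.valuation x < 1 := not_le.mp hbad
  have he := (tateModel_equation_iff D.c x y).mp h.left
  obtain ⟨h2, hyx, hcx, k, hk⟩ := bad_torsion_facts D.hc D.hc0 hp2 hP hx
  obtain ⟨hT, hpT⟩ := isE1_actPt_sub D hp hA hζ hcp σ hP
  have hT0 : actPt D σ (.some x y h) - .some x y h ≠ 0 := sub_ne_zero.mpr hσ
  have hsum : Affine.Point.some x y h + (actPt D σ (.some x y h) - .some x y h) =
      actPt D σ (.some x y h) := add_sub_cancel _ _
  have hTv := valuation_rVal_torsion D.hc D.hc0 hp (Nat.cast_ne_zero.mpr hp.ne_zero) hcp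
    (valuation_zeta_sub_one_pow hp hA hζ) hT hT0 hpT
  obtain ⟨N', rfl⟩ := hpN
  have hxv : A.valuation x = A.valuation (p : Qb) ^ (N' * k) := by
    refine (pow_left_inj₀ zero_le zero_le hp.ne_zero).mp ?_
    rw [hk, hN, ← zpow_mul, ← zpow_natCast (A.valuation (p : Qb) ^ (N' * k)), ← zpow_mul]
    congr 1
    ring
  have hp0 : ((p : Qb) ^ (N' * k)) ≠ 0 := zpow_ne_zero _ (Nat.cast_ne_zero.mpr hp.ne_zero)
  have hz1 : A.valuation (x / (p : Qb) ^ (N' * k)) = 1 := by
    rw [map_div₀, map_zpow₀, hxv,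
      div_self (zpow_ne_zero _ (valuation_natCast_ne_zero hp))]
  refine ⟨x / (p : Qb) ^ (N' * k), ?_, (A.valuation_le_one_iff _).mp hz1.le, ?_⟩
  · rw [mem_fixedSubfield]
    rintro _ ⟨τ, hτ, rfl⟩
    rw [SetLike.mem_coe, MonoidHom.mem_ker, moveHom_eq_one_iff] at hτ
    rw [map_div₀, map_zpow₀, map_natCast]
    exact congrArg (· / (p : Qb) ^ (N' * k)) (Affine.Point.some.inj hτ).1
  · rcases hS : actPt D σ (.some x y h) - .some x y h with _ | ⟨x', y', h'⟩
    · exact absurd hS hT0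
    rw [hS] at hsum hT hTv
    have hx' : 1 < A.valuation x' := hT
    have hne : ¬(x = x' ∧ y = (tateModel D.c).toAffine.negY x' y') :=
      fun h1 => (hx.trans hx').ne (congrArg A.valuation h1.1)
    rw [Affine.Point.add_some hne] at hsum
    have hσx := (Affine.Point.some.inj hsum).1
    have hmove := valuation_addX_sub D.hc he ((tateModel_equation_iff D.c x' y').mp h'.left)
      hx hx' h2 hyx hcx
    rw [hσx] at hmove
    rw [map_div₀, map_zpow₀, map_natCast, ← sub_div, map_div₀, map_zpow₀, ← hxv]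
    show A.valuation (ζ - 1) ≤ A.valuation ((σ : Γℚ).toRingEquiv x - x) / A.valuation x
    rw [hmove, mul_div_cancel_left₀ _ (zero_lt_iff.mp (lt_of_le_of_lt zero_le hcx))]
    exact hTv.ge

end

/-- **No très ramifiée radical.** -/
theorem false_of_tres {W : WeierstrassCurve ℤ} {A : ValuationSubring (AlgebraicClosure ℚ)}
    {p : ℕ} (hp : p.Prime) (hp2 : p ≠ 2) (hA : A.LiesOverPrime p) (hΔ0 : W.Δ ≠ 0)
    (hΔ : (p : ℤ) ∣ W.Δ) (hc4 : ¬ (p : ℤ) ∣ W.c₄) (hv : p ∣ padicValInt p W.Δ)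
    {ζ : Qb} (hζ : IsPrimitiveRoot ζ p) {z u η : Qb} {j : ℤ} (hj : ¬ (p : ℤ) ∣ j)
    (huv : A.valuation u = 1) (hufix : ∀ σ ∈ A.inertiaSubgroupIn ℚ, σ u = u)
    (hη : A.valuation η < A.valuation (ζ - 1) ^ p)
    (hηfix : ∀ σ ∈ A.inertiaSubgroupIn ℚ,
      (∀ P : ((W.map (Int.castRingHom ℚ))⁄Qb).Point, p • P = 0 → σ • P = P) → σ η = η)
    (hzfix : ∀ σ ∈ A.inertiaSubgroupIn ℚ,
      (∀ P : ((W.map (Int.castRingHom ℚ))⁄Qb).Point, p • P = 0 → σ • P = P) → σ z = z)
    (heq : z ^ p = u * (p : Qb) ^ j * (1 + η)) : False := by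
  obtain ⟨D⟩ := nonempty_multData hp hA hΔ0 hΔ hc4
  have hp0 : (p : Qb) ≠ 0 := Nat.cast_ne_zero.mpr hp.ne_zero
  have hodd : Odd p := hp.odd_of_ne_two hp2
  have hN : A.valuation D.c = A.valuation (p : Qb) ^ (padicValInt p W.Δ : ℤ) := by
    rw [zpow_natCast, D.hvc, valuation_intCast hp hA hΔ0]
  have hvpos : 0 < padicValInt p W.Δ :=
    ne_zero_of_dvd_ne_zero' hp hΔ0 hΔ
  have hcp : A.valuation D.c ≤ A.valuation (p : Qb) := by
    rw [hN, zpow_natCast]
    exact pow_le_of_le_one zero_le (valuation_natCast_lt_one hA).le hvpos.ne'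
  have hπ : A.valuation (ζ - 1) ^ (p - 1) = A.valuation (p : Qb) :=
    valuation_zeta_sub_one_pow hp hA hζ
  have hπ0 : ζ - 1 ≠ 0 := sub_ne_zero.mpr (hζ.ne_one hp.one_lt)
  have hπpos : 0 < A.valuation (ζ - 1) := zero_lt_iff.mpr (A.valuation.ne_zero_iff.mpr hπ0)
  have hπ1 : A.valuation (ζ - 1) < 1 := by
    rw [← pow_lt_one_iff_of_nonneg (n := p - 1) zero_le (by have := hp.two_le; omega), hπ]
    exact valuation_natCast_lt_one hA
  -- remove the deep unit
  have hη1 : A.valuation η < 1 := hη.trans_le (pow_le_one₀ zero_le hπ1.le)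
  have h1η : A.valuation (1 + η) = 1 := A.valuation.map_one_add_of_lt hη1
  have h1η0 : 1 + η ≠ 0 := A.valuation.ne_zero_iff.mp (by rw [h1η]; exact one_ne_zero)
  obtain ⟨r, hr⟩ := IsAlgClosed.exists_pow_nat_eq (1 + η) hp.pos
  have hr0 : r ≠ 0 := by
    rintro rfl
    exact h1η0 (by rw [← hr, zero_pow hp.ne_zero])
  set w := z / r with hw
  have hu0 : u ≠ 0 := A.valuation.ne_zero_iff.mp (by rw [huv]; exact one_ne_zero)
  have hwp : w ^ p = u * (p : Qb) ^ j := by
    rw [hw, div_pow, heq, hr, mul_div_cancel_right₀ _ h1η0]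
  have hw0 : w ≠ 0 := by
    intro h0
    rw [h0, zero_pow hp.ne_zero, eq_comm] at hwp
    exact mul_ne_zero hu0 (zpow_ne_zero j hp0) hwp
  have hwv : A.valuation w ^ p = A.valuation (ζ - 1) ^ ((p - 1 : ℕ) * j) := by
    rw [← map_pow, hwp, map_mul, huv, one_mul, map_zpow₀, ← hπ, ← zpow_natCast, ← zpow_mul]
  have hk : ¬ (p : ℤ) ∣ ((p - 1 : ℕ) : ℤ) * j := by
    intro hd
    rcases (Nat.prime_iff_prime_int.mp hp).dvd_or_dvd hd with hd | hd
    · have := Nat.le_of_dvd (by have := hp.two_le; omega) (Int.natCast_dvd_natCast.mp hd)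
      have := hp.pos
      omega
    · exact hj hd
  -- a point off the identity component
  obtain ⟨-, P₁, -, -, -, hP₁, hP₁bad, -⟩ := exists_basis_level_one D.hc0 D.hc hp
    (D.natCard_torsion hp) (natCard_isE0_torsion_le_of_residueChar D.hc D.hc0 hp
      (valuation_natCast_lt_one hA) hp0 hcp)
  rcases P₁ with _ | ⟨x, y, h⟩
  · exact hP₁bad trivial
  -- `w` is fixed by the stabiliser of that point
  have hwfix : ∀ τ : wildGroup A ζ, actPt D τ (.some x y h) = .some x y h →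
      (τ : Γℚ) w = w := by
    intro τ hτ
    have hstab := fun (R : ((W.map (Int.castRingHom ℚ))⁄Qb).Point) (hR : p • R = 0) =>
      smul_eq_self_of_actPt_eq_self D hp hA hζ hcp hP₁ hP₁bad τ hτ hR
    rw [hw, map_div₀, hzfix _ τ.2.1 hstab]
    congr 1
    exact apply_eq_self_of_deep_pow (σ := (τ : Γℚ).toRingEquiv) hp hζ (inertia_valuation τ.2.1)
      τ.2.2 hr hη (hηfix _ τ.2.1 hstab)
  by_cases hall : ∀ τ : wildGroup A ζ, actPt D τ (.some x y h) = .some x y h
  · obtain ⟨k, hk'⟩ := exists_zpow_of_wildGroup_fixed hp hA hζ hw0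
      fun τ hτ => hwfix ⟨τ, hτ⟩ (hall _)
    rw [hk', ← zpow_natCast, ← zpow_mul] at hwv
    exact hk ⟨k, by
      have := zpow_right_injective₀ hπpos hπ1.ne hwv
      rw [← this, mul_comm]⟩
  · push Not at hall
    obtain ⟨σ, hσ⟩ := hall
    have hσ1 : moveHom D hp hA hζ hcp hP₁ σ ≠ 1 :=
      fun h1 => hσ ((moveHom_eq_one_iff D hp hA hζ hcp hP₁ σ).mp h1)
    have C := cyclicData_of_hom hp hA hζ (moveHom D hp hA hζ hcp hP₁) σ
      (show Multiplicative.ofAdd (actPt D σ (.some x y h) - .some x y h) ^ p = 1 by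
        rw [← ofAdd_nsmul, (isE1_actPt_sub D hp hA hζ hcp σ hP₁).2, ofAdd_zero])
      (fun τ => moveHom_mem_zpowers D hp hA hζ hcp hP₁ σ τ hσ1)
    obtain ⟨x₀, hx₀, hx₀A, hmove⟩ := exists_moved D hp hA hζ hcp hodd hN
      (Int.natCast_dvd_natCast.mpr hv) hP₁ hP₁bad σ hσ
    have hwL : w ∈ fixedSubfield
        ((moveHom D hp hA hζ hcp hP₁).ker.map (wildGroup A ζ).subtype) := by
      rw [mem_fixedSubfield]
      rintro _ ⟨τ, hτ, rfl⟩
      exact hwfix τ ((moveHom_eq_one_iff D hp hA hζ hcp hP₁ τ).mp hτ)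
    refine C.false_of_radical hx₀ hx₀A hmove hwL hw0 hwv hk ?_
    -- `σ w / w` is a `p`-th root of unity
    have hμ : ((σ : Γℚ) w / w) ^ p = 1 := by
      rw [div_pow, ← map_pow, hwp, map_mul, map_zpow₀, map_natCast, hufix _ σ.2.1,
        div_self (mul_ne_zero hu0 (zpow_ne_zero j hp0))]
    obtain ⟨i, -, hi⟩ := (haveI : NeZero p := ⟨hp.ne_zero⟩; hζ.eq_pow_of_pow_eq_one hμ)
    show A.valuation ((σ : Γℚ) w / w - 1) ≤ _
    rw [← hi, ← geom_sum_mul, map_mul]
    refine mul_le_of_le_one_left zero_le ((A.valuation_le_one_iff _).mpr ?_)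
    refine sum_mem fun k _ => pow_mem ((A.valuation_le_one_iff _).mp ?_) k
    rw [← pow_le_one_iff hp.ne_zero, ← map_pow, hζ.pow_eq_one, map_one]
where
  ne_zero_of_dvd_ne_zero' {q : ℕ} {m : ℤ} (hq : q.Prime) (hm : m ≠ 0) (hd : (q : ℤ) ∣ m) :
      0 < padicValInt q m := by
    have : Fact q.Prime := ⟨hq⟩
    by_contra h0
    have h0' : padicValInt q m = 0 := by omega
    rcases (padicValInt.eq_zero_iff (p := q) (z := m)).mp h0' with h | h | h
    · exact hq.ne_one h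
    · exact hm h
    · exact h hd

end Fermat.Agent.LevelP
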