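import Fermat.Agent.LevelP.Lower
import Fermat.Agent.RT.FreyLowering
import Fermat.Agent.RT.TorsionFrobenius
import Fermat.Agent.S29
import Fermat.Prelude.Def_FreyPackage_IsConductorLevel

/-!
# Level lowering at `p` for the Frey curve
-/

set_option autoImplicit false

noncomputable section

open WeierstrassCurve.Affine.Point (GaloisRepIsIrreducible)

namespace Fermat.Agent.LevelP

/-- `p ∣ ord_p Δ` for the integral Frey curve. -/
theorem frey_dvd_padicValInt (P : FreyPackage) : P.p ∣ padicValInt P.p P.freyCurveInt.Δ := by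
  have : Fact P.p.Prime := ⟨P.pp⟩
  have h := RT.freyCurve_isPeuRamifieeAt P
  rw [WeierstrassCurve.IsPeuRamifieeAt, WeierstrassCurve.map_Δ, eq_intCast, padicValRat.of_int] at h
  exact Int.natCast_dvd_natCast.1 h

/-- **Level lowering at `p`.** -/
theorem frey_level_lowering_at_p (P : FreyPackage) {N : ℕ} (hcond : P.IsConductorLevel N)
    (hpN : P.p ∣ N)
    (hirr : GaloisRepIsIrreducible (K := AlgebraicClosure ℚ) ℚ P.freyCurve P.p)
    (hmod : P.ModularRepOfLevel N) :
    ∃ M : ℕ, M ∣ N ∧ ¬ P.p ∣ M ∧ P.ModularRepOfLevel M := by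
  have : Fact P.p.Prime := ⟨P.pp⟩
  have hnd : ¬ P.p ∣ N / P.p := fun hd => hcond.sq_not_dvd P.pp (by
    rw [pow_two]
    exact (mul_dvd_mul_left P.p hd).trans (dvd_of_eq (Nat.mul_div_cancel' hpN)))
  have hres : P.freyCurveInt.IsResiduallyModularOfLevel P.p N :=
    RT.freyCurveInt_isResiduallyModular P (fun hg _ hp _ _ _ φ => S29.result hg hp φ)
      RT.torsionFrobeniusCharpoly hcond.pos hmod
  have : NeZero (N / P.p) := ⟨fun h => hnd (h ▸ dvd_zero _)⟩
  have hpΔ : (P.p : ℤ) ∣ P.freyCurveInt.Δ :=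
    (Endgame.prime_dvd_Δ_iff P P.pp).2 (hcond.p_dvd_abc hpN)
  refine ⟨N / P.p, Nat.div_dvd_of_dvd hpN, hnd, RT.modularRepOfLevel_of_freyCurveInt P ?_⟩
  refine isResiduallyModularOfLevel_of_mul (M := N / P.p) P.hp5 hnd
    (Endgame.freyCurveInt_Δ_ne_zero P) hpΔ (Endgame.isSemistableModel P P.p P.pp hpΔ)
    (frey_dvd_padicValInt P) (RT.frey_modRepIsIrreducible P hirr) ?_
  rwa [Nat.div_mul_cancel hpN]

end Fermat.Agent.LevelP
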