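import Mathlib.RingTheory.Valuation.ValuationSubring
import Mathlib.RingTheory.Int.Basic

/-!
# A cyclic extension of degree `p` with small ramification break

`L` is a subfield stable under the automorphism `σ`, with `σ ^ p = 1` on `L`; the fixed elements of
`L` have their values in `v(π₀) ^ ℤ` and fill the residue field. If some integral element of `L` is
moved by at least `v(π₀)`, there is a uniformiser `π` with `v(π) ^ p = v(π₀)` on which `σ` acts as
`π ↦ π (1 + η)`, `v η = v(π) ^ b`, `1 ≤ b < p`, and `σ z / z ≡ 1 + n η` to first order whenever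
`v z = v(π) ^ n`. This is the elementary form of "peu ramifié" used for Mazur's principle.
-/

set_option autoImplicit false

noncomputable section

namespace Fermat.Agent.LevelP

variable {K : Type*} [Field K]

/-- The data of a possibly ramified degree `p` cyclic extension inside a valued field. -/
structure CyclicData (A : ValuationSubring K) (σ : K ≃+* K) (L : Subfield K) (π₀ : K) (p : ℕ) :
    Prop where
  prime : p.Prime
  natCast_lt_one : A.valuation (p : K) < 1
  valuation_map : ∀ x, A.valuation (σ x) = A.valuation x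
  map_mem : ∀ x ∈ L, σ x ∈ L
  iterate_eq : ∀ x ∈ L, σ^[p] x = x
  mem : π₀ ∈ L
  fixed : σ π₀ = π₀
  ne_zero : π₀ ≠ 0
  lt_one : A.valuation π₀ < 1
  value_fixed : ∀ x ∈ L, σ x = x → x ≠ 0 → ∃ k : ℤ, A.valuation x = A.valuation π₀ ^ k
  residue_fixed : ∀ x ∈ L, x ∈ A → ∃ a ∈ L, σ a = a ∧ A.valuation (x - a) < 1

namespace CyclicData

variable {A : ValuationSubring K} {σ : K ≃+* K} {L : Subfield K} {π₀ : K} {p : ℕ}
  (D : CyclicData A σ L π₀ p)

include D

/-- Values on `L` are `p`-th roots of powers of `v(π₀)`. -/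
theorem exists_value_pow {x : K} (hx : x ∈ L) (hx0 : x ≠ 0) :
    ∃ k : ℤ, A.valuation x ^ p = A.valuation π₀ ^ k := by
  have hmem : ∀ i : ℕ, σ^[i] x ∈ L := by
    intro i
    induction i with
    | zero => exact hx
    | succ i ih => rw [Function.iterate_succ_apply']; exact D.map_mem _ ih
  have hval : ∀ i : ℕ, A.valuation (σ^[i] x) = A.valuation x := by
    intro i
    induction i with
    | zero => rfl
    | succ i ih => rw [Function.iterate_succ_apply', D.valuation_map, ih]
  set N := ∏ i ∈ Finset.range p, σ^[i] x with hN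
  have hvN : A.valuation N = A.valuation x ^ p := by
    rw [hN, map_prod, Finset.prod_congr rfl fun i _ => hval i, Finset.prod_const, Finset.card_range]
  have hfix : σ N = N := by
    have h1 : σ N * x = N * σ^[p] x := by
      rw [hN, map_prod, ← Finset.prod_range_succ, Finset.prod_range_succ']
      simp only [Function.iterate_succ_apply', Function.iterate_zero, id_eq]
    rw [D.iterate_eq x hx] at h1
    exact mul_right_cancel₀ hx0 h1
  have hN0 : N ≠ 0 := by
    intro h
    rw [h, map_zero, eq_comm, pow_eq_zero_iff D.prime.ne_zero] at hvN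
    exact hx0 (A.valuation.zero_iff.1 hvN)
  obtain ⟨k, hk⟩ := D.value_fixed N (prod_mem fun i _ => hmem i) hfix hN0
  exact ⟨k, hvN.symm.trans hk⟩

theorem valuation_pos : 0 < A.valuation π₀ :=
  zero_lt_iff.2 (A.valuation.ne_zero_iff.2 D.ne_zero)

/-- An element moved by at least `v(π₀)` forces `L` to contain a `p`-th root of `v(π₀)`. -/
theorem exists_uniformiser {x : K} (hx : x ∈ L) (hxA : x ∈ A)
    (hmove : A.valuation π₀ ≤ A.valuation (σ x - x)) :
    ∃ π ∈ L, π ≠ 0 ∧ A.valuation π ^ p = A.valuation π₀ := by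
  by_cases hall : ∀ z ∈ L, z ≠ 0 → ∃ k : ℤ, A.valuation z = A.valuation π₀ ^ k
  · exfalso
    have hstep : ∀ z ∈ L, z ∈ A → ∃ a ∈ L, σ a = a ∧ A.valuation (z - a) ≤ A.valuation π₀ := by
      intro z hz hzA
      obtain ⟨a, haL, ha, hlt⟩ := D.residue_fixed z hz hzA
      refine ⟨a, haL, ha, ?_⟩
      rcases eq_or_ne (z - a) 0 with h | h
      · rw [h, map_zero]; exact zero_le
      obtain ⟨k, hk⟩ := hall _ (sub_mem hz haL) h
      rw [hk] at hlt ⊢
      have hk1 : 1 ≤ k := by
        by_contra hneg
        refine hlt.not_ge ?_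
        calc (1 : A.ValueGroup) = A.valuation π₀ ^ (0 : ℤ) := (zpow_zero _).symm
          _ ≤ _ := zpow_le_zpow_right_of_le_one₀ D.valuation_pos D.lt_one.le (by omega)
      calc A.valuation π₀ ^ k ≤ A.valuation π₀ ^ (1 : ℤ) :=
            zpow_le_zpow_right_of_le_one₀ D.valuation_pos D.lt_one.le hk1
        _ = _ := zpow_one _
    obtain ⟨a, haL, ha, h1⟩ := hstep x hx hxA
    have hzA : (x - a) / π₀ ∈ A := by
      rw [← A.valuation_le_one_iff, map_div₀]
      exact (div_le_one₀ D.valuation_pos).2 h1
    obtain ⟨a', ha'L, ha', h2⟩ := hstep _ (div_mem (sub_mem hx haL) D.mem) hzA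
    set w := (x - a) / π₀ - a' with hw
    have hdiff : σ x - x = π₀ * (σ w - w) := by
      have hx' : x = a + π₀ * (a' + w) := by
        rw [hw]; field_simp [D.ne_zero]; ring
      conv_lhs => rw [hx']
      simp only [map_add, map_mul, ha, ha', D.fixed]
      ring
    rw [hdiff, map_mul] at hmove
    have h3 : A.valuation (σ w - w) ≤ A.valuation π₀ :=
      (A.valuation.map_sub _ _).trans (max_le ((D.valuation_map w).trans_le h2) h2)
    exact absurd (hmove.trans (mul_le_mul_right h3 _))
      (not_le.2 (mul_lt_of_lt_one_right D.valuation_pos D.lt_one))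
  · push Not at hall
    obtain ⟨y, hy, hy0, hnot⟩ := hall
    obtain ⟨k, hk⟩ := D.exists_value_pow hy hy0
    have hpk : ¬ (p : ℤ) ∣ k := by
      rintro ⟨m, rfl⟩
      refine hnot m ?_
      rw [mul_comm, zpow_mul, zpow_natCast] at hk
      exact (pow_left_inj₀ zero_le zero_le D.prime.ne_zero).1 hk
    obtain ⟨a, b, hab⟩ : IsCoprime k (p : ℤ) := by
      refine (Prime.coprime_iff_not_dvd ?_).2 hpk |>.symm
      exact Nat.prime_iff_prime_int.1 D.prime
    refine ⟨y ^ a * π₀ ^ b, mul_mem (zpow_mem hy a) (zpow_mem D.mem b),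
      mul_ne_zero (zpow_ne_zero _ hy0) (zpow_ne_zero _ D.ne_zero), ?_⟩
    rw [map_mul, map_zpow₀, map_zpow₀, mul_pow, ← zpow_natCast, ← zpow_natCast,
      ← zpow_mul, ← zpow_mul, mul_comm a, zpow_mul, zpow_natCast, hk, ← zpow_mul,
      ← zpow_add₀ D.valuation_pos.ne']
    rw [show k * a + b * (p : ℤ) = 1 by rw [← hab]; ring, zpow_one]

theorem valuation_uniformiser_lt_one {π : K} (hπ : A.valuation π ^ p = A.valuation π₀) :
    A.valuation π < 1 := by
  refine lt_of_not_ge fun h => ?_
  have := one_le_pow₀ (n := p) h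
  rw [hπ] at this
  exact this.not_gt D.lt_one

/-- Integral elements with value less than one are divisible by the uniformiser. -/
theorem div_mem_of_lt_one {π : K} (hπ : A.valuation π ^ p = A.valuation π₀) {y : K}
    (hy : y ∈ L) (hlt : A.valuation y < 1) : y / π ∈ A := by
  rw [← A.valuation_le_one_iff, map_div₀]
  have hπpos : 0 < A.valuation π := zero_lt_iff.2 fun h => by
    rw [h, zero_pow D.prime.ne_zero] at hπ
    exact D.valuation_pos.ne hπ
  refine (div_le_one₀ hπpos).2 ?_
  rcases eq_or_ne y 0 with rfl | hy0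
  · rw [map_zero]; exact zero_le
  obtain ⟨k, hk⟩ := D.exists_value_pow hy hy0
  have hk1 : 1 ≤ k := by
    by_contra hneg
    refine (pow_lt_one₀ zero_le hlt D.prime.ne_zero).not_ge ?_
    rw [hk]
    calc (1 : A.ValueGroup) = A.valuation π₀ ^ (0 : ℤ) := (zpow_zero _).symm
      _ ≤ _ := zpow_le_zpow_right_of_le_one₀ D.valuation_pos D.lt_one.le (by omega)
  refine (pow_le_pow_iff_left₀ zero_le zero_le D.prime.ne_zero).1 ?_
  rw [hπ, hk]
  calc A.valuation π₀ ^ k ≤ A.valuation π₀ ^ (1 : ℤ) :=
        zpow_le_zpow_right_of_le_one₀ D.valuation_pos D.lt_one.le hk1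
    _ = _ := zpow_one _

/-- `σ` moves every integral element of `L` by at most `max (v (σ π - π), v π ^ m)`. -/
theorem valuation_map_sub_le {π : K} (hπL : π ∈ L) (hπ : A.valuation π ^ p = A.valuation π₀)
    (m : ℕ) {z : K} (hz : z ∈ L) (hzA : z ∈ A) :
    A.valuation (σ z - z) ≤ max (A.valuation (σ π - π)) (A.valuation π ^ m) := by
  induction m generalizing z with
  | zero =>
    refine le_max_of_le_right ?_
    rw [pow_zero]
    refine (A.valuation.map_sub _ _).trans (max_le ?_ ?_)
    · rw [D.valuation_map]; exact (A.valuation_le_one_iff z).2 hzA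
    · exact (A.valuation_le_one_iff z).2 hzA
  | succ m ih =>
    have hπ1 := D.valuation_uniformiser_lt_one hπ
    obtain ⟨a, haL, ha, hlt⟩ := D.residue_fixed z hz hzA
    have hπ0 : π ≠ 0 := by
      rintro rfl
      rw [map_zero, zero_pow D.prime.ne_zero] at hπ
      exact D.valuation_pos.ne hπ
    set z' := (z - a) / π with hz'
    have hz'A : z' ∈ A := D.div_mem_of_lt_one hπ (sub_mem hz haL) hlt
    have hdiff : σ z - z = (σ π - π) * σ z' + π * (σ z' - z') := by
      have : z = a + π * z' := by rw [hz']; field_simp; ring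
      conv_lhs => rw [this]
      simp only [map_add, map_mul, ha]
      ring
    rw [hdiff]
    refine (A.valuation.map_add _ _).trans (max_le ?_ ?_)
    · refine le_max_of_le_left ?_
      rw [map_mul, D.valuation_map]
      exact mul_le_of_le_one_right zero_le ((A.valuation_le_one_iff z').2 hz'A)
    · rw [map_mul]
      calc A.valuation π * A.valuation (σ z' - z')
          ≤ A.valuation π * max (A.valuation (σ π - π)) (A.valuation π ^ m) :=
            mul_le_mul_right (ih (div_mem (sub_mem hz haL) hπL) hz'A) _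
        _ ≤ max (A.valuation (σ π - π)) (A.valuation π ^ (m + 1)) := by
            rcases le_total (A.valuation π ^ m) (A.valuation (σ π - π)) with h | h
            · rw [max_eq_left h]
              exact le_max_of_le_left (mul_le_of_le_one_left zero_le hπ1.le)
            · rw [max_eq_right h, ← pow_succ']
              exact le_max_right _ _

/-- Binomial congruence for `1 + η` with integer exponent. -/
theorem valuation_zpow_sub_le {η : K} (hη : A.valuation η < 1) (n : ℤ) :
    A.valuation ((1 + η) ^ n - (1 + n * η)) ≤ A.valuation η ^ 2 := by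
  have h1 : A.valuation (1 + η) = 1 := A.valuation.map_one_add_of_lt hη
  have hne : (1 + η) ≠ 0 := by
    intro h; rw [h, map_zero] at h1; exact zero_ne_one h1
  have hint : ∀ m : ℤ, A.valuation (m : K) ≤ 1 := fun m =>
    (A.valuation_le_one_iff _).2 (intCast_mem A m)
  induction n using Int.induction_on with
  | zero => simp
  | succ i ih =>
    have : (1 + η) ^ ((i : ℤ) + 1) - (1 + ((i : ℤ) + 1 : ℤ) * η) =
        ((1 + η) ^ (i : ℤ) - (1 + (i : ℤ) * η)) * (1 + η) + ((i : ℤ) : K) * η ^ 2 := by
      rw [zpow_add_one₀ hne]; push_cast; ring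
    rw [this]
    refine (A.valuation.map_add _ _).trans (max_le ?_ ?_)
    · rwa [map_mul, h1, mul_one]
    · rw [map_mul, map_pow]
      exact mul_le_of_le_one_left zero_le (hint _)
  | pred i ih =>
    have : ((1 + η) ^ (-(i : ℤ) - 1) - (1 + (-(i : ℤ) - 1 : ℤ) * η)) * (1 + η) =
        ((1 + η) ^ (-(i : ℤ)) - (1 + (-(i : ℤ) : ℤ) * η)) + (((i : ℤ) + 1 : ℤ) : K) * η ^ 2 := by
      rw [sub_mul, ← zpow_add_one₀ hne, sub_add_cancel]; push_cast; ring
    have h2 := congrArg A.valuation this
    rw [map_mul, h1, mul_one] at h2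
    rw [h2]
    refine (A.valuation.map_add _ _).trans (max_le ih ?_)
    rw [map_mul, map_pow]
    exact mul_le_of_le_one_left zero_le (hint _)

/-- **Small break.** If an integral element is moved by at least `v(π₀)`, then `σ` multiplies a
uniformiser by `1 + η` with `v η = v(π) ^ b`, `1 ≤ b < p`, moves integral elements by at most
`v(π) ^ (b + 1)`, and multiplies an element of value `v(π) ^ n` by `1 + n η` to that precision. -/
theorem exists_break {x : K} (hx : x ∈ L) (hxA : x ∈ A)
    (hmove : A.valuation π₀ ≤ A.valuation (σ x - x)) :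
    ∃ π ∈ L, ∃ η ∈ L, ∃ b : ℕ, 1 ≤ b ∧ b < p ∧ π ≠ 0 ∧ A.valuation π ^ p = A.valuation π₀ ∧
      A.valuation π < 1 ∧ σ π = π * (1 + η) ∧ A.valuation η = A.valuation π ^ b ∧
      (∀ z ∈ L, z ∈ A → A.valuation (σ z - z) ≤ A.valuation π ^ (b + 1)) ∧
      ∀ z ∈ L, z ≠ 0 → ∃ n : ℤ, A.valuation z = A.valuation π ^ n ∧
        A.valuation (σ z / z - (1 + n * η)) ≤ A.valuation π ^ (b + 1) := by
  obtain ⟨π, hπL, hπ0, hπ⟩ := D.exists_uniformiser hx hxA hmove
  have hπ1 := D.valuation_uniformiser_lt_one hπ
  have hπpos : 0 < A.valuation π := zero_lt_iff.2 (A.valuation.ne_zero_iff.2 hπ0)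
  have hπA : π ∈ A := (A.valuation_le_one_iff π).1 hπ1.le
  have hγ : ∀ i j : ℤ, A.valuation π ^ i ≤ A.valuation π ^ j ↔ j ≤ i := fun i j =>
    zpow_le_zpow_iff_right_of_lt_one₀ hπpos hπ1
  have hgroup : ∀ z ∈ L, z ≠ 0 → ∃ n : ℤ, A.valuation z = A.valuation π ^ n := by
    intro z hz hz0
    obtain ⟨k, hk⟩ := D.exists_value_pow hz hz0
    refine ⟨k, (pow_left_inj₀ zero_le zero_le D.prime.ne_zero).1 ?_⟩
    rw [hk, ← hπ, ← zpow_natCast, ← zpow_natCast, ← zpow_mul, ← zpow_mul, mul_comm]
  set δ := A.valuation (σ π - π) with hδ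
  have hbound := fun (z : K) (hz : z ∈ L) (hzA : z ∈ A) =>
    D.valuation_map_sub_le hπL hπ (p + 1) hz hzA
  have hδge : A.valuation π ^ p ≤ δ := by
    rcases le_max_iff.1 (hmove.trans (hbound x hx hxA)) with h | h
    · exact hπ.trans_le h
    · rw [← hπ] at h
      exact absurd h (not_le.2 (pow_lt_pow_right_of_lt_one₀ hπpos hπ1 (Nat.lt_succ_self p)))
  have hne : σ π - π ≠ 0 := by
    intro h
    rw [hδ, h, map_zero] at hδge
    exact (pow_pos hπpos p).not_ge hδge
  obtain ⟨d, hd⟩ := hgroup _ (sub_mem (D.map_mem π hπL) hπL) hne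
  -- residues of `σ π / π` are trivial
  have hunit : σ π / π ∈ A := by
    rw [← A.valuation_le_one_iff, map_div₀, D.valuation_map, div_self hπpos.ne']
  have hδlt : δ < A.valuation π := by
    have hkey : ∀ z ∈ L, z ∈ A → A.valuation (σ z - z) < 1 := by
      intro z hz hzA
      obtain ⟨a, -, ha, hlt⟩ := D.residue_fixed z hz hzA
      have : σ z - z = σ (z - a) - (z - a) := by rw [map_sub, ha]; ring
      rw [this]
      exact A.valuation.map_sub_lt (by rwa [D.valuation_map]) hlt
    -- `u = σ π / π` is congruent to a fixed `a`, whose `p`-th power is congruent to the norm `1`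
    obtain ⟨a, haL, ha, hlt⟩ := D.residue_fixed _ (div_mem (D.map_mem π hπL) hπL) hunit
    have hcong : ∀ i : ℕ, A.valuation (σ^[i] π / π - a ^ i) < 1 := by
      intro i
      induction i with
      | zero => simp [hπ0]
      | succ i ih =>
        have hai : A.valuation a ≤ 1 := by
          have := A.valuation.map_sub (σ π / π) (σ π / π - a)
          rw [sub_sub_cancel] at this
          exact this.trans (max_le ((A.valuation_le_one_iff _).2 hunit) hlt.le)
        have hu : A.valuation (σ (σ^[i] π / π)) ≤ 1 := by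
          rw [D.valuation_map]
          have := A.valuation.map_add (σ^[i] π / π - a ^ i) (a ^ i)
          rw [sub_add_cancel] at this
          exact this.trans (max_le ih.le (by rw [map_pow]; exact pow_le_one₀ zero_le hai))
        have hsplit : σ^[i + 1] π / π - a ^ (i + 1) =
            σ (σ^[i] π / π) * (σ π / π - a) + σ (σ^[i] π / π - a ^ i) * a := by
          rw [Function.iterate_succ_apply', map_sub, map_div₀, map_pow, ha]
          have : σ π ≠ 0 := by simpa using hπ0
          field_simp
          ring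
        rw [hsplit]
        refine A.valuation.map_add_lt ?_ ?_
        · rw [map_mul]; exact mul_lt_one_of_nonneg_of_lt_one_right hu zero_le hlt
        · rw [map_mul, D.valuation_map]
          exact mul_lt_one_of_nonneg_of_lt_one_left zero_le ih hai
    have hap : A.valuation (1 - a ^ p) < 1 := by
      have := hcong p
      rwa [D.iterate_eq π hπL, div_self hπ0] at this
    have hchar : A.valuation (1 - a) < 1 := by
      have hp1 : A.valuation (p : K) < 1 := D.natCast_lt_one
      have haA : a ∈ A := by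
        rw [← A.valuation_le_one_iff]
        have := A.valuation.map_sub (σ π / π) (σ π / π - a)
        rw [sub_sub_cancel] at this
        exact this.trans (max_le ((A.valuation_le_one_iff _).2 hunit) hlt.le)
      have : CharP (IsLocalRing.ResidueField A) p := by
        refine (CharP.charP_iff_prime_eq_zero D.prime).2 ?_
        rw [← map_natCast (IsLocalRing.residue A), IsLocalRing.residue_eq_zero_iff,
          ← ValuationSubring.coe_mem_nonunits_iff, A.mem_nonunits_iff]
        simpa using hp1
      have hiff : ∀ w : A, IsLocalRing.residue A w = 0 ↔ A.valuation (w : K) < 1 := fun w => by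
        rw [IsLocalRing.residue_eq_zero_iff, ← ValuationSubring.coe_mem_nonunits_iff,
          A.mem_nonunits_iff]
      have : Fact p.Prime := ⟨D.prime⟩
      have h1 : (1 - IsLocalRing.residue A ⟨a, haA⟩) ^ p = 0 := by
        rw [sub_pow_char, one_pow, ← map_pow, ← map_one (IsLocalRing.residue A), ← map_sub, hiff]
        simpa using hap
      have h2 := (hiff (1 - ⟨a, haA⟩)).1 (by rw [map_sub, map_one]; exact eq_zero_of_pow_eq_zero h1)
      simpa using h2
    have : A.valuation (σ π / π - 1) < 1 := by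
      have := A.valuation.map_sub_lt hlt hchar
      rwa [show σ π / π - a - (1 - a) = σ π / π - 1 by ring] at this
    rw [div_sub_one hπ0, map_div₀, div_lt_one₀ hπpos] at this
    exact this
  have hd1 : 2 ≤ d ∧ d ≤ p := by
    constructor
    · by_contra hcon
      refine hδlt.not_ge ?_
      rw [hδ, hd, ← zpow_one (A.valuation π), ← zpow_mul, one_mul, hγ]
      omega
    · have h := hδge.trans_eq (hδ.trans hd)
      rw [← zpow_natCast, hγ] at h
      exact h
  obtain ⟨b, rfl⟩ : ∃ b : ℕ, d = b + 1 := ⟨(d - 1).toNat, by omega⟩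
  have hδb : δ = A.valuation π ^ (b + 1) := by
    rw [hδ, hd, ← zpow_natCast]; norm_num
  have hηb : A.valuation (σ π / π - 1) = A.valuation π ^ b := by
    rw [div_sub_one hπ0, map_div₀, ← hδ, hδb, pow_succ, mul_div_assoc, div_self hπpos.ne', mul_one]
  have hmoves : ∀ z ∈ L, z ∈ A → A.valuation (σ z - z) ≤ A.valuation π ^ (b + 1) := by
    intro z hz hzA
    refine (hbound z hz hzA).trans (max_le hδb.le ?_)
    exact pow_le_pow_of_le_one zero_le hπ1.le (by omega)
  refine ⟨π, hπL, σ π / π - 1, sub_mem (div_mem (D.map_mem π hπL) hπL) (one_mem L), b,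
    by omega, by omega, hπ0, hπ, hπ1, by field_simp; ring, hηb, hmoves, ?_⟩
  intro z hz hz0
  obtain ⟨n, hn⟩ := hgroup z hz hz0
  refine ⟨n, hn, ?_⟩
  set η := σ π / π - 1 with hη
  set u := z / π ^ n with hu
  have hvu : A.valuation u = 1 := by
    rw [hu, map_div₀, map_zpow₀, hn, div_self (zpow_ne_zero n hπpos.ne')]
  have hu0 : u ≠ 0 := A.valuation.ne_zero_iff.1 (by rw [hvu]; exact one_ne_zero)
  have huL : u ∈ L := div_mem hz (zpow_mem hπL n)
  have hsplit : σ z / z = (1 + η) ^ n * (σ u / u) := by
    rw [hη, add_sub_cancel, hu, map_div₀, map_zpow₀, div_zpow]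
    have : σ π ≠ 0 := by simpa using hπ0
    field_simp
  have hηlt : A.valuation η < 1 := by
    rw [hηb]; exact pow_lt_one₀ zero_le hπ1 (by omega)
  have hu1 : A.valuation (σ u / u - 1) ≤ A.valuation π ^ (b + 1) := by
    rw [div_sub_one hu0, map_div₀, hvu, div_one]
    exact hmoves u huL ((A.valuation_le_one_iff u).1 hvu.le)
  have hsq : A.valuation η ^ 2 ≤ A.valuation π ^ (b + 1) := by
    rw [hηb, ← pow_mul]
    exact pow_le_pow_of_le_one zero_le hπ1.le (by omega)
  rw [hsplit, show (1 + η) ^ n * (σ u / u) - (1 + n * η)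
      = (1 + η) ^ n * (σ u / u - 1) + ((1 + η) ^ n - (1 + n * η)) by ring]
  refine (A.valuation.map_add _ _).trans (max_le ?_ ((D.valuation_zpow_sub_le hηlt n).trans hsq))
  rw [map_mul, map_zpow₀, A.valuation.map_one_add_of_lt hηlt, one_zpow, one_mul]
  exact hu1

end CyclicData

end Fermat.Agent.LevelP
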