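import Fermat.Agent.LevelP.Break
import Fermat.Agent.LevelP.PeuField

/-!
# Deep `p`-th roots and the exclusion of très ramifiées radicals

With `π₀ = ζ - 1`: an element whose `p`-th power is `1` modulo more than `π₀ ^ p` is within less
than `π₀` of a `p`-th root of unity, so a deep unit has all its `p`-th roots fixed with it; and in
an extension with small break no element of value prime to `p` is multiplied by a root of unity.
-/

set_option autoImplicit false

noncomputable section

namespace Fermat.Agent.LevelP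

variable {K : Type*} [Field K] {A : ValuationSubring K} {p : ℕ} {ζ : K}

/-- (a) A deep `p`-th root of unity is close to a `p`-th root of unity. -/
theorem exists_valuation_sub_pow_lt (hp : p.Prime) (hζ : IsPrimitiveRoot ζ p) {r : K}
    (hr : A.valuation (r ^ p - 1) < A.valuation (ζ - 1) ^ p) :
    ∃ i, i < p ∧ A.valuation (r - ζ ^ i) < A.valuation (ζ - 1) := by
  classical
  by_contra! h
  refine hr.not_ge ?_
  have hset : Polynomial.nthRootsFinset p (1 : K) = (Finset.range p).image (fun i => ζ ^ i) := by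
    ext μ
    rw [Polynomial.mem_nthRootsFinset hp.pos]
    simp only [Finset.mem_image, Finset.mem_range]
    constructor
    · intro hμ
      have : NeZero p := ⟨hp.ne_zero⟩
      obtain ⟨i, hi, rfl⟩ := hζ.eq_pow_of_pow_eq_one hμ
      exact ⟨i, hi, rfl⟩
    · rintro ⟨i, -, rfl⟩
      rw [← pow_mul, mul_comm, pow_mul, hζ.pow_eq_one, one_pow]
  have hprod : r ^ p - 1 = ∏ i ∈ Finset.range p, (r - ζ ^ i) := by
    have := congrArg (Polynomial.eval r) (Polynomial.X_pow_sub_one_eq_prod hp.pos hζ)
    rw [Polynomial.eval_prod, hset,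
      Finset.prod_image (fun i hi j hj hij => hζ.pow_inj (Finset.mem_range.1 hi)
        (Finset.mem_range.1 hj) hij)] at this
    simpa using this
  rw [hprod, map_prod]
  calc A.valuation (ζ - 1) ^ p = ∏ _i ∈ Finset.range p, A.valuation (ζ - 1) := by simp
    _ ≤ _ := Finset.prod_le_prod' fun i hi => h i (Finset.mem_range.1 hi)

/-- The distance from `1` of a non-trivial `p`-th root of unity. -/
theorem eq_one_of_valuation_sub_one_lt (hp : p.Prime) (hζ : IsPrimitiveRoot ζ p) {μ : K}
    (hμ : μ ^ p = 1) (hlt : A.valuation (μ - 1) < A.valuation (ζ - 1)) : μ = 1 := by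
  by_contra hne
  have : NeZero p := ⟨hp.ne_zero⟩
  obtain ⟨i, hi, rfl⟩ := hζ.eq_pow_of_pow_eq_one hμ
  have hi0 : i ≠ 0 := by rintro rfl; exact hne (pow_zero ζ)
  have hcop : Nat.Coprime i p :=
    (hp.coprime_iff_not_dvd.2 fun hd => by have := Nat.le_of_dvd (by omega) hd; omega).symm
  have hprim : IsPrimitiveRoot (ζ ^ i) p := hζ.pow_of_coprime i hcop
  obtain ⟨j, -, hj⟩ := hprim.eq_pow_of_pow_eq_one hζ.pow_eq_one
  have hμA : A.valuation (ζ ^ i) ≤ 1 := by
    rw [← pow_le_one_iff hp.ne_zero, ← map_pow, hμ, map_one]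
  refine hlt.not_ge ?_
  conv_lhs => rw [← hj]
  rw [← geom_sum_mul, map_mul]
  refine mul_le_of_le_one_left zero_le ((A.valuation_le_one_iff _).2 ?_)
  exact sum_mem fun k _ => pow_mem ((A.valuation_le_one_iff _).1 hμA) k

/-- (b) All `p`-th roots of a deep unit are fixed by whatever fixes it and `ζ`. -/
theorem apply_eq_self_of_deep_pow (hp : p.Prime) (hζ : IsPrimitiveRoot ζ p) {σ : K ≃+* K}
    (hσv : ∀ x, A.valuation (σ x) = A.valuation x) (hσζ : σ ζ = ζ) {r η : K}
    (hr : r ^ p = 1 + η) (hη : A.valuation η < A.valuation (ζ - 1) ^ p) (hση : σ η = η) :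
    σ r = r := by
  obtain ⟨i, -, hi⟩ := exists_valuation_sub_pow_lt (A := A) hp hζ (r := r)
    (by rwa [hr, add_sub_cancel_left])
  have hζA : A.valuation (ζ ^ i) = 1 := by
    rw [← pow_eq_one_iff_of_nonneg zero_le hp.ne_zero, ← map_pow, ← pow_mul, mul_comm, pow_mul,
      hζ.pow_eq_one, one_pow, map_one]
  have hζ0 : ζ ^ i ≠ 0 := pow_ne_zero i (hζ.ne_zero hp.ne_zero)
  set r' := r / ζ ^ i with hr'
  have hclose : A.valuation (r' - 1) < A.valuation (ζ - 1) := by
    rw [hr', div_sub_one hζ0, map_div₀, hζA, div_one]; exact hi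
  have hlt1 : A.valuation (r' - 1) < 1 := by
    refine hclose.trans_le ?_
    refine (A.valuation.map_sub _ _).trans (max_le ?_ (map_one _).le)
    rw [← pow_le_one_iff hp.ne_zero, ← map_pow, hζ.pow_eq_one, map_one]
  have hr'v : A.valuation r' = 1 := by
    have := A.valuation.map_one_add_of_lt hlt1
    rwa [add_sub_cancel] at this
  have hr'0 : r' ≠ 0 := A.valuation.ne_zero_iff.1 (by rw [hr'v]; exact one_ne_zero)
  have hσr' : σ r' = r' := by
    refine (div_eq_one_iff_eq hr'0).1 (eq_one_of_valuation_sub_one_lt (A := A) hp hζ ?_ ?_)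
    · rw [div_pow, ← map_pow, hr', div_pow, hr, ← pow_mul, mul_comm i p, pow_mul, hζ.pow_eq_one,
        one_pow, div_one, map_add, map_one, hση, div_self]
      intro h
      have := hr'v
      rw [hr', map_div₀, hζA, div_one] at this
      rw [← hr, pow_eq_zero_iff hp.ne_zero] at h
      rw [h, map_zero] at this
      exact zero_ne_one this
    · rw [div_sub_one hr'0, map_div₀, hr'v, div_one,
        show σ r' - r' = σ (r' - 1) - (r' - 1) by rw [map_sub, map_one]; ring]
      exact A.valuation.map_sub_lt (by rwa [hσv]) hclose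
  rw [hr', map_div₀, map_pow, hσζ, div_left_inj' hζ0] at hσr'
  exact hσr'

namespace CyclicData

variable {σ : K ≃+* K} {L : Subfield K} {π₀ : K} (D : CyclicData A σ L π₀ p)

include D

/-- (c) With a small break, no element of value prime to `p` is multiplied by something within
`v(π₀)` of `1`. -/
theorem false_of_radical {x : K} (hx : x ∈ L) (hxA : x ∈ A)
    (hmove : A.valuation π₀ ≤ A.valuation (σ x - x)) {z : K} (hz : z ∈ L) (hz0 : z ≠ 0) {k : ℤ}
    (hzv : A.valuation z ^ p = A.valuation π₀ ^ k) (hpk : ¬ (p : ℤ) ∣ k)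
    (hσz : A.valuation (σ z / z - 1) ≤ A.valuation π₀) : False := by
  obtain ⟨π, -, η, -, b, -, hbp, hπ0, hπ, hπ1, -, hη, -, hlin⟩ := D.exists_break hx hxA hmove
  obtain ⟨n, hn, h1⟩ := hlin z hz hz0
  have hπpos : 0 < A.valuation π := zero_lt_iff.2 (A.valuation.ne_zero_iff.2 hπ0)
  have hnk : n = k := by
    rw [hn, ← hπ, ← zpow_natCast, ← zpow_natCast, ← zpow_mul, ← zpow_mul] at hzv
    have := zpow_right_injective₀ hπpos hπ1.ne hzv
    exact mul_right_cancel₀ (Int.natCast_ne_zero.2 D.prime.ne_zero) (this.trans (mul_comm _ _))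
  subst hnk
  have hiff : ∀ w : A, IsLocalRing.residue A w = 0 ↔ A.valuation (w : K) < 1 := fun w => by
    rw [IsLocalRing.residue_eq_zero_iff, ← ValuationSubring.coe_mem_nonunits_iff,
      A.mem_nonunits_iff]
  have : CharP (IsLocalRing.ResidueField A) p := by
    refine (CharP.charP_iff_prime_eq_zero D.prime).2 ?_
    rw [← map_natCast (IsLocalRing.residue A), hiff]
    simpa using D.natCast_lt_one
  have hnv : A.valuation (n : K) = 1 := by
    refine le_antisymm ((A.valuation_le_one_iff _).2 (intCast_mem A n)) (not_lt.1 fun hlt => hpk ?_)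
    rw [← CharP.intCast_eq_zero_iff (IsLocalRing.ResidueField A) p,
      ← map_intCast (IsLocalRing.residue A), hiff]
    simpa using hlt
  have hnη : A.valuation ((n : K) * η) = A.valuation π ^ b := by rw [map_mul, hnv, one_mul, hη]
  have hlt : A.valuation (σ z / z - (1 + n * η)) < A.valuation ((n : K) * η) := by
    rw [hnη]
    exact h1.trans_lt (pow_lt_pow_right_of_lt_one₀ hπpos hπ1 (Nat.lt_succ_self b))
  have heq : A.valuation (σ z / z - 1) = A.valuation π ^ b := by
    rw [show σ z / z - 1 = (σ z / z - (1 + n * η)) + n * η by ring,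
      A.valuation.map_add_eq_of_lt_right hlt, hnη]
  rw [heq, ← hπ] at hσz
  exact hσz.not_gt (pow_lt_pow_right_of_lt_one₀ hπpos hπ1 hbp)

end CyclicData

end Fermat.Agent.LevelP
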