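import Mathlib.Algebra.MonoidAlgebra.Lift
import Mathlib.LinearAlgebra.Matrix.Trace
import Mathlib.LinearAlgebra.Matrix.Determinant.Basic
import Mathlib.LinearAlgebra.FiniteDimensional.Basic
import Mathlib.LinearAlgebra.Matrix.NonsingularInverse
import Mathlib.Algebra.Module.LinearMap.End
import Mathlib.Tactic.LinearCombination
import Mathlib.Tactic.Module
import Mathlib.Tactic.NoncommRing
import Mathlib.Tactic.FinCases

/-!
# Modules killed by the characteristic polynomials of a two-dimensional representation

If every `g` acts on `M` as a root of the characteristic polynomial of `ρ g`, `ρ` spanning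
`M₂(k)` and `2 ≠ 0`, then the action factors through `M₂(k)` (Boston–Lenstra–Ribet); in
particular a nonzero `M` contains a copy of `ρ`.
-/

set_option autoImplicit false

noncomputable section

open Matrix

namespace Fermat.Agent.LevelP

variable {k : Type*} [Field k] {G : Type*} [Group G] {M : Type*} [AddCommGroup M] [Module k M]
  (ρ : G →* Matrix (Fin 2) (Fin 2) k) (π : G →* Module.End k M)

/-- The extension of `π` to the group algebra. -/
def quadLift : MonoidAlgebra k G →ₐ[k] Module.End k M := MonoidAlgebra.lift k (Module.End k M) G π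

/-- The extension of `ρ` to the group algebra. -/
def quadMat : MonoidAlgebra k G →ₐ[k] Matrix (Fin 2) (Fin 2) k :=
  MonoidAlgebra.lift k (Matrix (Fin 2) (Fin 2) k) G ρ

variable {ρ π}
  (hπ : ∀ g, π g * π g - (ρ g).trace • π g + (ρ g).det • (1 : Module.End k M) = 0)

theorem det_ne_zero (g : G) : (ρ g).det ≠ 0 := by
  intro h
  have : (ρ g).det * (ρ g⁻¹).det = 1 := by rw [← det_mul, ← map_mul, mul_inv_cancel, map_one, det_one]
  rw [h, zero_mul] at this
  exact zero_ne_one this

include hπ in
theorem polar_group (g h : G) :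
    π g * π h + π h * π g = (ρ h).trace • π g + (ρ g).trace • π h +
      ((ρ g * ρ h).trace - (ρ g).trace * (ρ h).trace) • (1 : Module.End k M) := by
  have hconj : ∀ a : G, (ρ a).trace • (1 : Module.End k M) - π a = (ρ a).det • π a⁻¹ := by
    intro a
    have h1 : π a * π a⁻¹ = 1 := by rw [← map_mul, mul_inv_cancel, map_one]
    have h2 := congrArg (· * π a⁻¹) (hπ a)
    simp only [add_mul, sub_mul, mul_assoc, h1, mul_one, smul_mul_assoc, one_mul, zero_mul] at h2
    linear_combination (norm := module) -h2
  have key := hconj (g * h)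
  rw [map_mul ρ, det_mul, _root_.mul_inv_rev, map_mul π h⁻¹, map_mul π,
    mul_comm (ρ g).det, ← smul_smul, ← mul_smul_comm, ← smul_mul_assoc,
    ← hconj, ← hconj] at key
  simp only [sub_mul, mul_sub, smul_mul_assoc, mul_smul_comm, one_mul, mul_one] at key
  linear_combination (norm := module) -key

include hπ in
theorem polar (x y : MonoidAlgebra k G) :
    quadLift π x * quadLift π y + quadLift π y * quadLift π x =
      (quadMat ρ y).trace • quadLift π x + (quadMat ρ x).trace • quadLift π y +
      ((quadMat ρ x * quadMat ρ y).trace - (quadMat ρ x).trace * (quadMat ρ y).trace) •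
        (1 : Module.End k M) := by
  induction x using MonoidAlgebra.induction_on with
  | of g =>
    induction y using MonoidAlgebra.induction_on with
    | of h => simpa [quadLift, quadMat] using polar_group hπ g h
    | add a b ha hb =>
      simp only [map_add, mul_add, add_mul, trace_add, add_smul, smul_add]
      linear_combination (norm := module) ha + hb
    | smul c a ha =>
      simp only [map_smul, mul_smul_comm, smul_mul_assoc, trace_smul, smul_eq_mul]
      linear_combination (norm := module) c • ha
  | add a b ha hb =>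
    simp only [map_add, mul_add, add_mul, trace_add, add_smul, smul_add]
    linear_combination (norm := module) ha + hb
  | smul c a ha =>
    simp only [map_smul, mul_smul_comm, smul_mul_assoc, trace_smul, smul_eq_mul]
    linear_combination (norm := module) c • ha

variable (h2 : (2 : k) ≠ 0) (hspan : Submodule.span k (Set.range ρ) = ⊤)

include hspan in
theorem quadMat_surjective : Function.Surjective (quadMat ρ) := by
  intro X
  have hX : X ∈ Submodule.span k (Set.range ρ) := hspan.symm ▸ Submodule.mem_top
  induction hX using Submodule.span_induction with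
  | mem x hx =>
    obtain ⟨g, rfl⟩ := hx
    exact ⟨MonoidAlgebra.of k G g, by simp [quadMat]⟩
  | zero => exact ⟨0, map_zero _⟩
  | add a b _ _ ha hb =>
    obtain ⟨u, rfl⟩ := ha; obtain ⟨v, rfl⟩ := hb
    exact ⟨u + v, map_add _ _ _⟩
  | smul c a _ ha =>
    obtain ⟨u, rfl⟩ := ha
    exact ⟨c • u, map_smul _ _ _⟩

include hπ h2 hspan in
theorem quadLift_eq_zero {w : MonoidAlgebra k G} (hw : quadMat ρ w = 0) : quadLift π w = 0 := by
  obtain ⟨u, hu⟩ := quadMat_surjective hspan (!![1, 0; 0, -1])
  obtain ⟨v, hv⟩ := quadMat_surjective hspan (!![0, 1; 1, 0])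
  set U := quadLift π u
  set V := quadLift π v
  set W := quadLift π w
  have hanti : ∀ x, (quadMat ρ x).trace = 0 → quadLift π x * W = -(W * quadLift π x) := by
    intro x hx
    have h := polar hπ x w
    rw [hx, hw] at h
    simpa [add_eq_zero_iff_eq_neg] using h
  have hU := hanti u (by simp [hu, trace_fin_two])
  have hV := hanti v (by simp [hv, trace_fin_two])
  have hUV := hanti (u * v) (by simp [hu, hv, trace_fin_two])
  rw [map_mul] at hUV
  have h1 : U * V * W = W * (U * V) := by
    rw [mul_assoc, hV, mul_neg, ← mul_assoc, hU, neg_mul, neg_neg, mul_assoc]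
  have hz : U * V * W = 0 := by
    have : (2 : k) • (U * V * W) = 0 := by
      rw [two_smul]
      nth_rewrite 2 [hUV]
      rw [h1, add_neg_cancel]
    exact (smul_eq_zero.1 this).resolve_left h2
  have hsq : ∀ x, (quadMat ρ x).trace = 0 → (quadMat ρ x * quadMat ρ x).trace = 2 →
      quadLift π x * quadLift π x = 1 := by
    intro x hx hxx
    have h := polar hπ x x
    rw [hx, hxx] at h
    simp only [zero_smul, mul_zero, sub_zero, ← two_smul k, smul_zero, zero_add] at h
    exact smul_right_injective _ h2 h
  have hUU : U * U = 1 := hsq u (by simp [hu, trace_fin_two])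
    (by simp [hu, trace_fin_two]; norm_num)
  have hVV : V * V = 1 := hsq v (by simp [hv, trace_fin_two])
    (by simp [hv, trace_fin_two]; norm_num)
  calc W = (V * V) * W := by rw [hVV, one_mul]
    _ = V * (U * U) * V * W := by rw [hUU, mul_one]
    _ = V * U * (U * V * W) := by simp only [mul_assoc]
    _ = 0 := by rw [hz, mul_zero]

include hπ h2 hspan in
/-- **The action factors through `M₂(k)`.** -/
theorem exists_algHom :
    ∃ Φ : Matrix (Fin 2) (Fin 2) k →ₐ[k] Module.End k M, ∀ g, Φ (ρ g) = π g := by
  obtain ⟨s, hs⟩ := (quadMat ρ).toLinearMap.exists_rightInverse_of_surjective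
    (LinearMap.range_eq_top.2 (quadMat_surjective hspan))
  have hs' : ∀ X, quadMat ρ (s X) = X := fun X => LinearMap.congr_fun hs X
  have key : ∀ x, quadLift π (s (quadMat ρ x)) = quadLift π x := fun x => by
    rw [← sub_eq_zero, ← map_sub]
    exact quadLift_eq_zero hπ h2 hspan (by rw [map_sub, hs', sub_self])
  refine ⟨AlgHom.ofLinearMap ((quadLift π).toLinearMap.comp s) ?_ fun X Y => ?_, fun g => ?_⟩
  · show quadLift π (s 1) = 1
    rw [← map_one (quadMat ρ), key, map_one]
  · show quadLift π (s (X * Y)) = quadLift π (s X) * quadLift π (s Y)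
    conv_lhs => rw [← hs' X, ← hs' Y, ← map_mul, key, map_mul]
  · show quadLift π (s (ρ g)) = π g
    have := key (MonoidAlgebra.of k G g)
    simpa [quadMat, quadLift] using this

include hπ h2 hspan in
/-- **A nonzero such module contains a copy of `ρ`.** -/
theorem exists_injective_intertwiner [Nontrivial M] :
    ∃ ι : (Fin 2 → k) →ₗ[k] M, Function.Injective ι ∧ ∀ g v, ι (ρ g *ᵥ v) = π g (ι v) := by
  obtain ⟨Φ, hΦ⟩ := exists_algHom hπ h2 hspan
  obtain ⟨m, hm, hm0⟩ : ∃ m : M, Φ !![1, 0; 0, 0] m = m ∧ m ≠ 0 := by
    by_contra hcon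
    push Not at hcon
    have h0 : Φ !![1, 0; 0, 0] = 0 := LinearMap.ext fun x => hcon _ (by
      rw [← Module.End.mul_apply, ← map_mul]
      congr 2; ext i j; fin_cases i <;> fin_cases j <;> simp [mul_apply, Fin.sum_univ_two])
    have h1 : (1 : Matrix (Fin 2) (Fin 2) k) =
        !![1, 0; 0, 0] + !![0, 0; 1, 0] * !![1, 0; 0, 0] * !![0, 1; 0, 0] := by
      ext i j; fin_cases i <;> fin_cases j <;> simp [mul_apply, Fin.sum_univ_two]
    have := congrArg Φ h1
    rw [map_one, map_add, map_mul, map_mul, h0, mul_zero, zero_mul, add_zero] at this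
    obtain ⟨x, hx⟩ := exists_ne (0 : M)
    exact hx (by simpa using LinearMap.congr_fun this x)
  let col : (Fin 2 → k) →ₗ[k] Matrix (Fin 2) (Fin 2) k :=
    { toFun := fun v => !![v 0, 0; v 1, 0]
      map_add' := fun v w => by ext i j; fin_cases i <;> fin_cases j <;> simp
      map_smul' := fun c v => by ext i j; fin_cases i <;> fin_cases j <;> simp }
  let ι : (Fin 2 → k) →ₗ[k] M := (LinearMap.applyₗ m).comp (Φ.toLinearMap.comp col)
  have hι : ∀ v, ι v = Φ !![v 0, 0; v 1, 0] m := fun v => rfl
  have hmul : ∀ (A : Matrix (Fin 2) (Fin 2) k) (v : Fin 2 → k), ι (A *ᵥ v) = Φ A (ι v) := by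
    intro A v
    rw [hι, hι, ← Module.End.mul_apply, ← map_mul]
    congr 2
    ext i j; fin_cases i <;> fin_cases j <;> simp [mul_apply, mulVec, dotProduct, Fin.sum_univ_two]
  refine ⟨ι, fun v w hvw => ?_, fun g v => by rw [hmul, hΦ]⟩
  rw [← sub_eq_zero]
  set u := v - w with hudef
  have hu : ι u = 0 := by rw [hudef, map_sub, hvw, sub_self]
  have hscal : ∀ c : k, Φ (c • !![1, 0; 0, 0]) m = 0 → c = 0 := by
    intro c hc
    rw [map_smul, LinearMap.smul_apply, hm, smul_eq_zero] at hc
    exact hc.resolve_right hm0
  funext i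
  fin_cases i
  · refine hscal _ ?_
    have := congrArg (Φ !![1, 0; 0, 0]) hu
    rw [map_zero, hι, ← Module.End.mul_apply, ← map_mul] at this
    convert this using 3
    ext i j; fin_cases i <;> fin_cases j <;> simp [mul_apply, Fin.sum_univ_two]
  · refine hscal _ ?_
    have := congrArg (Φ !![0, 1; 0, 0]) hu
    rw [map_zero, hι, ← Module.End.mul_apply, ← map_mul] at this
    convert this using 3
    ext i j; fin_cases i <;> fin_cases j <;> simp [mul_apply, Fin.sum_univ_two]

end Fermat.Agent.LevelP
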