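import Fermat.Agent.EichlerShimura.Interface
import Fermat.Agent.EichlerShimura.S42Of
import Fermat.Agent.EichlerShimura.GaloisHecke
import Fermat.Agent.EichlerShimura.FiniteLevelX0
import Fermat.Agent.EC.Torsion.Rat
import Fermat.Agent.EC.Det.AbsIrreducible
import Fermat.Agent.RT.TorsionFrobenius
import Fermat.Agent.Density.FrobeniusDensity
import Fermat.Agent.Density.AbsIrr
import Fermat.Agent.LevelRaise.Eigen
import Fermat.Agent.LevelP.Quadratic
import Fermat.Agent.LevelP.PNew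

/-!
# The residual representation of a curve inside the Jacobian

If `E[p]` is irreducible and congruent to an eigenform of level `N` with `p ∣ N` and `a_p ≡ ε`,
there is an injective equivariant map `E[p] → J₀(N)` on whose image `T_ℓ = a_ℓ` and `U_p = ε`.
-/

set_option autoImplicit false

noncomputable section

open scoped WeierstrassCurve.Affine MatrixGroups
open CongruenceSubgroup ModularCurve Matrix
open WeierstrassCurve.Affine.Point
open Fermat.Agent.EichlerShimura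

namespace Fermat.Agent.LevelP

local notation "ℚ̄" => AlgebraicClosure ℚ
local notation "Γℚ" => (AlgebraicClosure ℚ ≃ₐ[ℚ] AlgebraicClosure ℚ)

/-- Powers of a root of the characteristic polynomial of a `2 × 2` matrix are roots of the
characteristic polynomials of the powers. -/
theorem quadratic_pow {k A : Type*} [CommRing k] [Ring A] [Algebra k A]
    (P : Matrix (Fin 2) (Fin 2) k) (a : A)
    (h : a * a - P.trace • a + P.det • (1 : A) = 0) (b : ℕ) :
    a ^ b * a ^ b - (P ^ b).trace • a ^ b + (P ^ b).det • (1 : A) = 0 := by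
  have hP : P * P = P.trace • P - P.det • 1 := Density.matrix_two_mul_self P
  have ha : a * a = P.trace • a - P.det • 1 := by linear_combination (norm := module) h
  obtain ⟨u, v, hu, hv⟩ : ∃ u v : k, P ^ b = u • P + v • 1 ∧ a ^ b = u • a + v • 1 := by
    induction b with
    | zero => exact ⟨0, 1, by simp, by simp⟩
    | succ b ih =>
      obtain ⟨u, v, hu, hv⟩ := ih
      refine ⟨u * P.trace + v, -(u * P.det), ?_, ?_⟩
      · rw [pow_succ, hu, add_mul, smul_mul_assoc, hP, smul_mul_assoc, one_mul]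
        module
      · rw [pow_succ, hv, add_mul, smul_mul_assoc, ha, smul_mul_assoc, one_mul]
        module
  rw [hv, hu]
  simp only [add_mul, mul_add, smul_mul_assoc, mul_smul_comm, one_mul, mul_one, ha,
    Matrix.trace_fin_two, Matrix.det_fin_two, Matrix.add_apply, Matrix.smul_apply, smul_eq_mul,
    Matrix.one_apply_eq, ne_eq, Fin.isValue, zero_ne_one, one_ne_zero, not_false_eq_true,
    Matrix.one_apply_ne, mul_zero, add_zero]
  module

variable (W : WeierstrassCurve ℤ) {p N : ℕ} [NeZero N]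

/-- The joint eigen-torsion. -/
def eigenTorsion (p : ℕ) (U : JZero N →+ JZero N) (ε : ℤ) : AddSubgroup (JZero N) where
  carrier := {x | p • x = 0 ∧ (∀ ℓ : Nat.Primes, W.IsGoodPrimeFor ℓ → ¬ (ℓ : ℕ) ∣ N * p →
      heckeOperatorBar N ℓ x = W.apOfModel ℓ • x) ∧ U x = ε • x}
  zero_mem' := ⟨nsmul_zero p, fun ℓ _ _ => by rw [_root_.map_zero, zsmul_zero],
    by rw [_root_.map_zero, zsmul_zero]⟩
  add_mem' {x y} hx hy := ⟨by rw [nsmul_add, hx.1, hy.1, add_zero],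
    fun ℓ hg hn => by rw [map_add, hx.2.1 ℓ hg hn, hy.2.1 ℓ hg hn, zsmul_add],
    by rw [map_add, hx.2.2, hy.2.2, zsmul_add]⟩
  neg_mem' {x} hx := ⟨by rw [neg_nsmul, hx.1, _root_.neg_zero],
    fun ℓ hg hn => by rw [map_neg, hx.2.1 ℓ hg hn, zsmul_neg],
    by rw [map_neg, hx.2.2, zsmul_neg]⟩

variable {W}

theorem smul_mem_eigenTorsion {U : JZero N →+ JZero N} {ε : ℤ}
    (hUσ : ∀ (σ : Γℚ) (x : JZero N), σ • U x = U (σ • x)) (σ : Γℚ) {x : JZero N}
    (hx : x ∈ eigenTorsion W p U ε) : σ • x ∈ eigenTorsion W p U ε := by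
  refine ⟨?_, fun ℓ hg hn => ?_, ?_⟩
  · have h := map_nsmul (DistribSMul.toAddMonoidHom (JZero N) σ) p x
    rw [hx.1, _root_.map_zero] at h
    exact h.symm
  · rw [← galois_smul_heckeOperatorBar ℓ σ x, hx.2.1 ℓ hg hn]
    exact map_zsmul (DistribSMul.toAddMonoidHom (JZero N) σ) _ x
  · rw [← hUσ, hx.2.2]
    exact map_zsmul (DistribSMul.toAddMonoidHom (JZero N) σ) _ x

instance (U : JZero N →+ JZero N) (ε : ℤ) : Module (ZMod p) (eigenTorsion W p U ε) :=
  AddCommGroup.zmodModule fun x => Subtype.ext x.2.1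

/-- The inclusion `ZMod p → ℚ/ℤ`, `1 ↦ 1/p`. -/
theorem exists_zmod_injective_qz (p : ℕ) [NeZero p] :
    ∃ ι : ZMod p →+ QZ, Function.Injective ι := by
  let g : {f : ℤ →+ QZ // f p = 0} :=
    ⟨zmultiplesHom QZ (((1 : ℚ) / p : ℚ) : QZ), by
      rw [zmultiplesHom_apply, ← AddCircle.coe_zsmul, zsmul_eq_mul, Int.cast_natCast,
        mul_one_div, div_self (Nat.cast_ne_zero.mpr (NeZero.ne p))]
      exact AddCircle.coe_period 1⟩
  refine ⟨ZMod.lift p g, (ZMod.lift_injective p).2 fun m hm => ?_⟩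
  rw [zmultiplesHom_apply, ← AddCircle.coe_zsmul] at hm
  obtain ⟨n, hn⟩ := (AddCircle.coe_eq_zero_iff _).1 hm
  rw [zsmul_eq_mul, zsmul_eq_mul, mul_one] at hn
  have hp : (p : ℚ) ≠ 0 := Nat.cast_ne_zero.mpr (NeZero.ne p)
  have : (m : ℚ) = ((p : ℤ) * n : ℤ) := by
    push_cast
    rw [hn]; field_simp
  rw [Int.cast_inj] at this
  exact (ZMod.intCast_zmod_eq_zero_iff_dvd m p).mpr ⟨n, this⟩

section main

variable (hΔ : W.Δ ≠ 0) [Fact p.Prime]
  (e : torsionPts N ≃+ Periods.cuspidalHoms ℤ (Gamma0 N) QZ)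
  (hT : ∀ (ℓ : Nat.Primes), ¬ (ℓ : ℕ) ∣ N → ∀ x,
    (e (torsionMap (heckeOperatorBar N ℓ).toAddMonoidHom x) : Additive (Gamma0 N) →+ QZ) =
      Periods.heckeHom ℤ QZ ℓ.2 (e x : Additive (Gamma0 N) →+ QZ))
  {U : JZero N →+ JZero N} (hUσ : ∀ (σ : Γℚ) (x : JZero N), σ • U x = U (σ • x))
  (hUe : ∀ x, (e (torsionMap U x) : Additive (Gamma0 N) →+ QZ) =
    Periods.heckeHom ℤ QZ (Fact.out : p.Prime) (e x : Additive (Gamma0 N) →+ QZ))
  {f : CuspForm (Gamma0 N) 2} (hf : f.IsNormalizedEigenform)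
  {𝔪 : Ideal (integralClosure ℤ ℂ)} (hmax : 𝔪.IsMaximal) (hpm : (p : integralClosure ℤ ℂ) ∈ 𝔪)
  (hcong : ∀ ℓ : ℕ, ℓ.Prime → W.IsGoodPrimeFor ℓ → ¬ ℓ ∣ N → ℓ ≠ p →
    ∃ a : integralClosure ℤ ℂ, (a : ℂ) = ModularFormClass.qCoeff f ℓ ∧
      a - ((W.apOfModel ℓ : ℤ) : integralClosure ℤ ℂ) ∈ 𝔪)
  {ε : ℤ} (hε : ∃ a : integralClosure ℤ ℂ, (a : ℂ) = ModularFormClass.qCoeff f p ∧
    a - (ε : integralClosure ℤ ℂ) ∈ 𝔪)

include e hT hUe hf hmax hpm hcong hε in
/-- The eigen-torsion is nonzero. -/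
theorem exists_mem_eigenTorsion_ne_zero : ∃ x ∈ eigenTorsion W p U ε, x ≠ 0 := by
  classical
  have hp : p.Prime := Fact.out
  let G : Set ℕ := {ℓ | W.IsGoodPrimeFor ℓ ∧ ¬ ℓ ∣ N * p} ∪ {p}
  obtain ⟨φ, hφc, hφ0, hφ⟩ := LevelRaise.exists_modp_eigenclass hp hf hmax hpm G
    (fun ℓ => if ℓ = p then ε else W.apOfModel ℓ) (by
      intro ℓ hℓ hℓp
      by_cases h : ℓ = p
      · subst h; simpa using hε
      · rcases hℓ with ⟨hg, hn⟩ | hℓ
        · simpa [h] using hcong ℓ hℓp hg (fun h' => hn (h'.mul_right p)) h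
        · exact absurd hℓ h)
  obtain ⟨ι, hι⟩ := exists_zmod_injective_qz p
  have hψc : ι.comp φ ∈ Periods.cuspidalHoms ℤ (Gamma0 N) QZ := fun γ hγ => by
    show ι (φ (Additive.ofMul γ)) = 0
    rw [hφc γ hγ, _root_.map_zero]
  set y := e.symm ⟨_, hψc⟩ with hy
  have hey : ((e y : Periods.cuspidalHoms ℤ (Gamma0 N) QZ) : Additive (Gamma0 N) →+ QZ) =
      ι.comp φ := by rw [hy, e.apply_symm_apply]
  have key : ∀ (T : JZero N →+ JZero N) (c : ℤ),
      (e (torsionMap T y) : Additive (Gamma0 N) →+ QZ) = ι.comp (c • φ) →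
      T y = c • (y : JZero N) := by
    intro T c h
    have : torsionMap T y = c • y := by
      refine e.injective (Subtype.ext ?_)
      rw [h, map_zsmul, Submodule.coe_smul_of_tower, hey]
      ext γ
      exact map_zsmul ι c _
    have := congrArg Subtype.val this
    simpa using this
  refine ⟨y, ⟨?_, fun ℓ hg hn => ?_, ?_⟩, fun h0 => hφ0 ?_⟩
  · have : p • y = 0 := by
      refine e.injective (Subtype.ext ?_)
      rw [map_nsmul, _root_.map_zero, Submodule.coe_smul_of_tower, hey]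
      ext γ
      show p • ι (φ γ) = 0
      rw [← map_nsmul, nsmul_eq_mul, ZMod.natCast_self, zero_mul, _root_.map_zero]
    simpa using congrArg Subtype.val this
  · refine key (heckeOperatorBar N ℓ).toAddMonoidHom _ ?_
    rw [hT ℓ (fun h => hn (h.mul_right p)), hey, Periods.heckeHom_comp,
      hφ ℓ (Or.inl ⟨hg, hn⟩) ℓ.2, if_neg fun h => hn (by rw [h]; exact dvd_mul_left p N)]
  · refine key U _ ?_
    rw [hUe, hey, Periods.heckeHom_comp, hφ p (Or.inr rfl) hp, if_pos rfl]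
  · have h1 : ι.comp φ = 0 := by
      rw [← hey, show y = 0 from Subtype.ext h0, _root_.map_zero]; rfl
    exact AddMonoidHom.ext fun γ => hι
      ((DFunLike.congr_fun h1 γ).trans (_root_.map_zero ι).symm)

include hΔ hT hUσ hUe hf hmax hpm hcong hε in
/-- **`E[p]` inside `J₀(N)`.** -/
theorem exists_embedding (hp2 : p ≠ 2) (hirr : W.ModRepIsIrreducible p)
    (hF : FrobeniusOnTorsion N p) :
    ∃ i : Submodule.torsionBy ℤ ((W.map (Int.castRingHom ℚ))⁄ℚ̄).Point p →+ JZero N,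
      Function.Injective i ∧
      (∀ (σ : Γℚ) P, σ • i P =
        i (galoisRepModuleEnd (K := ℚ̄) ℚ (W.map (Int.castRingHom ℚ)) p σ P)) ∧
      (∀ ℓ : Nat.Primes, W.IsGoodPrimeFor ℓ → ¬ (ℓ : ℕ) ∣ N * p →
        ∀ P, heckeOperatorBar N ℓ (i P) = W.apOfModel ℓ • i P) ∧
      ∀ P, U (i P) = ε • i P := by
  classical
  have hp : p.Prime := Fact.out
  have : (W.map (Int.castRingHom ℚ)).IsElliptic := EC.isElliptic_map_rat hΔ
  set R := EC.torsionRepRat (W.map (Int.castRingHom ℚ)) p with hR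
  have habs : R.IsAbsolutelyIrreducible :=
    EC.residualGaloisRepOf_isAbsolutelyIrreducible hΔ hp2 _ _ hirr
  obtain ⟨x₀, hx₀, hx₀0⟩ := exists_mem_eigenTorsion_ne_zero e hT hUe hf hmax hpm hcong hε
  have : Nontrivial (eigenTorsion W p U ε) := ⟨⟨x₀, hx₀⟩, 0, fun h => hx₀0 (congrArg Subtype.val h)⟩
  let act : Γℚ → (eigenTorsion W p U ε) →+ (eigenTorsion W p U ε) := fun σ =>
    { toFun := fun x => ⟨σ • (x : JZero N), smul_mem_eigenTorsion hUσ σ x.2⟩
      map_zero' := Subtype.ext (smul_zero σ)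
      map_add' := fun x y => Subtype.ext (smul_add σ (x : JZero N) y) }
  let π : Γℚ →* Module.End (ZMod p) (eigenTorsion W p U ε) :=
    { toFun := fun σ => (act σ).toZModLinearMap p
      map_one' := LinearMap.ext fun x => Subtype.ext (by
        show (1 : Γℚ) • (x : JZero N) = (x : JZero N)
        exact one_smul Γℚ (x : JZero N))
      map_mul' := fun σ τ => LinearMap.ext fun x => Subtype.ext (by
        show (σ * τ) • (x : JZero N) = σ • τ • (x : JZero N)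
        exact mul_smul σ τ (x : JZero N)) }
  have hπ' : ∀ (σ : Γℚ) (x : eigenTorsion W p U ε), ((DFunLike.coe (π σ) x : eigenTorsion W p U ε) : JZero N) = σ • (x : JZero N) := fun σ x => rfl
  let b := Module.finBasisOfFinrankEq (ZMod p) R.V R.finrank_eq
  let ρM : Γℚ →* Matrix (Fin 2) (Fin 2) (ZMod p) :=
    (LinearMap.toMatrixAlgEquiv b).toAlgHom.toRingHom.toMonoidHom.comp R.ρ
  have hρM : ∀ σ, ρM σ = LinearMap.toMatrixAlgEquiv b (R.ρ σ) := fun σ => rfl
  have hspan : Submodule.span (ZMod p) (Set.range ρM) = ⊤ := by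
    rw [show Set.range ρM = (LinearMap.toMatrixAlgEquiv b).toLinearEquiv.toLinearMap '' Set.range R.ρ
      from by rw [← Set.range_comp]; rfl, Submodule.span_image,
      (Density.isAbsolutelyIrreducible_iff_span R).1 habs, Submodule.map_top]
    exact LinearMap.range_eq_top.2 (LinearMap.toMatrixAlgEquiv b).surjective
  obtain ⟨L₀, hL₀, hkerρ⟩ := R.factorsThroughFiniteLevel
  have hfrob : ∀ ℓ : ℕ, ℓ.Prime → W.IsGoodPrimeFor ℓ → ¬ ℓ ∣ N * p →
      ∀ A : ValuationSubring ℚ̄, A.LiesOverPrime ℓ → ∀ σ : Γℚ, A.IsFrobeniusAt σ ℓ →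
      π σ * π σ - (ρM σ).trace • π σ + (ρM σ).det • (1 : Module.End (ZMod p) (eigenTorsion W p U ε)) = 0 := by
    intro ℓ hℓ hg hn A hA σ hσ
    have hℓp : ℓ ≠ p := fun h => hn (h ▸ dvd_mul_left p N)
    have hcp := RT.torsionFrobeniusCharpoly W p ℓ hℓ hℓp hg A hA σ hσ
    obtain ⟨ht, hd⟩ := EichlerShimura.trace_det_of_charpoly_finrank_two R.finrank_eq (R.ρ σ) hcp
    have ht' : (ρM σ).trace = (W.apOfModel ℓ : ZMod p) :=
      (LinearMap.trace_eq_matrix_trace (ZMod p) b (R.ρ σ)).symm.trans ht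
    have hd' : (ρM σ).det = (ℓ : ZMod p) :=
      (LinearMap.det_toMatrix b (R.ρ σ)).trans hd
    refine LinearMap.ext fun x => Subtype.ext ?_
    have h := (hF ℓ hℓ hn A hA).2 σ hσ (x : JZero N) ⟨1, by rw [pow_one]; exact x.2.1⟩
    rw [(smul_mem_eigenTorsion hUσ σ x.2).2.1 ⟨ℓ, hℓ⟩ hg hn] at h
    rw [ht', hd', LinearMap.add_apply, LinearMap.sub_apply, Module.End.mul_apply,
      LinearMap.smul_apply, LinearMap.smul_apply, Module.End.one_apply, ← Int.cast_natCast ℓ,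
      Int.cast_smul_eq_zsmul, Int.cast_smul_eq_zsmul, AddSubgroup.coe_add, AddSubgroup.coe_sub,
      AddSubgroup.coe_zsmul, AddSubgroup.coe_zsmul, hπ', hπ', natCast_zsmul]
    exact h
  have hπ : ∀ g, π g * π g - (ρM g).trace • π g + (ρM g).det • (1 : Module.End (ZMod p) (eigenTorsion W p U ε)) = 0 := by
    intro g
    refine LinearMap.ext fun x => ?_
    obtain ⟨L₁, hL₁, h₁⟩ := galoisFiniteLevel_x0 N (x : JZero N)
    obtain ⟨L₂, hL₂, h₂⟩ := galoisFiniteLevel_x0 N (g • (x : JZero N))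
    let bad : Finset ℕ := (N * p * W.Δ.natAbs).divisors
    obtain ⟨ℓ, hℓ, hℓbad, A, σ, hA, hσ, -, -, c, -, hgσ⟩ :=
      Density.exists_isFrobeniusAt_agree_pow (L₀ ⊔ L₁ ⊔ L₂) g bad
    have hne : N * p * W.Δ.natAbs ≠ 0 :=
      mul_ne_zero (mul_ne_zero (NeZero.ne N) hp.ne_zero) (Int.natAbs_ne_zero.mpr hΔ)
    have hn : ¬ ℓ ∣ N * p := fun h => hℓbad (Nat.mem_divisors.mpr ⟨h.mul_right _, hne⟩)
    have hg : W.IsGoodPrimeFor ℓ := fun h => hℓbad (Nat.mem_divisors.mpr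
      ⟨(Int.natCast_dvd.mp h).mul_left _, hne⟩)
    have hfix : ∀ y ∈ L₀ ⊔ L₁ ⊔ L₂, ((σ ^ c)⁻¹ * g) y = y := fun y hy => by
      rw [AlgEquiv.mul_apply, hgσ y hy]
      exact (σ ^ c).symm_apply_apply y
    have hρeq : ρM g = ρM σ ^ c := by
      have h1 : R.ρ ((σ ^ c)⁻¹ * g) = 1 := hkerρ _ fun y hy =>
        hfix y ((le_sup_left.trans le_sup_left : L₀ ≤ L₀ ⊔ L₁ ⊔ L₂) hy)
      rw [← map_pow, hρM, hρM]
      congr 1
      rw [← mul_inv_cancel_left (σ ^ c) g, map_mul, h1, mul_one]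
    have hx1 : π g x = (π σ ^ c) x := by
      refine Subtype.ext ?_
      rw [← map_pow, hπ', hπ']
      have h := h₁ ((σ ^ c)⁻¹ * g) fun y hy =>
        hfix y ((le_sup_right.trans le_sup_left : L₁ ≤ L₀ ⊔ L₁ ⊔ L₂) hy)
      rw [mul_smul, inv_smul_eq_iff] at h
      exact h
    have hx2 : π g (π g x) = (π σ ^ c) (π g x) := by
      refine Subtype.ext ?_
      rw [← map_pow, hπ', hπ', hπ']
      have h := h₂ ((σ ^ c)⁻¹ * g) fun y hy =>
        hfix y ((le_sup_right : L₂ ≤ L₀ ⊔ L₁ ⊔ L₂) hy)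
      rw [mul_smul, inv_smul_eq_iff] at h
      exact h
    have h := LinearMap.congr_fun
      (quadratic_pow (ρM σ) (π σ) (hfrob ℓ hℓ hg hn A hA σ hσ) c) x
    rw [hρeq, LinearMap.add_apply, LinearMap.sub_apply, Module.End.mul_apply,
      LinearMap.smul_apply, LinearMap.smul_apply, hx2, hx1]
    exact h
  have h2 : (2 : ZMod p) ≠ 0 := by
    rw [show (2 : ZMod p) = ((2 : ℕ) : ZMod p) by norm_num, Ne, ZMod.natCast_eq_zero_iff]
    intro h
    exact hp2 ((Nat.prime_dvd_prime_iff_eq hp Nat.prime_two).mp h)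
  obtain ⟨ι, hι, hιρ⟩ := exists_injective_intertwiner hπ h2 hspan
  refine ⟨(eigenTorsion W p U ε).subtype.comp (ι.toAddMonoidHom.comp b.equivFun.toLinearMap.toAddMonoidHom),
    Subtype.val_injective.comp (hι.comp b.equivFun.injective), fun σ P => ?_,
    fun ℓ hg hn P => (ι (b.equivFun P)).2.2.1 ℓ hg hn, fun P => (ι (b.equivFun P)).2.2.2⟩
  show σ • (ι (b.equivFun P) : JZero N) = (ι (b.equivFun (R.ρ σ P)) : JZero N)
  rw [← hπ', ← hιρ]
  congr 2
  exact (LinearMap.toMatrix_mulVec_repr b b (R.ρ σ) P)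

end main

/-- If `W` is residually modular of level `M * p` but not of level `M`, it has a congruent eigenform
of level `M * p` with `a_p = ±1`. -/
theorem exists_congruent_sign {W : WeierstrassCurve ℤ} {p M : ℕ} [NeZero M] (hp : p.Prime)
    (hpM : ¬ p ∣ M) (hmod : W.IsResiduallyModularOfLevel p (M * p))
    (hnot : ¬ W.IsResiduallyModularOfLevel p M) :
    ∃ (f : CuspForm (Gamma0 (M * p)) 2) (𝔪 : Ideal (integralClosure ℤ ℂ)) (ε : ℤ),
      f.IsNormalizedEigenform ∧ 𝔪.IsMaximal ∧ (p : integralClosure ℤ ℂ) ∈ 𝔪 ∧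
      (ε = 1 ∨ ε = -1) ∧
      (∀ ℓ : ℕ, ℓ.Prime → W.IsGoodPrimeFor ℓ → ¬ ℓ ∣ M * p → ℓ ≠ p →
        ∃ a : integralClosure ℤ ℂ, (a : ℂ) = ModularFormClass.qCoeff f ℓ ∧
          a - ((W.apOfModel ℓ : ℤ) : integralClosure ℤ ℂ) ∈ 𝔪) ∧
      ∃ a : integralClosure ℤ ℂ, (a : ℂ) = ModularFormClass.qCoeff f p ∧
        a - (ε : integralClosure ℤ ℂ) ∈ 𝔪 := by
  obtain ⟨f, 𝔪, hf, hmax, hpm, hcong⟩ := hmod
  rcases goodEigensystemOccursAt_or_sq_eq_one hp hpM hf with ⟨g, hg, hgf⟩ | h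
  · refine absurd ⟨g, 𝔪, hg, hmax, hpm, fun ℓ hℓ hgood hℓM hℓp => ?_⟩ hnot
    have hn : ¬ ℓ ∣ M * p := fun h => (hℓ.dvd_mul.mp h).elim hℓM
      fun h' => hℓp ((Nat.prime_dvd_prime_iff_eq hℓ hp).mp h')
    obtain ⟨a, ha, ha'⟩ := hcong ℓ hℓ hgood hn hℓp
    exact ⟨a, ha.trans (hgf ℓ hℓ hn).symm, ha'⟩
  · obtain ⟨ε, hε, h'⟩ : ∃ ε : ℤ, (ε = 1 ∨ ε = -1) ∧ ModularFormClass.qCoeff f p = ε := by
      rcases sq_eq_one_iff.mp h with h | h
      · exact ⟨1, Or.inl rfl, by simp [h]⟩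
      · exact ⟨-1, Or.inr rfl, by simp [h]⟩
    exact ⟨f, 𝔪, ε, hf, hmax, hpm, hε, hcong,
      (ε : integralClosure ℤ ℂ), by rw [h']; simp, by simp⟩

end Fermat.Agent.LevelP
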