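import Fermat.Agent.LevelP.Rigid
import Fermat.Agent.LevelP.Embedding
import Fermat.Agent.LevelP.PNew
import Fermat.Agent.LevelP.Quadratic
import Fermat.Prelude.Def_FLTPrelim_ModularRep
import Fermat.Agent.EichlerShimura.Interface
import Fermat.Agent.EichlerShimura.Inputs
import Fermat.Agent.BadPrime.Mazur.Embedding
import Fermat.Agent.BadPrime.Mazur.LevelDescent
import Fermat.Agent.EichlerShimura.S29Of
import Fermat.Agent.EichlerShimura.GaloisMatrices
import Fermat.Agent.BadPrime.NewformEigenPart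
import Fermat.Agent.BadPrime.EigenLattice
import Fermat.Agent.LevelRaise.NonEisenstein

/-!
# The eigenclass inputs of Mazur's principle at `p`
-/

set_option autoImplicit false
set_option synthInstance.maxHeartbeats 400000
set_option maxHeartbeats 400000

noncomputable section

namespace Fermat.Agent.LevelP

open AlgebraicCurve ModularCurve WeierstrassCurve
open scoped WeierstrassCurve.Affine

local notation "Qb" => AlgebraicClosure ℚ

variable (W : WeierstrassCurve ℤ) (p M : ℕ) [Fact p.Prime] [NeZero M]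

/-- The primes to avoid. -/
def badLevel : ℕ := M * p * W.Δ.natAbs

theorem isGoodPrimeFor_of_goodPrime (ℓ : GoodPrime (badLevel W p M)) :
    W.IsGoodPrimeFor (ℓ.1 : ℕ) := fun h =>
  ℓ.2 (dvd_mul_of_dvd_right (Int.natCast_dvd.mp h) _)

/-- **The Galois representation in the Jacobian.** -/
theorem exists_eigen_embedding (hp5 : 5 ≤ p) (hpM : ¬ p ∣ M) (hΔ : W.Δ ≠ 0)
    (hirr : W.ModRepIsIrreducible p) (hmod : W.IsResiduallyModularOfLevel p (M * p)) :
    ∃ ι : Submodule.torsionBy ℤ ((W.map (Int.castRingHom ℚ))⁄Qb).Point (p : ℤ) →+ JZero (M * p),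
      Function.Injective ι ∧
      (∀ (σ : Qb ≃ₐ[ℚ] Qb)
        (x : Submodule.torsionBy ℤ ((W.map (Int.castRingHom ℚ))⁄Qb).Point (p : ℤ))
        (h : σ • (x : ((W.map (Int.castRingHom ℚ))⁄Qb).Point) ∈
          Submodule.torsionBy ℤ ((W.map (Int.castRingHom ℚ))⁄Qb).Point (p : ℤ)),
        ι ⟨_, h⟩ = σ • ι x) ∧
      ∀ (ℓ : GoodPrime (badLevel W p M)), ∀ x,
        heckeOperatorBar (M * p) ℓ.1 (ι x) = W.apOfModel (ℓ.1 : ℕ) • ι x := by
  classical
  have hp : p.Prime := Fact.out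
  have : NeZero (M * p) := ⟨mul_ne_zero (NeZero.ne M) hp.ne_zero⟩
  have : (W.map (Int.castRingHom ℚ)).IsElliptic := EC.isElliptic_map_rat hΔ
  set ρ := EC.torsionRepRat (W.map (Int.castRingHom ℚ)) p
  have habs : ρ.IsAbsolutelyIrreducible :=
    EC.residualGaloisRepOf_isAbsolutelyIrreducible hΔ (by omega) _ _ hirr
  have hS0 : badLevel W p M ≠ 0 :=
    mul_ne_zero (mul_ne_zero (NeZero.ne M) hp.ne_zero) (Int.natAbs_ne_zero.2 hΔ)
  set S : Finset ℕ := (badLevel W p M).primeFactors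
  have hout : ∀ ℓ : ℕ, ℓ.Prime → ℓ ∉ S → ¬ ℓ ∣ M * p * p ∧ W.IsGoodPrimeFor ℓ ∧ ℓ ≠ p := by
    intro ℓ hℓ hℓS
    have h : ¬ ℓ ∣ badLevel W p M := fun h => hℓS (Nat.mem_primeFactors.2 ⟨hℓ, h, hS0⟩)
    refine ⟨fun h' => h (((hℓ.dvd_mul.1 h').elim id fun h'' => h''.mul_left M).mul_right _),
      fun h' => h (dvd_mul_of_dvd_right (Int.natCast_dvd.1 h') _),
      fun h' => h ?_⟩
    rw [h']
    exact (dvd_mul_left p M).mul_right _
  have hchar : ∀ ℓ : ℕ, ℓ.Prime → ℓ ∉ S → ∀ A : ValuationSubring Qb, A.LiesOverPrime ℓ →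
      ∀ σ : Qb ≃ₐ[ℚ] Qb, A.IsFrobeniusAt σ ℓ →
        LinearMap.charpoly (ρ.ρ σ) = Polynomial.X ^ 2 -
          Polynomial.C (W.apOfModel ℓ : ZMod p) * Polynomial.X + Polynomial.C (ℓ : ZMod p) :=
    fun ℓ hℓ hℓS A hA σ hσ =>
      EC.charpoly_residualGaloisRepOf W hℓ hA (hout ℓ hℓ hℓS).2.1 hσ (hout ℓ hℓ hℓS).2.2 _ _
  obtain ⟨g, 𝔪, hg, hmax, hpm, hcong⟩ := hmod
  have hF := EichlerShimura.frobeniusOnTorsion_modular (M * p) p
  obtain ⟨ψ, hψ, hψσ⟩ := BadPrime.Mazur.exists_embedding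
    (EichlerShimura.kummerIso_modular (M * p)) hF ρ habs S W.apOfModel hchar hg hmax hpm
    fun ℓ hℓ hℓS => hcong ℓ hℓ (hout ℓ hℓ hℓS).2.1
      (fun h => (hout ℓ hℓ hℓS).1 (h.mul_right p)) (hout ℓ hℓ hℓS).2.2
  refine ⟨ψ, hψ, fun σ x h => hψσ σ x, fun ℓ x => ?_⟩
  have hℓS : (ℓ.1 : ℕ) ∉ S := fun h => ℓ.2 (Nat.mem_primeFactors.1 h).2.1
  exact BadPrime.Mazur.heckeOperatorBar_apply_of_equivariant hF hψσ ℓ.1.2
    (hout _ ℓ.1.2 hℓS).1 (hchar _ ℓ.1.2 hℓS) x

/-- A polynomial in the Hecke operators killing the cusp forms of level `M` kills the torsion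
of `J₀(M)`. -/
theorem heckeEval_eq_zero_of_evalS {M N : ℕ} [NeZero M] (h : M ∣ N)
    {t : MvPolynomial (BadPrime.Mazur.GoodPrimes N) ℤ}
    (ht : BadPrime.Mazur.evalS h t = 0) {x : JZero M} (hx : IsOfFinAddOrder x) :
    heckeEvalBar (EichlerShimura.heckeOperatorsCommuteBar M)
      (MvPolynomial.rename Subtype.val t) x = 0 := by
  obtain ⟨e, he, -, -⟩ := EichlerShimura.kummerIso_modular M
  obtain ⟨Θ, hΘ⟩ := BadPrime.exists_heckeRep M
  obtain ⟨Ψ, hΨ⟩ := BadPrime.matrixEnd_eq_ringHom (r := EichlerShimura.cuspRank M)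
  have key : ∀ (u : MvPolynomial (BadPrime.Mazur.GoodPrimes N) ℤ)
      (v : Fin (EichlerShimura.cuspRank M) → EichlerShimura.QZ),
      heckeEvalBar (EichlerShimura.heckeOperatorsCommuteBar M) (MvPolynomial.rename Subtype.val u)
          (((EichlerShimura.torsionCoords e).symm v : EichlerShimura.torsionPts M) : JZero M) =
        (((EichlerShimura.torsionCoords e).symm (Ψ (Θ (BadPrime.Mazur.evalS h u)) v) :
          EichlerShimura.torsionPts M) : JZero M) := by
    intro u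
    induction u using MvPolynomial.induction_on with
    | C a =>
      intro v
      simp [BadPrime.Mazur.evalS]
    | add a b ha hb =>
      intro v
      simp only [map_add, LinearMap.add_apply, ha, hb, AddSubgroup.coe_add]
    | mul_X a ℓ ha =>
      intro v
      have hM : ¬ (ℓ.1 : ℕ) ∣ M := fun hd => ℓ.2 (hd.trans h)
      have hT : EichlerShimura.heckeTU M ℓ.1 =
          CuspForm.heckeAlgebra.T ℓ.1.2 hM (Set.notMem_empty _) := by
        unfold EichlerShimura.heckeTU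
        rw [dif_neg hM]
      have hc := LinearMap.congr_fun (EichlerShimura.coordEnd_hecke e ℓ.1
        (heckeOperatorBar M ℓ.1).toAddMonoidHom (he ℓ.1 hM)) v
      rw [EichlerShimura.coordEnd_apply] at hc
      simp only [map_mul, MvPolynomial.rename_X, Module.End.mul_apply, BadPrime.Mazur.evalS_X,
        ← hT, hΘ]
      rw [hΨ (EichlerShimura.heckeMatrix M ℓ.1), ← hc, ← ha, AddEquiv.symm_apply_apply,
        show heckeEvalBar (EichlerShimura.heckeOperatorsCommuteBar M) (MvPolynomial.X ℓ.1) =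
          heckeOperatorBar M ℓ.1 from heckeEvalBar_heckeGen _ _]
      rfl
  have h1 := key t (EichlerShimura.torsionCoords e ⟨x, hx⟩)
  rw [AddEquiv.symm_apply_apply, ht, map_zero, map_zero, LinearMap.zero_apply, map_zero] at h1
  exact h1

theorem lift_hecke_eq {R : ℕ} (φ : FreeAlgebra ℤ (GoodPrime R) →ₐ[ℤ] MvPolynomial (GoodPrime R) ℤ)
    (hφ : ∀ ℓ, φ (FreeAlgebra.ι ℤ ℓ) = MvPolynomial.X ℓ) (u : FreeAlgebra ℤ (GoodPrime R)) :
    FreeAlgebra.lift ℤ (fun ℓ : GoodPrime R => heckeOperatorBar M ℓ.1) u =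
      heckeEvalBar (EichlerShimura.heckeOperatorsCommuteBar M)
        (MvPolynomial.rename (Subtype.val : GoodPrime R → Nat.Primes) (φ u)) := by
  induction u using FreeAlgebra.induction with
  | grade0 a => simp only [AlgHom.commutes]; simp
  | grade1 ℓ =>
    rw [FreeAlgebra.lift_ι_apply, hφ, MvPolynomial.rename_X]
    exact (heckeEvalBar_heckeGen _ _).symm
  | mul u v hu hv => rw [map_mul, hu, hv, map_mul, map_mul, map_mul]
  | add u v hu hv => rw [map_add, hu, hv, map_add, map_add, map_add]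

/-- **The old killer.** -/
theorem hasOldKiller (hp5 : 5 ≤ p) (hpM : ¬ p ∣ M)
    (hΔ : W.Δ ≠ 0) (hnot : ¬ W.IsResiduallyModularOfLevel p M) :
    HasOldKiller p M (badLevel W p M) (fun ℓ => W.apOfModel ℓ) := by
  classical
  have hp : p.Prime := Fact.out
  have : NeZero (badLevel W p M) :=
    ⟨mul_ne_zero (mul_ne_zero (NeZero.ne M) hp.ne_zero) (Int.natAbs_ne_zero.2 hΔ)⟩
  set R := badLevel W p M
  have hMR : M ∣ R := (dvd_mul_right M p).trans (dvd_mul_right _ _)
  have hS29 : RT.EigenformResidualRep := fun hg p hp k _ _ φ =>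
    EichlerShimura.exists_residualGaloisRep_isAttachedTo_of EichlerShimura.kummerIso_modular
      (fun N _ q _ => EichlerShimura.frobeniusOnTorsion_modular N q)
      (fun N _ => EichlerShimura.galoisFiniteLevel_modular N) hg hp φ
  obtain ⟨t, ht, hne⟩ : ∃ t : MvPolynomial (BadPrime.Mazur.GoodPrimes R) ℤ,
      BadPrime.Mazur.evalS hMR t = 0 ∧
      MvPolynomial.aeval (fun ℓ : BadPrime.Mazur.GoodPrimes R =>
        (W.apOfModel (ℓ.1 : Nat.Primes) : ZMod p)) t ≠ 0 := by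
    by_contra h
    push Not at h
    exact hnot (BadPrime.Mazur.isResiduallyModularOfLevel_of_killed hS29
      RT.torsionFrobeniusCharpoly hΔ hMR ∅ fun t ht _ => h t ht)
  let φ : FreeAlgebra ℤ (GoodPrime R) →ₐ[ℤ] MvPolynomial (GoodPrime R) ℤ :=
    FreeAlgebra.lift ℤ MvPolynomial.X
  have hsurj : ∀ u, ∃ u', φ u' = u := fun u => by
    induction u using MvPolynomial.induction_on with
    | C a => exact ⟨algebraMap ℤ _ a, φ.commutes a⟩
    | add u v hu hv =>
      obtain ⟨u', rfl⟩ := hu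
      obtain ⟨v', rfl⟩ := hv
      exact ⟨u' + v', map_add φ u' v'⟩
    | mul_X u ℓ hu =>
      obtain ⟨u', rfl⟩ := hu
      exact ⟨u' * FreeAlgebra.ι ℤ ℓ, by rw [map_mul]; simp [φ]⟩
  obtain ⟨t', rfl⟩ := hsurj t
  refine ⟨t', ?_, fun hd => hne ?_⟩
  · intro x hx
    rw [lift_hecke_eq M φ (fun ℓ => by simp [φ]) t']
    exact heckeEval_eq_zero_of_evalS hMR ht hx
  · have e : ∀ u : FreeAlgebra ℤ (GoodPrime R),
        MvPolynomial.aeval (fun ℓ : GoodPrime R => (W.apOfModel (ℓ.1 : ℕ) : ZMod p)) (φ u) =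
          ((FreeAlgebra.lift ℤ (fun ℓ : GoodPrime R => W.apOfModel (ℓ.1 : ℕ)) u : ℤ) : ZMod p) := by
      intro u
      induction u using FreeAlgebra.induction with
      | grade0 a => simp only [AlgHom.commutes]; simp
      | grade1 ℓ => simp only [φ, FreeAlgebra.lift_ι_apply, MvPolynomial.aeval_X]
      | mul u v hu hv => simp only [map_mul, hu, hv, Int.cast_mul]
      | add u v hu hv => simp only [map_add, hu, hv, Int.cast_add]
    exact (e t').trans ((ZMod.intCast_zmod_eq_zero_iff_dvd _ p).2 hd)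

/-- **Non-Eisenstein.** -/
theorem exists_nonEisenstein_prime (hp5 : 5 ≤ p) (hΔ : W.Δ ≠ 0) (hirr : W.ModRepIsIrreducible p) :
    ∃ ℓ : GoodPrime (badLevel W p M),
      ¬ (p : ℤ) ∣ W.apOfModel (ℓ.1 : ℕ) - (ℓ.1 : ℕ) - 1 := by
  have hp : p.Prime := Fact.out
  have : (W.map (Int.castRingHom ℚ)).IsElliptic := EC.isElliptic_map_rat hΔ
  have : NeZero (badLevel W p M) :=
    ⟨mul_ne_zero (mul_ne_zero (NeZero.ne M) hp.ne_zero) (Int.natAbs_ne_zero.2 hΔ)⟩
  obtain ⟨ℓ, hℓ, -, -, hℓR, -, hne⟩ := LevelRaise.exists_good_prime_not_eisenstein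
    (W.map (Int.castRingHom ℚ)) (W := W) ⟨1, one_smul _ _⟩ hp (by omega) hirr (badLevel W p M)
  refine ⟨⟨⟨ℓ, hℓ⟩, hℓR⟩, fun h => hne ?_⟩
  have h0 := (ZMod.intCast_zmod_eq_zero_iff_dvd _ p).2 h
  push_cast at h0
  linear_combination h0

end Fermat.Agent.LevelP
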