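import Mathlib.Algebra.Ring.Subring.Basic
import Mathlib.Algebra.Field.Basic
import Mathlib.Tactic.Ring
import Mathlib.Tactic.LinearCombination
import Mathlib.Tactic.FieldSimp

/-!
# First order terms on a two-component model

`F` is the function field, `O` the constants, `V k` the two valuation rings along the components of
the special fibre and `B y` the local rings at the closed points `y` of the model.  Congruences are
always taken in the `V k`.  The main result `jump_congr` says: if an element `U` becomes congruent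
modulo `π ^ (b + 1)` to an element of every local ring after multiplication by the constants
`1 - n k * η`, then the jump `n true - n false` is the same at all nodes.  This is what makes the
residues of `dlog` of a `p`-torsion class proportional to those of the Eisenstein form when the
class is defined over a field with small ramification break.
-/

set_option autoImplicit false

noncomputable section

namespace Fermat.Agent.LevelP

/-- The axioms of a two-component model used in the first order argument. -/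
structure NodalModel (F : Type*) [Field F] (ι : Type*) where
  /-- The constants. -/
  O : Subring F
  /-- The uniformiser. -/
  π : F
  /-- The valuation rings of the two components. -/
  V : Bool → Subring F
  /-- The local rings at the closed points. -/
  B : ι → Subring F
  /-- Incidence of points and components. -/
  On : ι → Bool → Prop
  π_mem : π ∈ O
  π_ne : π ≠ 0
  O_le_V : ∀ k, O ≤ V k
  O_le_B : ∀ y, O ≤ B y
  B_le_V : ∀ y k, On y k → B y ≤ V k
  /-- The special fibre is reduced. -/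
  sat : ∀ y, ∀ c ∈ B y, (∀ k, On y k → ∃ d ∈ V k, c = π * d) → c / π ∈ B y
  /-- A function on a component regular at all its points is constant. -/
  const : ∀ k, ∀ a ∈ V k, (∀ y, On y k → ∃ c ∈ B y, ∃ d ∈ V k, a - c = π * d) →
    ∃ c ∈ O, ∃ d ∈ V k, a - c = π * d
  /-- At a point of both components the two values agree. -/
  node : ∀ y, On y false → On y true → ∀ c ∈ B y, ∀ c₀ ∈ O, ∀ c₁ ∈ O,
    (∃ d ∈ V false, c - c₀ = π * d) → (∃ d ∈ V true, c - c₁ = π * d) →
    ∃ e ∈ O, c₁ - c₀ = π * e

namespace NodalModel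

variable {F : Type*} [Field F] {ι : Type*} (M : NodalModel F ι)

/-- Congruence modulo `π ^ m` along the component `k`. -/
def Congr (k : Bool) (m : ℕ) (a c : F) : Prop := ∃ d ∈ M.V k, a - c = M.π ^ m * d

/-- A constant is divisible by `π ^ m` among constants. -/
def Small (m : ℕ) (a : F) : Prop := ∃ e ∈ M.O, a = M.π ^ m * e

variable {M}

theorem congr_refl (k : Bool) (m : ℕ) (a : F) : M.Congr k m a a :=
  ⟨0, zero_mem _, by simp⟩

theorem congr_zero {k : Bool} {a c : F} (ha : a ∈ M.V k) (hc : c ∈ M.V k) : M.Congr k 0 a c :=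
  ⟨a - c, sub_mem ha hc, by simp⟩

theorem Congr.symm {k : Bool} {m : ℕ} {a c : F} (h : M.Congr k m a c) : M.Congr k m c a := by
  obtain ⟨d, hd, he⟩ := h
  exact ⟨-d, neg_mem hd, by linear_combination -he⟩

theorem Congr.trans {k : Bool} {m : ℕ} {a c e : F} (h : M.Congr k m a c) (h' : M.Congr k m c e) :
    M.Congr k m a e := by
  obtain ⟨d, hd, he⟩ := h
  obtain ⟨d', hd', he'⟩ := h'
  exact ⟨d + d', add_mem hd hd', by linear_combination he + he'⟩

theorem Congr.mono {k : Bool} {m n : ℕ} {a c : F} (h : M.Congr k n a c) (hmn : m ≤ n) :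
    M.Congr k m a c := by
  obtain ⟨l, rfl⟩ := Nat.exists_eq_add_of_le hmn
  obtain ⟨d, hd, he⟩ := h
  exact ⟨M.π ^ l * d, mul_mem (pow_mem (M.O_le_V k M.π_mem) _) hd, by rw [he]; ring⟩

theorem Congr.mul {k : Bool} {m : ℕ} {a a' c c' : F} (h : M.Congr k m a c)
    (h' : M.Congr k m a' c') (ha' : a' ∈ M.V k) (hc : c ∈ M.V k) :
    M.Congr k m (a * a') (c * c') := by
  obtain ⟨d, hd, he⟩ := h
  obtain ⟨d', hd', he'⟩ := h'
  exact ⟨d * a' + c * d', add_mem (mul_mem hd ha') (mul_mem hc hd'),
    by linear_combination a' * he + c * he'⟩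

theorem Congr.add {k : Bool} {m : ℕ} {a a' c c' : F} (h : M.Congr k m a c)
    (h' : M.Congr k m a' c') : M.Congr k m (a + a') (c + c') := by
  obtain ⟨d, hd, he⟩ := h
  obtain ⟨d', hd', he'⟩ := h'
  exact ⟨d + d', add_mem hd hd', by linear_combination he + he'⟩

theorem Congr.mem {k : Bool} {m : ℕ} {a c : F} (h : M.Congr k m a c) (hc : c ∈ M.V k) :
    a ∈ M.V k := by
  obtain ⟨d, hd, he⟩ := h
  rw [show a = M.π ^ m * d + c by linear_combination he]
  exact add_mem (mul_mem (pow_mem (M.O_le_V k M.π_mem) _) hd) hc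

/-- Dividing a congruence by a power of the uniformiser. -/
theorem Congr.div {k : Bool} {m n : ℕ} {a c : F}
    (h : M.Congr k (n + m) (M.π ^ n * a) (M.π ^ n * c)) : M.Congr k m a c := by
  obtain ⟨d, hd, he⟩ := h
  refine ⟨d, hd, mul_left_cancel₀ (pow_ne_zero n M.π_ne) ?_⟩
  rw [mul_sub, he, pow_add]; ring

theorem div_pow_mem {y : ι} {n : ℕ} {c : F} (hc : c ∈ M.B y)
    (h : ∀ k, M.On y k → M.Congr k n c 0) : c / M.π ^ n ∈ M.B y := by
  induction n generalizing c with
  | zero => simpa using hc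
  | succ n ih =>
    have h1 : c / M.π ∈ M.B y := M.sat y c hc fun k hk => by
      obtain ⟨d, hd, he⟩ := (h k hk).mono (Nat.le_add_left 1 n)
      exact ⟨d, hd, by simpa using he⟩
    rw [pow_succ', ← div_div]
    refine ih h1 fun k hk => Congr.div (n := 1) ?_
    rw [pow_one, mul_div_cancel₀ _ M.π_ne, mul_zero, Nat.add_comm]
    exact h k hk

variable (M)

/-- An element congruent modulo `π ^ m` to an element of every local ring, on both components at
once, is congruent to a constant. -/
theorem exists_const {x₀ : ι} (hx₀ : M.On x₀ false) (hx₁ : M.On x₀ true) (m : ℕ) {U : F}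
    (hU : ∀ k, U ∈ M.V k) (h : ∀ y, ∃ c ∈ M.B y, ∀ k, M.On y k → M.Congr k m U c) :
    ∃ c ∈ M.O, ∀ k, M.Congr k m U c := by
  induction m generalizing U with
  | zero => exact ⟨0, zero_mem _, fun k => congr_zero (hU k) (zero_mem _)⟩
  | succ m ih =>
    have hres : ∀ k, ∃ c ∈ M.O, M.Congr k 1 U c := by
      intro k
      obtain ⟨c, hc, d, hd, he⟩ := M.const k U (hU k) fun y hy => by
        obtain ⟨c, hc, hcong⟩ := h y
        obtain ⟨d, hd, he⟩ := (hcong k hy).mono (Nat.le_add_left 1 m)
        exact ⟨c, hc, d, hd, by simpa using he⟩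
      exact ⟨c, hc, d, hd, by simpa using he⟩
    obtain ⟨c₀, hc₀, hU₀⟩ := hres false
    obtain ⟨c₁, hc₁, hU₁⟩ := hres true
    obtain ⟨b, hb, hbcong⟩ := h x₀
    obtain ⟨e, he, hec⟩ : ∃ e ∈ M.O, c₁ - c₀ = M.π * e := by
      refine M.node x₀ hx₀ hx₁ b hb c₀ hc₀ c₁ hc₁ ?_ ?_
      · obtain ⟨d, hd, hd'⟩ := ((hbcong false hx₀).mono (Nat.le_add_left 1 m)).symm.trans hU₀
        exact ⟨d, hd, by simpa using hd'⟩
      · obtain ⟨d, hd, hd'⟩ := ((hbcong true hx₁).mono (Nat.le_add_left 1 m)).symm.trans hU₁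
        exact ⟨d, hd, by simpa using hd'⟩
    have hUc : ∀ k, M.Congr k 1 U c₀ := by
      intro k
      cases k
      · exact hU₀
      · exact hU₁.trans ⟨e, M.O_le_V true he, by simpa using hec⟩
    set U' := (U - c₀) / M.π with hU'
    have hdef : U = c₀ + M.π * U' := by
      rw [hU', mul_div_cancel₀ _ M.π_ne]; ring
    have hU'V : ∀ k, U' ∈ M.V k := by
      intro k
      obtain ⟨d, hd, hd'⟩ := hUc k
      rwa [hU', hd', pow_one, mul_div_cancel_left₀ _ M.π_ne]
    obtain ⟨c', hc', hcong'⟩ := ih hU'V fun y => by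
      obtain ⟨b, hb, hbcong⟩ := h y
      refine ⟨(b - c₀) / M.π, ?_, fun k hk => ?_⟩
      · have := div_pow_mem (n := 1) (sub_mem hb (M.O_le_B y hc₀)) fun k hk => by
          have := (((hbcong k hk).mono (Nat.le_add_left 1 m)).symm.trans (hUc k)).add
            (congr_refl k 1 (-c₀))
          simpa [sub_eq_add_neg] using this
        simpa using this
      · refine Congr.div (n := 1) ?_
        rw [Nat.add_comm, pow_one, mul_div_cancel₀ _ M.π_ne, mul_div_cancel₀ _ M.π_ne]
        simpa [sub_eq_add_neg] using (hbcong k hk).add (congr_refl k (m + 1) (-c₀))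
    refine ⟨c₀ + M.π * c', add_mem hc₀ (mul_mem M.π_mem hc'), fun k => ?_⟩
    obtain ⟨d, hd, hd'⟩ := hcong' k
    exact ⟨d, hd, by rw [hdef, pow_succ]; linear_combination M.π * hd'⟩

/-- **The jumps are congruent.**  If after multiplication by `1 - n y k * η` the element `U`
is congruent modulo `π ^ (b + 1)` to an element of each local ring, `η = π ^ b * ν`, then at any
two nodes `ν * U * ((n x true - n x false) - (n x' true - n x' false))` is small. -/
theorem jump_congr {b : ℕ} (hb : b ≠ 0) {U η ν : F} (hν : ν ∈ M.O) (hη : η = M.π ^ b * ν)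
    (hU : ∀ k, U ∈ M.V k) (n : ι → Bool → ℤ)
    (h : ∀ y, ∃ c ∈ M.B y, ∀ k, M.On y k → M.Congr k (b + 1) (U * (1 - n y k * η)) c)
    {x x' : ι} (hx₀ : M.On x false) (hx₁ : M.On x true) (hx₀' : M.On x' false)
    (hx₁' : M.On x' true) :
    ∃ c ∈ M.O, (∀ k, M.Congr k 1 U c) ∧
      M.Small 1 (ν * c * ((n x true - n x false - (n x' true - n x' false) : ℤ) : F)) := by
  have hνV : ∀ k, ν ∈ M.V k := fun k => M.O_le_V k hν
  obtain ⟨c, hc, hUc⟩ := M.exists_const hx₀ hx₁ b hU fun y => by
    obtain ⟨e, he, hcong⟩ := h y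
    refine ⟨e, he, fun k hk => Congr.trans ?_ ((hcong k hk).mono (Nat.le_succ b))⟩
    exact ⟨U * (n y k) * ν, mul_mem (mul_mem (hU k) (intCast_mem _ _)) (hνV k),
      by rw [hη]; ring⟩
  set u := (U - c) / M.π ^ b with hu
  have hUeq : U = c + M.π ^ b * u := by
    rw [hu, mul_div_cancel₀ _ (pow_ne_zero b M.π_ne)]; ring
  have huV : ∀ k, u ∈ M.V k := by
    intro k
    obtain ⟨d, hd, hd'⟩ := hUc k
    rwa [hu, hd', mul_div_cancel_left₀ _ (pow_ne_zero b M.π_ne)]
  -- `u - c n ν` comes from each local ring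
  have hloc : ∀ y, ∃ e ∈ M.B y, ∀ k, M.On y k → M.Congr k 1 (u - c * n y k * ν) e := by
    intro y
    obtain ⟨e, he, hcong⟩ := h y
    have hkey : ∀ k, M.On y k →
        M.Congr k (b + 1) (M.π ^ b * (u - c * n y k * ν)) (e - c) := by
      intro k hk
      obtain ⟨d, hd, hd'⟩ := hcong k hk
      obtain ⟨l, rfl⟩ := Nat.exists_eq_succ_of_ne_zero hb
      refine ⟨d + M.π ^ l * (u * (n y k) * ν),
        add_mem hd (mul_mem (pow_mem (M.O_le_V k M.π_mem) _)
          (mul_mem (mul_mem (huV k) (intCast_mem _ _)) (hνV k))), ?_⟩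
      rw [hη, hUeq] at hd'
      clear_value u
      simp only [Nat.succ_eq_add_one, pow_succ] at hd' ⊢
      linear_combination hd'
    have hmem : (e - c) / M.π ^ b ∈ M.B y := by
      refine div_pow_mem (sub_mem he (M.O_le_B y hc)) fun k hk => ?_
      refine ((hkey k hk).mono (Nat.le_succ b)).symm.trans ?_
      exact ⟨u - c * n y k * ν,
        sub_mem (huV k) (mul_mem (mul_mem (M.O_le_V k hc) (intCast_mem _ _)) (hνV k)), by simp⟩
    refine ⟨_, hmem, fun k hk => Congr.div (n := b) ?_⟩
    rw [mul_div_cancel₀ _ (pow_ne_zero b M.π_ne)]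
    exact hkey k hk
  have hd : ∀ k, ∃ d ∈ M.O, M.Congr k 1 u d := by
    intro k
    obtain ⟨d, hd, d', hd', he⟩ := M.const k u (huV k) fun y hy => by
      obtain ⟨e, he, hcong⟩ := hloc y
      refine ⟨e + c * n y k * ν,
        add_mem he (mul_mem (mul_mem (M.O_le_B y hc) (intCast_mem _ _)) (M.O_le_B y hν)), ?_⟩
      obtain ⟨d', hd', he'⟩ := hcong k hy
      exact ⟨d', hd', by linear_combination he'⟩
    exact ⟨d, hd, d', hd', by simpa using he⟩
  obtain ⟨d₀, hd₀, hu₀⟩ := hd false
  obtain ⟨d₁, hd₁, hu₁⟩ := hd true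
  have hjump : ∀ z, M.On z false → M.On z true →
      M.Small 1 ((d₁ - d₀) - c * ν * ((n z true - n z false : ℤ) : F)) := by
    intro z hz₀ hz₁
    obtain ⟨e, he, hcong⟩ := hloc z
    have key : ∀ (k : Bool) (dk : F), M.Congr k 1 u dk → M.On z k →
        ∃ r ∈ M.V k, e - (dk - c * n z k * ν) = M.π * r := by
      intro k dk hdk hk
      have h2 := hdk.add (congr_refl k 1 (-(c * n z k * ν)))
      rw [← sub_eq_add_neg, ← sub_eq_add_neg] at h2
      obtain ⟨r, hr, hr'⟩ := (hcong k hk).symm.trans h2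
      exact ⟨r, hr, by linear_combination hr'⟩
    obtain ⟨s, hs, hs'⟩ := M.node z hz₀ hz₁ e he (d₀ - c * n z false * ν)
      (sub_mem hd₀ (mul_mem (mul_mem hc (intCast_mem _ _)) hν))
      (d₁ - c * n z true * ν) (sub_mem hd₁ (mul_mem (mul_mem hc (intCast_mem _ _)) hν))
      (key false d₀ hu₀ hz₀) (key true d₁ hu₁ hz₁)
    exact ⟨s, hs, by push_cast; linear_combination hs'⟩
  obtain ⟨e, he, he'⟩ := hjump x hx₀ hx₁
  obtain ⟨e', he₁, he₁'⟩ := hjump x' hx₀' hx₁'
  refine ⟨c, hc, fun k => (hUc k).mono (Nat.one_le_iff_ne_zero.2 hb), e' - e, sub_mem he₁ he, ?_⟩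
  push_cast at he' he₁' ⊢
  linear_combination he₁' - he'

end NodalModel

end Fermat.Agent.LevelP
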