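import Fermat.Agent.LevelP.PeuTorsion
import Fermat.Agent.LevelP.Model.Data
import Mathlib.RingTheory.RootsOfUnity.AlgebraicallyClosed

/-!
# Inertia at a multiplicative `p` with `p ∣ ord_p Δ`: two cases

Owner: helper34.

Either inertia fixes a point of order `p`, or the field cut out by the kernel of the action of wild
inertia on `E[p]` is a cyclic `Level` of degree `p` over the tame level, with small break.
-/

set_option autoImplicit false

noncomputable section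

open WeierstrassCurve IsLocalRing
open scoped WeierstrassCurve.Affine

namespace Fermat.Agent.LevelP

open EC.TateTheta EC.Mult

local notation "Qb" => AlgebraicClosure ℚ
local notation "Γℚ" => (AlgebraicClosure ℚ ≃ₐ[ℚ] AlgebraicClosure ℚ)

variable {p : ℕ} {A : ValuationSubring Qb}

/-- The tame level: the constants fixed by `wildGroup A ζ`, with uniformiser `ζ - 1`. -/
def tameLevel (hp : p.Prime) (hA : A.LiesOverPrime p) {ζ : Qb} (hζ : IsPrimitiveRoot ζ p) :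
    Level p A where
  H := wildGroup A ζ
  π := ζ - 1
  e := p - 1
  le_inertia := inf_le_left
  fixed σ hσ := by rw [map_sub, map_one]; exact congrArg (· - 1) hσ.2
  ne_zero := sub_ne_zero.2 (hζ.ne_one hp.one_lt)
  lt_one := by
    rw [← pow_lt_one_iff_of_nonneg (n := p - 1) zero_le (by have := hp.two_le; omega),
      valuation_zeta_sub_one_pow hp hA hζ]
    exact valuation_natCast_lt_one hA
  value _ hx hfix := exists_zpow_of_wildGroup_fixed hp hA hζ hx hfix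
  e_pos := by have := hp.two_le; omega
  pow_e := valuation_zeta_sub_one_pow hp hA hζ

variable {W : WeierstrassCurve ℤ} (D : MultData W A)

/-- The points on the identity component of the normal form. -/
def identityComponent : AddSubgroup (tateModel D.c).toAffine.Point :=
  AddSubgroup.ofSub {P | IsE0 A P} ⟨0, trivial⟩ fun _ hP _ hQ => hP.sub D.hc hQ D.hc0

/-- If a `p`-torsion point off the identity component is fixed by inertia fixing `ζ`, inertia fixes
a point of order `p`. -/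
theorem exists_fixed_of_wild_fixed (hp : p.Prime) {ζ : Qb}
    (hζ : IsPrimitiveRoot ζ p) {Q : (tateModel D.c).toAffine.Point} (hQ : p • Q = 0)
    (hbad : ¬ IsE0 A Q) (hfix : ∀ τ ∈ wildGroup A ζ, τ • D.equiv Q = D.equiv Q) :
    ∃ P : ((W.map (Int.castRingHom ℚ))⁄Qb).Point, P ≠ 0 ∧ p • P = 0 ∧
      ∀ σ ∈ A.inertiaSubgroupIn ℚ, σ • P = P := by
  classical
  have : NeZero p := ⟨hp.ne_zero⟩
  have : Fact p.Prime := ⟨hp⟩
  let χ : A.inertiaSubgroupIn ℚ →* (ZMod p)ˣ :=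
    ((hζ.autToPow ℚ).comp (A.inertiaSubgroupIn ℚ).subtype)
  have hker : ∀ τ : A.inertiaSubgroupIn ℚ, χ τ = 1 → (τ : Γℚ) ∈ wildGroup A ζ := by
    intro τ h
    rw [mem_wildGroup]
    refine ⟨τ.2, ?_⟩
    rw [← hζ.autToPow_spec ℚ (τ : Γℚ)]
    show ζ ^ ((χ τ : ZMod p)).val = ζ
    rw [h, Units.val_one, ZMod.val_one, pow_one]
  have hcong : ∀ τ τ' : A.inertiaSubgroupIn ℚ, χ τ = χ τ' →
      (τ : Γℚ) • D.equiv Q = (τ' : Γℚ) • D.equiv Q := by
    intro τ τ' h
    have h2 := hfix _ (hker (τ'⁻¹ * τ) (by rw [map_mul, map_inv, h, inv_mul_cancel]))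
    rw [Subgroup.coe_mul, Subgroup.coe_inv, mul_smul, inv_smul_eq_iff] at h2
    exact h2
  choose s hs using fun r : χ.range => r.2
  refine ⟨∑ r, (s r : Γℚ) • D.equiv Q, fun h0 => hbad ?_, ?_, fun σ hσ => ?_⟩
  · set T : χ.range → (tateModel D.c).toAffine.Point :=
      fun r => mapPt (s r : Γℚ).toRingEquiv (D.fixed (s r).2).2 Q - Q with hT
    have hsum : ∑ r, (T r + Q) = 0 := by
      refine D.equiv.injective ?_
      rw [map_sum, map_zero, ← h0]
      exact Finset.sum_congr rfl fun r _ => by rw [hT, sub_add_cancel, D.equiv_mapPt (s r).2]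
    rw [Finset.sum_add_distrib, Finset.sum_const, Finset.card_univ] at hsum
    have hmem : Fintype.card χ.range • Q ∈ identityComponent D := by
      rw [eq_neg_of_add_eq_zero_right hsum]
      exact neg_mem (sum_mem fun r _ => isE0_mapPt_sub_of_valuation D.hc0 D.hc _
        (inertia_valuation (s r).2) _ Q)
    have hcop : (Fintype.card χ.range).Coprime p := by
      refine (hp.coprime_iff_not_dvd.2 fun hd => ?_).symm
      have h1 : Nat.card χ.range ∣ p - 1 := by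
        have h1 := Subgroup.card_subgroup_dvd_card χ.range
        rwa [Nat.card_eq_fintype_card (α := (ZMod p)ˣ), ZMod.card_units] at h1
      rw [Nat.card_eq_fintype_card] at h1
      have := hp.two_le
      have := Nat.le_of_dvd (by omega) (hd.trans h1)
      omega
    obtain ⟨a, b, hab⟩ := Nat.isCoprime_iff_coprime.2 hcop
    have hQeq : Q = a • ((Fintype.card χ.range : ℤ) • Q) := by
      have h1 : (1 : ℤ) • Q = (a * Fintype.card χ.range + b * p) • Q := by rw [hab]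
      rwa [one_zsmul, add_zsmul, mul_zsmul, mul_zsmul, natCast_zsmul Q p, hQ, zsmul_zero,
        add_zero] at h1
    rw [natCast_zsmul] at hQeq
    have := zsmul_mem hmem a
    rwa [← hQeq] at this
  · rw [Finset.smul_sum]
    refine Finset.sum_eq_zero fun r _ => ?_
    rw [← natCast_zsmul, ← Affine.Point.algEquiv_smul_zsmul, natCast_zsmul, ← map_nsmul, hQ,
      map_zero]
    exact smul_zero (A := ((W.map (Int.castRingHom ℚ))⁄Qb).Point) (s r : Γℚ)
  · rw [Finset.smul_sum]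
    let t : χ.range := ⟨χ ⟨σ, hσ⟩, ⟨_, rfl⟩⟩
    refine Fintype.sum_equiv (Equiv.mulLeft t) _ _ fun r => ?_
    rw [← mul_smul]
    exact hcong (⟨σ, hσ⟩ * s r) (s (t * r)) (by rw [map_mul, hs, hs]; rfl)

/-- **The two cases.** -/
theorem inertia_cases {W : WeierstrassCurve ℤ} {A : ValuationSubring (AlgebraicClosure ℚ)}
    {p : ℕ} (hp : p.Prime) (hp2 : p ≠ 2) (hA : A.LiesOverPrime p) (hΔ0 : W.Δ ≠ 0)
    (hΔ : (p : ℤ) ∣ W.Δ) (hc4 : ¬ (p : ℤ) ∣ W.c₄) (hv : p ∣ padicValInt p W.Δ) :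
    (∃ P : ((W.map (Int.castRingHom ℚ))⁄Qb).Point, P ≠ 0 ∧ p • P = 0 ∧
      ∀ σ ∈ A.inertiaSubgroupIn ℚ, σ • P = P) ∨
    ∃ L₁ L : Level p A, L₁.e = p - 1 ∧ L.e = p * (p - 1) ∧ L.H ≤ L₁.H ∧
      ∃ τ ∈ L₁.H, (∀ σ ∈ L.H, τ⁻¹ * σ * τ ∈ L.H) ∧
        (∀ σ ∈ L₁.H, ∃ n : ℤ, τ ^ n * σ ∈ L.H) ∧
        ∃ (η : Qb) (b : ℕ), 1 ≤ b ∧ b < p ∧ τ L.π = L.π * (1 + η) ∧
          A.valuation η = A.valuation L.π ^ b ∧
          (∀ z : Qb, (∀ σ ∈ L.H, σ z = z) → z ∈ A →
            A.valuation (τ z - z) ≤ A.valuation L.π ^ (b + 1)) ∧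
          ∃ P : ((W.map (Int.castRingHom ℚ))⁄Qb).Point, p • P = 0 ∧ τ • P - P ≠ 0 ∧
            (∀ σ ∈ L₁.H, σ • (τ • P - P) = τ • P - P) ∧
            ∀ σ ∈ L.H, ∀ R : ((W.map (Int.castRingHom ℚ))⁄Qb).Point, p • R = 0 → σ • R = R := by
  classical
  obtain ⟨D⟩ := nonempty_multData hp hA hΔ0 hΔ hc4
  have : NeZero p := ⟨hp.ne_zero⟩
  obtain ⟨ζ, hζ⟩ : ∃ ζ : Qb, IsPrimitiveRoot ζ p := HasEnoughRootsOfUnity.exists_primitiveRoot Qb p
  have hN : A.valuation D.c = A.valuation (p : Qb) ^ (padicValInt p W.Δ : ℤ) := by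
    rw [zpow_natCast, D.hvc, valuation_intCast hp hA hΔ0]
  have hcp : A.valuation D.c ≤ A.valuation (p : Qb) := by
    rw [hN, zpow_natCast]
    refine pow_le_of_le_one zero_le (valuation_natCast_lt_one hA).le ?_
    have : Fact p.Prime := ⟨hp⟩
    intro h0
    rcases (padicValInt.eq_zero_iff (p := p) (z := W.Δ)).1 h0 with h | h | h
    · exact hp.ne_one h
    · exact hΔ0 h
    · exact h hΔ
  obtain ⟨-, P₁, -, -, -, hP₁, hP₁bad, -⟩ := exists_basis_level_one D.hc0 D.hc hp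
    (D.natCard_torsion hp) (natCard_isE0_torsion_le_of_residueChar D.hc D.hc0 hp
      (valuation_natCast_lt_one hA) (Nat.cast_ne_zero.mpr hp.ne_zero) hcp)
  rcases P₁ with _ | ⟨x, y, h⟩
  · exact absurd trivial hP₁bad
  by_cases hall : ∀ τ : wildGroup A ζ, actPt D τ (.some x y h) = .some x y h
  · refine Or.inl (exists_fixed_of_wild_fixed D hp hζ hP₁ hP₁bad fun τ hτ => ?_)
    rw [← D.equiv_mapPt hτ.1]
    exact congrArg D.equiv (hall ⟨τ, hτ⟩)
  push Not at hall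
  obtain ⟨τ, hτ⟩ := hall
  set c := moveHom D hp hA hζ hcp hP₁ with hc
  have hτ1 : c τ ≠ 1 := fun h1 => hτ ((moveHom_eq_one_iff D hp hA hζ hcp hP₁ τ).mp h1)
  have hzp : ∀ σ, c σ ∈ Subgroup.zpowers (c τ) := fun σ =>
    moveHom_mem_zpowers D hp hA hζ hcp hP₁ τ σ hτ1
  have C := cyclicData_of_hom hp hA hζ c τ
    (show Multiplicative.ofAdd (actPt D τ (.some x y h) - .some x y h) ^ p = 1 by
      rw [← ofAdd_nsmul, (isE1_actPt_sub D hp hA hζ hcp τ hP₁).2, ofAdd_zero]) hzp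
  obtain ⟨x₀, hx₀, hx₀A, hmove⟩ := exists_moved D hp hA hζ hcp (hp.odd_of_ne_two hp2) hN
    (Int.natCast_dvd_natCast.mpr hv) hP₁ hP₁bad τ hτ
  obtain ⟨π, hπL, η, -, b, hb, hbp, hπ0, hπp, hπ1, hτπ, hη, hsmall, hval⟩ :=
    C.exists_break hx₀ hx₀A hmove
  let L₁ := tameLevel hp hA hζ
  let L : Level p A :=
    { H := c.ker.map (wildGroup A ζ).subtype
      π := π
      e := p * (p - 1)
      le_inertia := (Subgroup.map_subtype_le _).trans inf_le_left
      fixed := mem_fixedSubfield.1 hπL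
      ne_zero := hπ0
      lt_one := hπ1
      value := fun z hz hzf =>
        (hval z (mem_fixedSubfield.2 hzf) hz).imp fun _ h => h.1
      e_pos := Nat.mul_pos hp.pos (by have := hp.two_le; omega)
      pow_e := by rw [pow_mul, hπp, valuation_zeta_sub_one_pow hp hA hζ] }
  refine Or.inr ⟨L₁, L, rfl, rfl, Subgroup.map_subtype_le _, (τ : Γℚ), τ.2, ?_, ?_, η, b, hb, hbp,
    hτπ, hη, fun z hzf hzA => hsmall z (mem_fixedSubfield.2 hzf) hzA,
    D.equiv (.some x y h), ?_, ?_, ?_, ?_⟩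
  · rintro _ ⟨k, hk, rfl⟩
    exact ⟨τ⁻¹ * k * τ, by
      simp only [SetLike.mem_coe, MonoidHom.mem_ker, map_mul, map_inv, MonoidHom.mem_ker.1 hk]
      group, rfl⟩
  · intro σ hσ
    obtain ⟨n, hn⟩ := Subgroup.mem_zpowers_iff.1 (hzp ⟨σ, hσ⟩)
    refine ⟨-n, ⟨τ ^ (-n) * ⟨σ, hσ⟩, ?_, ?_⟩⟩
    · simp [MonoidHom.mem_ker, hn]
    · simp
  · rw [← map_nsmul, hP₁, map_zero]
  · rw [← D.equiv_mapPt τ.2.1, ← map_sub]
    exact fun h0 => hτ (sub_eq_zero.1 (D.equiv.injective (h0.trans (map_zero _).symm)))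
  · intro σ hσ
    obtain ⟨hT, hpT⟩ := isE1_actPt_sub D hp hA hζ hcp τ hP₁
    rw [← D.equiv_mapPt τ.2.1, ← map_sub, ← D.equiv_mapPt hσ.1]
    exact congrArg D.equiv (actPt_eq_self_of_isE1 D hp hA hζ hcp ⟨σ, hσ⟩ hT hpT)
  · rintro _ ⟨k, hk, rfl⟩ R hR
    exact smul_eq_self_of_actPt_eq_self D hp hA hζ hcp hP₁ hP₁bad k
      ((moveHom_eq_one_iff D hp hA hζ hcp hP₁ k).1 hk) hR

end Fermat.Agent.LevelP
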