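import Fermat.Agent.EichlerShimura.UniqueEffective
import Fermat.Agent.EichlerShimura.FiniteLevelX0
import Fermat.Agent.FiniteFlat.AuxLevel
import Fermat.Agent.Galois.Frobenius
import Fermat.Agent.Reduction.Galois
import Fermat.Agent.Reduction.ModularBasics
import Fermat.Agent.Reduction.WeakRiemann
import Fermat.Agent.TwoAdic.ClassNumber.ModularIsFrob
import Fermat.Agent.Torsion.Analytic.AlgInput

/-!
# Endomorphisms killing the torsion of `J₀(M)` kill the reduction of every point

A Frobenius of a function field over the algebraic closure of a finite field fixes finitely many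
divisor classes of degree zero. So if `T` commutes with Galois and kills torsion, then `T x` is, for
`h` the number of these classes, `h` times a point whose reduction is fixed by such a Frobenius.
-/

set_option autoImplicit false
set_option synthInstance.maxHeartbeats 400000

noncomputable section

open AlgebraicCurve ModularCurve IsLocalRing
open Fermat.Agent.Curve Fermat.Agent.TwoAdic.ClassNumber

namespace Fermat.Agent.LevelP

local notation "Qb" => AlgebraicClosure ℚ
local notation "Γℚ" => (AlgebraicClosure ℚ ≃ₐ[ℚ] AlgebraicClosure ℚ)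

section Classes

variable {k F : Type*} [Field k] [IsAlgClosed k] [Field F] [Algebra k F] [IsFunctionField1 k F]
variable {p : ℕ} [Fact p.Prime] [CharP k p] {f : ℕ}

omit [IsAlgClosed k] [IsFunctionField1 k F] in
/-- The translate of a principal divisor is principal. -/
theorem isPrincipal_semilinear_smul (g : SemilinearAut k F) {D : Divisor k F}
    (hD : D ∈ Divisor.principal (K := k) (F := F)) :
    g • D ∈ Divisor.principal (K := k) (F := F) := by
  obtain ⟨u, hu, h⟩ := hD
  exact ⟨g • u, (smul_ne_zero_iff_ne _).2 hu, fun v => Reduction.divisor_smul_eq_ord g h v⟩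

/-- An orbit inside a finite set is periodic with period dividing a factorial. -/
theorem pow_factorial_smul_eq {α : Type*} [MulAction (SemilinearAut k F) α]
    (g : SemilinearAut k F) (S : Finset α) (hS : ∀ v ∈ S, g • v ∈ S) {n : ℕ} (hn : S.card ≤ n)
    {v : α} (hv : v ∈ S) : g ^ n.factorial • v = v := by
  classical
  have hmem : ∀ i : ℕ, g ^ i • v ∈ S := fun i => by
    induction i with
    | zero => simpa using hv
    | succ i ih => rw [pow_succ', mul_smul]; exact hS _ ih
  obtain ⟨i, hi, j, hj, hij, heq⟩ := Finset.exists_ne_map_eq_of_card_lt_of_maps_to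
    (s := Finset.range (n + 1)) (t := S) (by rw [Finset.card_range]; omega)
    (f := fun i => g ^ i • v) (fun i _ => hmem i)
  rw [Finset.mem_range] at hi hj
  wlog hle : i < j generalizing i j
  · exact this j hj i hi hij.symm heq.symm (by omega)
  have h1 : g ^ (j - i) • v = v := by
    have h2 : g ^ i • (g ^ (j - i) • v) = g ^ i • v := by
      rw [← mul_smul, ← pow_add, Nat.add_sub_cancel' hle.le]
      exact heq.symm
    exact smul_left_cancel _ h2
  exact pow_smul_eq_of_dvd h1 (Nat.dvd_factorial (by omega) (by omega))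

/-- A Frobenius fixes finitely many classes of degree zero. -/
theorem finite_fixed_pic0 {g : SemilinearAut k F} (hg : IsFrob g p f) :
    {c : Pic0 k F | g • c = c}.Finite := by
  classical
  obtain ⟨Q₀⟩ := exists_place (K := k) (F := F)
  obtain ⟨a, ha, hQ⟩ := hg.periodic_place Q₀
  set γ := genusFF k F with hγ
  have hfin : {v : Place k F | (g ^ a) ^ γ.factorial • v = v}.Finite :=
    ((hg.pow ha).pow (Nat.factorial_pos γ)).finite_fixed_place
  set S := hfin.toFinset with hS
  let Dv : ({v // v ∈ S} → Fin (γ + 1)) × Fin (γ + 1) → Divisor k F := fun φm =>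
    (∑ v : {v // v ∈ S}, Finsupp.single (v : Place k F) ((φm.1 v : ℕ) : ℤ)) +
      Finsupp.single Q₀ ((φm.2 : ℕ) : ℤ) - Finsupp.single Q₀ (γ : ℤ)
  refine Set.Finite.subset (Set.finite_iUnion (f := fun φm =>
    {c : Pic0 k F | ∃ h : Dv φm ∈ Divisor.degZero, Pic0.mk ⟨Dv φm, h⟩ = c}) fun φm =>
      Set.Subsingleton.finite fun c ⟨h, hc⟩ c' ⟨h', hc'⟩ => hc.symm.trans hc') ?_
  intro c hc
  rw [Set.mem_ofPred_eq] at hc
  have hc' : g ^ a • c = c := pow_smul_eq_of_dvd (N := 1) (by rwa [pow_one]) (one_dvd a)
  obtain ⟨⟨D, hD⟩, rfl⟩ := Pic0.mk_surjective c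
  obtain ⟨P, hP⟩ := Torsion.Analytic.exists_effective_rep Q₀ D (Divisor.mem_degZero.1 hD)
  set D₁ : Divisor k F := ∑ m, Finsupp.single (P m) (1 : ℤ) with hD₁
  set u := D - (D₁ - Finsupp.single Q₀ (γ : ℤ)) with hu
  have hD₁deg : Divisor.degree D₁ = γ := by
    rw [hD₁, map_sum]
    simp [deg_eq_one]
    rfl
  have hgD : g ^ a • D - D ∈ Divisor.principal (K := k) (F := F) := by
    rw [SemilinearAut.pic0_smul_mk] at hc'
    have h := QuotientAddGroup.eq.1 hc'.symm
    rw [AddSubgroup.mem_addSubgroupOf, AddSubgroup.coe_add, AddSubgroup.coe_neg,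
      neg_add_eq_sub] at h
    exact h
  have hgD₁ : g ^ a • D₁ - D₁ ∈ Divisor.principal (K := k) (F := F) := by
    have : g ^ a • D₁ - D₁ = (g ^ a • D - D) - (g ^ a • u - u) := by
      rw [hu, smul_sub, smul_sub, SemilinearAut.smul_single, hQ]
      abel
    rw [this]
    exact sub_mem hgD (sub_mem (isPrincipal_semilinear_smul _ hP) hP)
  have hrat : EichlerShimura.HasRationalResidue Q₀ :=
    ⟨by rw [deg_eq_one Q₀]; exact one_ne_zero,
      fun f hf h0 => exists_sub_algebraMap_ord_pos Q₀ (mem_of_ord_nonneg Q₀ h0.ge)⟩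
  have hone : EichlerShimura.InRiemannRoch D₁ (1 : F) := by
    refine ⟨one_ne_zero, fun v => ?_⟩
    rw [hD₁, Finsupp.finsetSum_apply, show v.ord (1 : F) = 0 by simp, add_zero]
    exact Finset.sum_nonneg fun m _ => by rw [Finsupp.single_apply]; split_ifs <;> simp
  obtain ⟨m, E, hE0, hEfix, hEp⟩ := EichlerShimura.exists_invariant_effective hrat hone {g ^ a}
    (fun σ hσ => by rw [Set.mem_singleton_iff.1 hσ]; exact hQ)
    (fun σ hσ => by rw [Set.mem_singleton_iff.1 hσ]; exact hgD₁)
  have hEdeg : Divisor.degree E = (γ : ℤ) - m := by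
    have h : Divisor.degree (E - (D₁ - Finsupp.single Q₀ (m : ℤ))) = 0 := by
      obtain ⟨w, hw, hwd⟩ := hEp
      rw [show E - (D₁ - Finsupp.single Q₀ (m : ℤ)) = divisorOf (K := k) w from Finsupp.ext hwd,
        degree_divisorOf]
    rw [map_sub, map_sub, hD₁deg, Divisor.degree_single, deg_eq_one Q₀] at h
    simp at h
    linarith
  have hEsum : Divisor.degree E = ∑ v ∈ E.support, E v := by
    conv_lhs => rw [← Finsupp.sum_single E, Finsupp.sum, map_sum]
    simp [deg_eq_one]
  have hm : m ≤ γ := by
    have : 0 ≤ Divisor.degree E := hEsum ▸ Finset.sum_nonneg fun v _ => hE0 v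
    omega
  have hle : ∀ v, E v ≤ γ := fun v => by
    by_cases hv : v ∈ E.support
    · have := Finset.single_le_sum (fun w _ => hE0 w) hv
      omega
    · rw [Finsupp.notMem_support_iff.1 hv]
      omega
  have hcard : E.support.card ≤ γ := by
    have h := Finset.card_nsmul_le_sum E.support (fun v => E v) 1 fun v hv => by
      have := hE0 v
      have := Finsupp.mem_support_iff.1 hv
      omega
    simp at h
    omega
  have hsupp : E.support ⊆ S := fun v hv => by
    rw [hS, Set.Finite.mem_toFinset]
    refine pow_factorial_smul_eq (g ^ a) E.support (fun w hw => ?_) hcard hv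
    rw [Finsupp.mem_support_iff] at hw ⊢
    have h := hEfix (g ^ a) rfl
    conv_lhs => rw [← h]
    rwa [SemilinearAut.divisor_smul_apply, inv_smul_smul]
  refine Set.mem_iUnion.2 ⟨(fun v => ⟨(E v).toNat, by have := hle v; have := hE0 v; omega⟩,
    ⟨m, by omega⟩), ?_⟩
  have hDv : (∑ v : {v // v ∈ S}, Finsupp.single (v : Place k F) (((E v).toNat : ℕ) : ℤ)) = E := by
    rw [Finset.sum_coe_sort S fun v => Finsupp.single v (((E v).toNat : ℕ) : ℤ)]
    conv_rhs => rw [← Finsupp.sum_single E, Finsupp.sum_of_support_subset E hsupp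
      (fun v n => Finsupp.single v n) (fun _ _ => Finsupp.single_zero _)]
    exact Finset.sum_congr rfl fun v _ => by rw [Int.toNat_of_nonneg (hE0 v)]
  have hdeg : E + Finsupp.single Q₀ (m : ℤ) - Finsupp.single Q₀ (γ : ℤ) ∈
      (Divisor.degZero : AddSubgroup (Divisor k F)) := by
    rw [Divisor.mem_degZero, map_sub, map_add, hEdeg, Divisor.degree_single, Divisor.degree_single,
      deg_eq_one Q₀]
    simp
  refine ⟨by simpa only [Dv, hDv] using hdeg, ?_⟩
  refine QuotientAddGroup.eq.2 ?_
  rw [AddSubgroup.mem_addSubgroupOf, AddSubgroup.coe_add, AddSubgroup.coe_neg, neg_add_eq_sub]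
  show D - Dv _ ∈ Divisor.principal (K := k) (F := F)
  simp only [Dv, hDv]
  have : D - (E + Finsupp.single Q₀ (m : ℤ) - Finsupp.single Q₀ (γ : ℤ)) =
      u - (E - (D₁ - Finsupp.single Q₀ (m : ℤ))) := by rw [hu]; abel
  rw [this]
  exact sub_mem hP hEp

end Classes

set_option maxHeartbeats 1000000 in
/-- **An endomorphism commuting with Galois and killing torsion kills the reduction.** -/
theorem reductionModL_eq_zero_of_kills_torsion {p : ℕ} [Fact p.Prime] (A : ValuationSubring Qb)
    (hA : A.LiesOverPrime p) {M : ℕ} [NeZero M] (T : JZero M →+ JZero M)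
    (hTσ : ∀ (σ : Γℚ) (x : JZero M), σ • T x = T (σ • x))
    (hT : ∀ x : JZero M, IsOfFinAddOrder x → T x = 0) (x : JZero M) :
    reductionModL A M (T x) = 0 := by
  by_cases h : ReductionInputsModL A M
  swap
  · rw [reductionModL_of_not h]; rfl
  have : IsAlgClosed (ResidueField A) := EC.isAlgClosed_residueField A
  have : CharP (ResidueField A) p := EC.charP_residueField A Fact.out hA
  have := Reduction.isFunctionField1_bar_basic M
  have := Reduction.isFunctionField1_fullC_basic M (ResidueField A)
  obtain ⟨φ, hφ⟩ := Galois.exists_isFrobeniusAt A (Fact.out : p.Prime) hA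
  obtain ⟨L, hL, hLfix⟩ := EichlerShimura.galoisFiniteLevel_x0 M x
  have : FiniteDimensional ℚ L := hL
  -- a power of Frobenius fixes `L`
  obtain ⟨n, hn, hφn⟩ : ∃ n : ℕ, 0 < n ∧ ∀ b ∈ L, (φ ^ n) b = b := by
    obtain ⟨i, j, hij, heq⟩ := Finite.exists_ne_map_eq_of_infinite
      fun i : ℕ => ((φ ^ i : Γℚ) : Qb →ₐ[ℚ] Qb).comp L.val
    wlog hlt : i < j generalizing i j
    · exact this j i hij.symm heq.symm (by omega)
    refine ⟨j - i, by omega, fun b hb => (φ ^ i).injective ?_⟩
    rw [← AlgEquiv.mul_apply, ← pow_add, Nat.add_sub_cancel' hlt.le]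
    exact (DFunLike.congr_fun heq ⟨b, hb⟩).symm
  -- its action on the special fibre
  set d : A.decompositionSubgroup ℚ := ⟨φ, hφ.mem_decompositionSubgroup⟩ with hd
  set α := MulSemiringAction.toRingAut (A.decompositionSubgroup ℚ) (ResidueField A) d with hα
  have hper : ∀ a : ResidueField A, ∃ m, 0 < m ∧ a ^ p ^ m = a :=
    fun a => EC.exists_pow_q_pow_eq_self A Fact.out hA a
  have hαp : α = periodicFrobenius p hper := RingEquiv.ext fun a =>
    (hφ.smul_residue_eq a).trans (periodicFrobenius_apply p hper a).symm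
  have hfrob : IsFrob (Reduction.residueGalois M α) p 1 := by
    have e : Reduction.residueGalois M α = modularSemilinear M (periodicFrobenius p hper) := by
      rw [hαp]
      exact Subtype.ext (Prod.ext (RingEquiv.ext fun x => Subtype.ext rfl) rfl)
    rw [e]
    exact isFrob_modular p M hper
  set g₀ := Reduction.residueGalois M α ^ n with hg₀
  have hred : ∀ z : JZero M, reductionModL A M ((φ ^ n) • z) = g₀ • reductionModL A M z := by
    intro z
    have h1 := Reduction.reductionModL_smul A Reduction.one_le_deg Reduction.weakRiemann h (d ^ n) z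
    rw [show MulSemiringAction.toRingEquiv _ (ResidueField A) (d ^ n) = α ^ n from
      map_pow (MulSemiringAction.toRingAut (A.decompositionSubgroup ℚ) (ResidueField A)) d n,
      map_pow] at h1
    rwa [SubmonoidClass.coe_pow] at h1
  -- the finite group of fixed classes
  let G : AddSubgroup (JZeroC (ResidueField A) M) :=
    { carrier := {c | g₀ • c = c}
      zero_mem' := smul_zero g₀
      add_mem' := fun {c c'} hc hc' => by
        show g₀ • (c + c') = c + c'
        rw [smul_add, hc, hc']
      neg_mem' := fun {c} hc => by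
        show g₀ • (-c) = -c
        rw [smul_neg, hc] }
  have : Finite G := (finite_fixed_pic0 (hfrob.pow hn)).to_subtype
  obtain ⟨z, hz⟩ := FiniteFlat.exists_nsmul_eq_jZero M (n := Nat.card G) Nat.card_pos.ne' x
  have hfix : (φ ^ n) • T z = T z := by
    have htor : IsOfFinAddOrder ((φ ^ n) • z - z) := by
      refine isOfFinAddOrder_iff_nsmul_eq_zero.2 ⟨Nat.card G, Nat.card_pos, ?_⟩
      have e : Nat.card G • ((φ ^ n) • z) = (φ ^ n) • (Nat.card G • z) :=
        (map_nsmul (DistribSMul.toAddMonoidHom (JZero M) (φ ^ n)) _ z).symm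
      rw [nsmul_sub, e, hz, hLfix _ hφn, sub_self]
    rw [hTσ, ← sub_eq_zero, ← map_sub]
    exact hT _ htor
  have hmem : reductionModL A M (T z) ∈ G := by
    show g₀ • _ = _
    rw [← hred, hfix]
  rw [← hz, map_nsmul, map_nsmul]
  exact congrArg Subtype.val (card_nsmul_eq_zero' (G := G) (x := ⟨_, hmem⟩))

end Fermat.Agent.LevelP
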