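import Mathlib.RingTheory.LocalRing.MaximalIdeal.Basic
import Mathlib.Algebra.Module.Submodule.Basic
import Mathlib.RingTheory.Valuation.ValuationSubring
import Mathlib.Tactic.Ring

/-!
# Horizontal divisors are principal at a node, after a vertical twist

`B` is the local ring at a node, `L` the residual function field, `W k` the valuation rings of the
point on the two components with residue maps `ev k`.  The image of `B` in `L × L` consists of the
pairs with equal values.  `N n` is the module of functions bounded by a given horizontal divisor,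
of vertical order `≥ 0` along the first component and `≥ n` along the second, with residual map
`ρ n`.  For a suitable twist `n` the module is generated by one element.
-/

set_option autoImplicit false

noncomputable section

namespace Fermat.Agent.LevelP

/-- The residual shape of a twisted family of rank one modules at a node. -/
structure NodeFamily (B : Type*) [CommRing B] (E : Type*) [AddCommGroup E]
    [Module B E] (L : Type*) [Field L] (k : Type*) [Field k] where
  /-- The two valuation rings at the node. -/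
  W : Bool → ValuationSubring L
  /-- Their residue maps. -/
  ev : (i : Bool) → W i →+* k
  /-- The residual map of the local ring. -/
  r : B →+* (Bool → L)
  /-- The twisted modules. -/
  N : ℤ → Submodule B E
  /-- Their residual maps. -/
  ρ : (n : ℤ) → N n →+ (Bool → L)
  ev_eq_zero : ∀ i (a : W i), ev i a = 0 ↔ ¬ IsUnit a
  r_surj : ∀ (a : W false) (b : W true), ev false a = ev true b →
    ∃ c, r c false = a ∧ r c true = b
  r_lift : ∀ i j (a : W i), ∃ b : W j, ev j b = ev i a
  ρ_smul : ∀ n (c : B) (m : N n), ρ n (c • m) = r c * ρ n m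
  exists_min : ∀ n i, ∃ m : N n, ρ n m i ≠ 0 ∧ ∀ m' : N n, ∃ a : W i, ρ n m' i = a * ρ n m i
  shift : ∀ n (m : N n), ρ n m true = 0 →
    ∃ m' : N (n + 1), (m' : E) = m ∧ ρ (n + 1) m' false = ρ n m false
  bound : ∀ u : L, u ≠ 0 → ∃ G : ℤ, ∀ n, G ≤ n → ∀ m : N n, ∀ a : W false, u ≠ a * ρ n m false

namespace NodeFamily

variable {B : Type*} [CommRing B] {E : Type*} [AddCommGroup E] [Module B E]
  {L : Type*} [Field L] {k : Type*} [Field k] (D : NodeFamily B E L k)

/-- A generator of the residues on the first component vanishing on the second. -/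
def Split (n : ℤ) : Prop :=
  ∃ m : D.N n, D.ρ n m true = 0 ∧ D.ρ n m false ≠ 0 ∧
    ∀ m' : D.N n, ∃ a : D.W false, D.ρ n m' false = a * D.ρ n m false

theorem exists_not_split : ∃ n : ℤ, 0 ≤ n ∧ ¬ D.Split n := by
  by_contra hcon
  push Not at hcon
  obtain ⟨m₀, hm₀, -⟩ := D.exists_min 0 false
  set u := D.ρ 0 m₀ false with hu
  have key : ∀ N : ℕ, ∃ (m : D.N N) (a : D.W false), u = a * D.ρ N m false := by
    intro N
    induction N with
    | zero => exact ⟨m₀, 1, by simp [hu]⟩
    | succ N ih =>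
      obtain ⟨m, a, ha⟩ := ih
      obtain ⟨m₁, h₁, -, hgen⟩ := hcon N (Int.natCast_nonneg N)
      obtain ⟨c, hc⟩ := hgen m
      obtain ⟨m', -, hm'⟩ := D.shift N m₁ h₁
      refine ⟨⟨(m' : E), by exact_mod_cast m'.2⟩, a * c, ?_⟩
      rw [ha, hc, MulMemClass.coe_mul, mul_assoc]
      congr 2
      exact hm'.symm
  obtain ⟨G, hG⟩ := D.bound u hm₀
  obtain ⟨m, a, ha⟩ := key G.toNat
  exact hG _ (Int.self_le_toNat G) m a ha

variable {D}

theorem exists_generator_of_not_split {n : ℤ} (hn : ¬ D.Split n) :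
    ∃ b : D.N n, (∀ i, D.ρ n b i ≠ 0) ∧
      (∀ m : D.N n, ∃ c : B, D.ρ n m = r D c * D.ρ n b) := by
  obtain ⟨b, hb, hbgen⟩ := D.exists_min n false
  obtain ⟨b₂, hb₂, hb₂gen⟩ := D.exists_min n true
  -- a second coordinate of minimal order cannot be split off
  have key : ∀ w : D.N n, D.ρ n w false = 0 →
      ∀ a : D.W true, D.ρ n w true = a * D.ρ n b₂ true → ¬ IsUnit a := by
    intro w hw a ha hu
    obtain ⟨v, hv⟩ := hb₂gen b
    obtain ⟨ainv, hainv⟩ := hu.exists_left_inv
    obtain ⟨e, he⟩ := D.r_lift true false (v * ainv)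
    obtain ⟨c, hc₀, hc₁⟩ := D.r_surj e (v * ainv) he
    refine hn ⟨b - c • w, ?_, ?_, ?_⟩
    · rw [map_sub, Pi.sub_apply, D.ρ_smul, Pi.mul_apply, hc₁, ha, hv]
      have : (ainv : L) * (a : L) = 1 := by rw [← MulMemClass.coe_mul, hainv]; rfl
      rw [MulMemClass.coe_mul, show (v : L) * ainv * (a * D.ρ n b₂ true) =
        v * (ainv * a) * D.ρ n b₂ true by ring, this, mul_one, sub_self]
    · simpa [D.ρ_smul, hw] using hb
    · intro m'
      obtain ⟨a', ha'⟩ := hbgen m'
      exact ⟨a', by simpa [D.ρ_smul, hw] using ha'⟩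
  -- the second coordinate of `b` is minimal
  obtain ⟨v, hv⟩ := hb₂gen b
  obtain ⟨v', hv'⟩ := hbgen b₂
  obtain ⟨e, he⟩ := D.r_lift false true v'
  obtain ⟨c, hc₀, hc₁⟩ := D.r_surj v' e he.symm
  have hvu : IsUnit v := by
    by_contra hvn
    have hev : D.ev true v = 0 := (D.ev_eq_zero true v).2 hvn
    refine key (b₂ - c • b) ?_ (1 - e * v) ?_ ?_
    · rw [map_sub, Pi.sub_apply, D.ρ_smul, Pi.mul_apply, hc₀, hv', sub_self]
    · rw [map_sub, Pi.sub_apply, D.ρ_smul, Pi.mul_apply, hc₁, hv]
      push_cast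
      ring
    · by_contra hu
      have h0 := (D.ev_eq_zero true _).2 hu
      rw [map_sub, map_one, map_mul, hev, mul_zero, sub_zero] at h0
      exact one_ne_zero h0
  obtain ⟨vinv, hvinv⟩ := hvu.exists_left_inv
  have hb2 : ∀ m : D.N n, ∃ a : D.W true, D.ρ n m true = a * D.ρ n b true := by
    intro m
    obtain ⟨a, ha⟩ := hb₂gen m
    refine ⟨a * vinv, ?_⟩
    have : (vinv : L) * (v : L) = 1 := by rw [← MulMemClass.coe_mul, hvinv]; rfl
    rw [ha, hv, MulMemClass.coe_mul, show (a : L) * vinv * (v * D.ρ n b₂ true) =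
      a * (vinv * v) * D.ρ n b₂ true by ring, this, mul_one]
  refine ⟨b, fun i => ?_, fun m => ?_⟩
  · cases i
    · exact hb
    · rw [hv]
      refine mul_ne_zero ?_ hb₂
      simpa using hvu.ne_zero
  · obtain ⟨a, ha⟩ := hbgen m
    obtain ⟨a', ha'⟩ := hb2 m
    by_cases hval : D.ev false a = D.ev true a'
    · obtain ⟨c', h0, h1⟩ := D.r_surj a a' hval
      refine ⟨c', funext fun i => ?_⟩
      cases i <;> simp [h0, h1, ha, ha']
    · exfalso
      obtain ⟨e', he'⟩ := D.r_lift false true a
      obtain ⟨c', h0, h1⟩ := D.r_surj a e' he'.symm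
      refine key (m - c' • b) ?_ ((a' - e') * v) ?_ ?_
      · rw [map_sub, Pi.sub_apply, D.ρ_smul, Pi.mul_apply, h0, ha, sub_self]
      · rw [map_sub, Pi.sub_apply, D.ρ_smul, Pi.mul_apply, h1, ha', hv]
        push_cast
        ring
      · refine IsUnit.mul ?_ hvu
        by_contra hu
        have h2 := (D.ev_eq_zero true _).2 hu
        rw [map_sub, sub_eq_zero] at h2
        exact hval (he'.symm.trans h2.symm)

/-- **Local principality at a node.** -/
theorem exists_residual_generator (D : NodeFamily B E L k) :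
    ∃ (n : ℤ) (b : D.N n), 0 ≤ n ∧ (∀ i, D.ρ n b i ≠ 0) ∧
      ∀ m : D.N n, ∃ c : B, D.ρ n m = r D c * D.ρ n b := by
  obtain ⟨n, hn0, hn⟩ := D.exists_not_split
  obtain ⟨b, hb, hgen⟩ := exists_generator_of_not_split hn
  exact ⟨n, b, hn0, hb, hgen⟩

end NodeFamily

end Fermat.Agent.LevelP
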