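import Fermat.Agent.LevelP.EigenInputs
import Fermat.Agent.LevelP.InertiaCases
import Fermat.Agent.LevelP.Model.Main
import Fermat.Agent.Reduction.ModularBasics
import Fermat.Agent.EC.Red.ResidueQbar
import Fermat.Agent.Galois.Frobenius

/-!
# Mazur's principle at `p`: removing `p` from the level

For `W` multiplicative at `p ≥ 5` with `p ∣ ord_p Δ` and `W[p]` irreducible: residually modular of
level `M * p`, `p ∤ M`, implies residually modular of level `M`.
-/

set_option autoImplicit false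
set_option synthInstance.maxHeartbeats 400000

noncomputable section

namespace Fermat.Agent.LevelP

open AlgebraicCurve ModularCurve WeierstrassCurve IsLocalRing
open Fermat.Agent.Curve
open scoped WeierstrassCurve.Affine

local notation "Qb" => AlgebraicClosure ℚ
local notation "Γℚ" => (AlgebraicClosure ℚ ≃ₐ[ℚ] AlgebraicClosure ℚ)

/-- Classes agree when the difference of representatives is principal. -/
theorem mk_eq_mk_of_isPrincipal_sub {K F : Type*} [Field K] [Field F] [Algebra K F]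
    {D E : Divisor.degZero (K := K) (F := F)}
    (h : Divisor.IsPrincipal ((E : Divisor K F) - (D : Divisor K F))) : Pic0.mk E = Pic0.mk D := by
  refine (QuotientAddGroup.eq.2 ?_).symm
  rw [AddSubgroup.mem_addSubgroupOf, AddSubgroup.coe_add, AddSubgroup.coe_neg, neg_add_eq_sub]
  exact h

theorem isPrincipal_sub_of_mk_eq {K F : Type*} [Field K] [Field F] [Algebra K F]
    {D E : Divisor.degZero (K := K) (F := F)} (h : Pic0.mk E = Pic0.mk D) :
    Divisor.IsPrincipal ((E : Divisor K F) - (D : Divisor K F)) := by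
  have := QuotientAddGroup.eq.1 h.symm
  rw [AddSubgroup.mem_addSubgroupOf, AddSubgroup.coe_add, AddSubgroup.coe_neg, neg_add_eq_sub]
    at this
  exact this

/-- **Mazur's principle at `p` for a multiplicative curve with `p ∣ ord_p Δ`.** -/
theorem isResiduallyModularOfLevel_of_mul {W : WeierstrassCurve ℤ} {p M : ℕ} [Fact p.Prime]
    [NeZero M] (hp5 : 5 ≤ p) (hpM : ¬ p ∣ M) (hΔ : W.Δ ≠ 0) (hpΔ : (p : ℤ) ∣ W.Δ)
    (hc4 : ¬ (p : ℤ) ∣ W.c₄) (hv : p ∣ padicValInt p W.Δ) (hirr : W.ModRepIsIrreducible p)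
    (hmod : W.IsResiduallyModularOfLevel p (M * p)) : W.IsResiduallyModularOfLevel p M := by
  by_contra hnot
  have hp : p.Prime := Fact.out
  obtain ⟨A, hA⟩ := Galois.exists_valuationSubring_liesOverPrime (L := Qb) hp
  have : IsAlgClosed (ResidueField A) := EC.isAlgClosed_residueField A
  have : NeZero (M * p) := ⟨Nat.mul_ne_zero (NeZero.ne M) hp.ne_zero⟩
  have : IsFunctionField1 Qb (modularFunctionFieldBar (M * p)) :=
    Reduction.isFunctionField1_bar_basic (M * p)
  have : IsFunctionField1 (ResidueField A) (modularFunctionFieldFullC (ResidueField A) M) :=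
    Reduction.isFunctionField1_fullC_basic M (ResidueField A)
  obtain ⟨T, hact, hswap, hred, hw, hnode, -⟩ := X0.exists_twoCompData A p M hp5 hpM hA
  obtain ⟨ι, hinj, hequiv, heig⟩ := exists_eigen_embedding W p M hp5 hpM hΔ hirr hmod
  have hkill := hasOldKiller W p M hp5 hpM hΔ hnot
  have hne := exists_nonEisenstein_prime W p M hp5 hΔ hirr
  have hR : M * p ∣ badLevel W p M := dvd_mul_right _ _
  -- a `p`-torsion point gives a rigid class
  have key : ∀ x, ∃ D : Divisor Qb (modularFunctionFieldBar (M * p)),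
      ∃ hD : D ∈ (Divisor.degZero : AddSubgroup (Divisor Qb (modularFunctionFieldBar (M * p)))),
        Pic0.mk ⟨D, hD⟩ = ι x ∧ Divisor.IsPrincipal ((p : ℤ) • D) ∧
        (∀ σ : Γℚ, ι x = σ • ι x → Divisor.IsPrincipal (T.act σ • D - D)) ∧
        ∀ E : Divisor Qb (modularFunctionFieldBar (M * p)), Divisor.IsPrincipal (E - D) →
          T.Rigid E ∧ T.Rigid (SemilinearAut.ofAlgAut T.swap • E) := by
    intro x
    obtain ⟨⟨D, hD⟩, hDx⟩ := Pic0.mk_surjective (ι x)
    refine ⟨D, hD, hDx, ?_, fun σ hσ => ?_, fun E hE => ?_⟩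
    · have hpx : (p : ℤ) • x = 0 := Subtype.ext ((Submodule.mem_torsionBy_iff _ _).1 x.2)
      have h0 : Pic0.mk ((p : ℤ) • (⟨D, hD⟩ :
          Divisor.degZero (K := Qb) (F := modularFunctionFieldBar (M * p)))) = Pic0.mk 0 := by
        rw [Pic0.mk_zero, show Pic0.mk ((p : ℤ) • (⟨D, hD⟩ :
          Divisor.degZero (K := Qb) (F := modularFunctionFieldBar (M * p)))) =
            (p : ℤ) • Pic0.mk ⟨D, hD⟩ from rfl, hDx, ← map_zsmul, hpx, map_zero]
      simpa using isPrincipal_sub_of_mk_eq h0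
    · rw [hact]
      have h1 : Pic0.mk (SemilinearAut.degZeroSMulHom (X0.act p M σ) ⟨D, hD⟩) =
          Pic0.mk ⟨D, hD⟩ := by
        rw [← SemilinearAut.pic0_smul_mk, hDx]
        exact hσ.symm
      exact isPrincipal_sub_of_mk_eq h1
    · have hEdeg : E ∈ (Divisor.degZero :
          AddSubgroup (Divisor Qb (modularFunctionFieldBar (M * p)))) := by
        obtain ⟨f, hf, hfE⟩ := hE
        have h1 : E - D = divisorOf f := Finsupp.ext hfE
        rw [show E = divisorOf f + D by rw [← h1]; abel]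
        exact add_mem (Divisor.mem_degZero.2 (degree_divisorOf f)) hD
      have hEx : Pic0.mk ⟨E, hEdeg⟩ = ι x :=
        (mk_eq_mk_of_isPrincipal_sub (D := ⟨D, hD⟩) (E := ⟨E, hEdeg⟩) hE).trans hDx
      have heigE : ∀ ℓ : GoodPrime (badLevel W p M),
          ∀ h : E ∈ (Divisor.degZero :
            AddSubgroup (Divisor Qb (modularFunctionFieldBar (M * p)))),
          heckeOperatorBar (M * p) ℓ.1 (Pic0.mk ⟨E, h⟩) =
            (fun n => W.apOfModel n) (ℓ.1 : ℕ) • Pic0.mk ⟨E, h⟩ := by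
        intro ℓ h
        rw [hEx]
        exact heig ℓ x
      refine ⟨rigid_of_eigen A p M hp5 hpM hA T hred hw hnode _ hR _ hkill hne E hEdeg heigE, ?_⟩
      refine rigid_of_eigen A p M hp5 hpM hA T hred hw hnode _ hR _ hkill hne _ ?_ ?_
      · rw [SemilinearAut.degree_smul]; exact hEdeg
      · rw [hswap]
        exact fun ℓ h => eigen_swap p M hpM _ hR _ E hEdeg heigE ℓ h
  -- transport of the Galois action
  have htr : ∀ (σ : Γℚ) x, σ • ι x = ι (σ • x) := fun σ x =>
    (hequiv σ x (Affine.Point.smul_mem_torsionBy σ x.2)).symm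
  rcases inertia_cases hp (by omega) hA hΔ hpΔ hc4 hv with
    ⟨P, hP0, hpP, hfix⟩ | ⟨L₁, L, he₁, he, hle, τ, hτ, hnorm, hgen, η, b, hb, hbp, hτπ, hη, hmove,
      P, hpP, hmoved, hfix₁, hfix⟩
  · have hPmem : P ∈ Submodule.torsionBy ℤ ((W.map (Int.castRingHom ℚ))⁄Qb).Point (p : ℤ) := by
      rw [Submodule.mem_torsionBy_iff, natCast_zsmul, hpP]
    obtain ⟨D, hD, hDx, hpD, hcl, hrig⟩ := key ⟨P, hPmem⟩
    refine no_tame_torsion T hp hp5 hA D (Divisor.mem_degZero.1 hD) (fun hpr => ?_) hpD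
      (fun σ hσ => hcl σ ?_) hrig
    · refine hP0 (congrArg Subtype.val (hinj (a₁ := ⟨P, hPmem⟩) (a₂ := 0) ?_))
      rw [map_zero, ← hDx, ← Pic0.mk_zero]
      exact mk_eq_mk_of_isPrincipal_sub (by simpa using hpr)
    · rw [htr]
      exact congrArg ι (Subtype.ext (hfix σ hσ).symm)
  · have hPmem : P ∈ Submodule.torsionBy ℤ ((W.map (Int.castRingHom ℚ))⁄Qb).Point (p : ℤ) := by
      rw [Submodule.mem_torsionBy_iff, natCast_zsmul, hpP]
    set x : Submodule.torsionBy ℤ ((W.map (Int.castRingHom ℚ))⁄Qb).Point (p : ℤ) := ⟨P, hPmem⟩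
    obtain ⟨D, hD, hDx, hpD, hcl, hrig⟩ := key x
    refine no_wild_torsion T hp hp5 hA L₁ L he₁ he hle τ hτ hnorm hgen η b hb hbp hτπ hη hmove D
      (Divisor.mem_degZero.1 hD) hpD (fun σ hσ => hcl σ ?_) (fun hpr => ?_) (fun σ hσ => ?_) hrig
    · rw [htr]
      exact congrArg ι (Subtype.ext (hfix σ hσ P hpP).symm)
    · rw [hact] at hpr
      have h1 : Pic0.mk (SemilinearAut.degZeroSMulHom (X0.act p M τ) ⟨D, hD⟩) =
          Pic0.mk ⟨D, hD⟩ := mk_eq_mk_of_isPrincipal_sub hpr
      rw [← SemilinearAut.pic0_smul_mk, hDx] at h1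
      refine hmoved (sub_eq_zero.2 ?_)
      exact congrArg Subtype.val (hinj ((htr τ x).symm.trans h1))
    · rw [hact]
      set D' : Divisor.degZero (K := Qb) (F := modularFunctionFieldBar (M * p)) :=
        SemilinearAut.degZeroSMulHom (X0.act p M τ) ⟨D, hD⟩ - ⟨D, hD⟩
      have h1 : Pic0.mk D' = ι (τ • x - x) := by
        rw [map_sub, ← htr, ← hDx]
        rfl
      have h2 : Pic0.mk (SemilinearAut.degZeroSMulHom (X0.act p M σ) D') = Pic0.mk D' := by
        rw [← SemilinearAut.pic0_smul_mk, h1]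
        refine (htr σ _).trans (congrArg ι (Subtype.ext ?_))
        exact hfix₁ σ hσ
      exact isPrincipal_sub_of_mk_eq h2

end Fermat.Agent.LevelP
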