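import Fermat.Agent.LevelP.Depth
import Fermat.Agent.EC.Mult.FixedLine
import Fermat.Agent.EC.TateFormal
import Fermat.Agent.EC.TateStructure

/-!
# Multiplicative reduction with `p ∣ ord_p Δ`: the torsion field is peu ramifié

In the normal form `y² + xy = x³ + c` let `P = (x, y)` be `p`-torsion off the identity component,
and `T` a nonzero `p`-torsion point of the kernel of reduction.  Then `v x` is an integral power of
`v p` and `v (x (P + T) - x) = v x · v (ζ - 1)`: the field of definition of `P` over the field of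
`ζ` has small break.  Hence it contains no `p`-th root of `u p^j`, `u` a unit fixed by inertia and
`p ∤ j`.
-/

set_option autoImplicit false

noncomputable section

open WeierstrassCurve IsLocalRing
open scoped WeierstrassCurve.Affine

namespace Fermat.Agent.LevelP

open EC.TateTheta

section NormalForm

variable {K : Type*} [Field K] [DecidableEq K] {A : ValuationSubring K} {c : K} {p : ℕ}
  (hc : A.valuation c < 1) (hc0 : c ≠ 0)

include hc hc0

/-- A torsion point of odd order off the identity component is not on the middle component. -/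
theorem bad_torsion_facts (hp2 : Odd p) {x y : K}
    {h : (tateModel c).toAffine.Nonsingular x y}
    (hP : p • (Affine.Point.some x y h) = 0) (hx : A.valuation x < 1) :
    A.valuation (2 * y + x) = A.valuation x ∧ A.valuation y ≤ A.valuation x ∧
      A.valuation c < A.valuation x ∧ ∃ k : ℤ, A.valuation x ^ p = A.valuation c ^ k := by
  have he := (tateModel_equation_iff c x y).mp h.left
  have hw := valuation_c_lt hc0 hc he hx
  have hcpos : 0 < A.valuation c := zero_lt_iff.mpr (A.valuation.ne_zero_iff.mpr hc0)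
  obtain ⟨u, k, hu, hk⟩ := exists_pow_eq_of_torsion hc0 hc hP
  have hk' : A.valuation (thetaVal A c x y) ^ p = A.valuation c ^ k := by
    have := congrArg A.valuation hk
    rwa [map_pow, map_mul, valuation_of_approx_one hu, one_mul, map_zpow₀,
      A.valuation.map_neg] at this
  have hne : A.valuation y ≠ A.valuation (y + x) := by
    intro heq
    rw [thetaVal, if_neg hx.not_ge, if_pos heq.le, ← heq] at hk'
    rw [← heq, max_self] at hw
    obtain ⟨hy1, -⟩ := bad_facts hc he hx
    have hxy : A.valuation x ≤ A.valuation y := by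
      have := A.valuation.map_sub (y + x) y
      rwa [add_sub_cancel_left, ← heq, max_self] at this
    have hsq : A.valuation y ^ 2 = A.valuation c := by
      have h3 : A.valuation (x ^ 3) < A.valuation y ^ 2 := by
        rw [map_pow]
        exact (pow_le_pow_left₀ zero_le hxy 3).trans_lt
          (pow_lt_pow_right_of_lt_one₀ (hcpos.trans hw) hy1 (by norm_num))
      have h4 : A.valuation (x ^ 3 + c) = A.valuation y ^ 2 := by
        rw [← he, map_mul, ← heq, sq]
      rw [← h4] at h3
      rw [← h4, ← A.valuation.map_sub_eq_of_lt_left h3, add_sub_cancel_left]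
    have h2k : (p : ℤ) = 2 * k := by
      apply zpow_right_injective₀ hcpos hc.ne
      show A.valuation c ^ (p : ℤ) = A.valuation c ^ (2 * k)
      rw [zpow_natCast, ← hsq, ← pow_mul, mul_comm 2 p, pow_mul, hk', ← zpow_natCast,
        ← zpow_mul, mul_comm k]
      norm_num
      rw [hsq]
    obtain ⟨m, rfl⟩ := hp2
    omega
  rcases lt_or_gt_of_ne hne with hlt | hlt
  · have hxw : A.valuation x = A.valuation (y + x) := by
      rw [← A.valuation.map_sub_eq_of_lt_left hlt, add_sub_cancel_left]
    rw [max_eq_right hlt.le, ← hxw] at hw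
    rw [thetaVal, if_neg hx.not_ge, if_pos hlt.le, ← hxw] at hk'
    refine ⟨?_, hxw ▸ hlt.le, hw, k, hk'⟩
    rw [show 2 * y + x = y + (y + x) by ring, A.valuation.map_add_eq_of_lt_right hlt, hxw]
  · have hxw : A.valuation x = A.valuation y := by
      rw [← A.valuation.map_sub_eq_of_lt_right hlt, add_sub_cancel_left]
    rw [max_eq_left hlt.le, ← hxw] at hw
    rw [thetaVal, if_neg hx.not_ge, if_neg hlt.not_ge, map_div₀, ← hxw, div_pow,
      div_eq_iff (pow_ne_zero p (hcpos.trans hw).ne')] at hk'
    refine ⟨?_, hxw.ge, hw, (p : ℤ) - k, ?_⟩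
    · rw [show 2 * y + x = y + (y + x) by ring, A.valuation.map_add_eq_of_lt_left hlt, hxw]
    · rw [zpow_sub₀ hcpos.ne', zpow_natCast, hk', mul_div_cancel_left₀ _ (zpow_ne_zero k hcpos.ne')]

omit hc0 in
/-- Adding a point of the kernel of reduction moves `x` by `v x · v (r - 1)`. -/
theorem valuation_addX_sub {x y x' y' : K} (he : y * (y + x) = x ^ 3 + c)
    (he' : y' * (y' + x') = x' ^ 3 + c) (hx : A.valuation x < 1) (hx' : 1 < A.valuation x')
    (h2 : A.valuation (2 * y + x) = A.valuation x) (hyx : A.valuation y ≤ A.valuation x)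
    (hcx : A.valuation c < A.valuation x) :
    A.valuation ((tateModel c).toAffine.addX x x' ((tateModel c).toAffine.slope x x' y y') - x) =
      A.valuation x * A.valuation (y' / (y' + x') - 1) := by
  obtain ⟨hw1, hw3, hw2, -⟩ := e1_facts hc he' hx'
  set w := A.valuation (y' / (y' + x') - 1) with hw
  have hw0 : 0 < w := by
    refine zero_lt_iff.mpr fun h0 => ?_
    rw [h0, zero_pow two_ne_zero, eq_comm, inv_eq_zero] at hw2
    exact (zero_lt_one.trans hx').ne' hw2
  have hvx' : A.valuation x' = (w ^ 2)⁻¹ := by rw [hw2, inv_inv]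
  have hvy' : A.valuation y' = (w ^ 3)⁻¹ := by rw [hw3, inv_inv]
  have hxx' : x ≠ x' := by rintro rfl; exact (hx.trans hx').false
  have hd : A.valuation (x - x') = (w ^ 2)⁻¹ := by
    rw [A.valuation.map_sub_eq_of_lt_right (hx.trans hx'), hvx']
  set N := c + c - x ^ 3 - (2 * y + x) * y' + (3 * x ^ 2 - y) * x' with hN
  have hid : (tateModel c).toAffine.addX x x' ((tateModel c).toAffine.slope x x' y y') - x =
      N / (x - x') ^ 2 := by
    have hne : x - x' ≠ 0 := sub_ne_zero.mpr hxx'
    rw [Affine.slope_of_X_ne hxx', hN]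
    simp only [Affine.addX, tateModel]
    field_simp
    linear_combination he + he'
  have hxpos : 0 < A.valuation x := lt_of_le_of_lt zero_le hcx
  have hbig : 1 < (w ^ 3)⁻¹ := (one_lt_inv₀ (pow_pos hw0 3)).mpr (pow_lt_one₀ zero_le hw1 three_ne_zero)
  have hB : A.valuation ((2 * y + x) * y') = A.valuation x * (w ^ 3)⁻¹ := by
    rw [map_mul, h2, hvy']
  have hint : A.valuation (3 * x ^ 2 - y) ≤ A.valuation x := by
    refine (A.valuation.map_sub _ _).trans (max_le ?_ ?_)
    · rw [map_mul, map_pow, sq, ← mul_assoc]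
      refine mul_le_of_le_one_left zero_le (mul_le_one₀ ?_ zero_le hx.le)
      exact (A.valuation_le_one_iff _).mpr (natCast_mem A 3)
    · exact hyx
  have hA' : A.valuation ((3 * x ^ 2 - y) * x') < A.valuation x * (w ^ 3)⁻¹ := by
    rw [map_mul, hvx']
    calc A.valuation (3 * x ^ 2 - y) * (w ^ 2)⁻¹ ≤ A.valuation x * (w ^ 2)⁻¹ :=
          mul_le_mul_left hint _
      _ < A.valuation x * (w ^ 3)⁻¹ := by
          refine mul_lt_mul_of_pos_left ?_ hxpos
          exact (inv_lt_inv₀ (pow_pos hw0 2) (pow_pos hw0 3)).mpr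
            (pow_lt_pow_right_of_lt_one₀ hw0 hw1 (by norm_num))
  have hC : A.valuation (c + c - x ^ 3) < A.valuation x * (w ^ 3)⁻¹ := by
    refine lt_of_le_of_lt ?_ (lt_mul_of_one_lt_right hxpos hbig)
    refine (A.valuation.map_sub _ _).trans (max_le ((A.valuation.map_add _ _).trans
      (by rw [max_self]; exact hcx.le)) ?_)
    rw [map_pow]
    exact pow_le_of_le_one zero_le hx.le three_ne_zero
  have hNv : A.valuation N = A.valuation x * (w ^ 3)⁻¹ := by
    rw [hN, show c + c - x ^ 3 - (2 * y + x) * y' + (3 * x ^ 2 - y) * x' =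
      ((c + c - x ^ 3) + (3 * x ^ 2 - y) * x') - (2 * y + x) * y' by ring,
      A.valuation.map_sub_eq_of_lt_right (by rw [hB]; exact A.valuation.map_add_lt hC hA'), hB]
  rw [hid, map_div₀, hNv, map_pow, hd]
  field_simp

variable (hp : p.Prime) (hp0 : (p : K) ≠ 0) (hcp : A.valuation c ≤ A.valuation (p : K))

include hp hp0 hcp in
/-- Nonzero `p`-torsion in the kernel of reduction has `v (r - 1) = v (ζ - 1)`. -/
theorem valuation_rVal_torsion {π₀ : K} (hπ₀ : A.valuation π₀ ^ (p - 1) = A.valuation (p : K))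
    {T : (tateModel c).toAffine.Point} (hT : IsE1 A T) (hT0 : T ≠ 0) (hpT : p • T = 0) :
    A.valuation (rVal T - 1) = A.valuation π₀ := by
  have h := valuation_eq_of_approx (torsion_approx hc hc0 hp hp0 hcp hT hT0 hpT)
  rw [map_pow, A.valuation.map_neg, ← hπ₀] at h
  exact (pow_left_inj₀ zero_le zero_le (by have := hp.two_le; omega)).mp h

include hp hp0 hcp in
/-- An automorphism fixing `π₀` and trivial on residues fixes `p`-torsion in the kernel of
reduction. -/
theorem mapPt_eq_self_of_isE1 (σ : K ≃+* K) (hσv : ∀ z, A.valuation (σ z) = A.valuation z)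
    (hσres : ∀ z ∈ A, A.valuation (σ z - z) < 1) (hσc : σ c = c) {π₀ : K} (hπ₀0 : π₀ ≠ 0)
    (hσπ : σ π₀ = π₀) (hπ₀ : A.valuation π₀ ^ (p - 1) = A.valuation (p : K))
    (hπ₀1 : A.valuation π₀ < 1)
    {T : (tateModel c).toAffine.Point} (hT : IsE1 A T) (hpT : p • T = 0) :
    mapPt σ hσc T = T := by
  rcases eq_or_ne T 0 with rfl | hT0
  · rfl
  have hσT : IsE1 A (mapPt σ hσc T) := by
    rcases T with _ | ⟨x, y, h⟩
    · trivial
    · show 1 < A.valuation (σ x)
      rw [hσv]; exact hT
  by_contra hne
  set R := mapPt σ hσc T - T with hR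
  have hR0 : R ≠ 0 := sub_ne_zero.mpr hne
  have hRE : IsE1 A R := hσT.sub hc hc0 hT
  have hpR : p • R = 0 := nsmul_mapPt_sub σ hσc hpT
  have hTv := valuation_rVal_torsion hc hc0 hp hp0 hcp hπ₀ hT hT0 hpT
  have hRv := valuation_rVal_torsion hc hc0 hp hp0 hcp hπ₀ hRE hR0 hpR
  have hadd := rVal_add_approx hc hc0 hRE hT hRv.le hTv.le hπ₀1.le
  rw [hR, sub_add_cancel, ← hR] at hadd
  have hπpos : 0 < A.valuation π₀ := zero_lt_iff.mpr (A.valuation.ne_zero_iff.mpr hπ₀0)
  have hσr : rVal (mapPt σ hσc T) = σ (rVal T) := by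
    rcases T with _ | ⟨x, y, h⟩
    · exact (map_one σ).symm
    · show σ y / (σ y + σ x) = σ (y / (y + x))
      rw [map_div₀, map_add]
  set s := (rVal T - 1) / π₀ with hs
  have hsA : s ∈ A := by
    rw [← A.valuation_le_one_iff, hs, map_div₀, hTv, div_self hπpos.ne']
  have hmove : A.valuation (σ (rVal T) - rVal T) < A.valuation π₀ := by
    have e : σ (rVal T) - rVal T = π₀ * (σ s - s) := by
      rw [hs, map_div₀, map_sub, map_one, hσπ]; field_simp; ring
    rw [e, map_mul]
    exact mul_lt_of_lt_one_right hπpos (hσres s hsA)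
  have hlt : A.valuation ((rVal R - 1) * rVal T) < A.valuation π₀ := by
    rw [show (rVal R - 1) * rVal T = -(rVal (mapPt σ hσc T) - rVal R * rVal T) +
      (σ (rVal T) - rVal T) by rw [hσr]; ring]
    refine A.valuation.map_add_lt ?_ hmove
    rw [A.valuation.map_neg]
    calc _ ≤ A.valuation c * A.valuation π₀ ^ 3 := hadd
      _ ≤ A.valuation c * A.valuation π₀ := by
        gcongr; exact pow_le_of_le_one zero_le hπ₀1.le (by norm_num)
      _ < A.valuation π₀ := mul_lt_of_lt_one_left hπpos hc
  rw [map_mul, valuation_rVal hc hT, mul_one, hRv] at hlt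
  exact lt_irrefl _ hlt

end NormalForm

end Fermat.Agent.LevelP
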