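import Fermat.Agent.LevelP.X0.Main
import Fermat.Agent.LevelP.X0.SwapHecke
import Fermat.Agent.LevelP.StepC.ResiduePower
import Fermat.Agent.LevelP.KillReduction
import Fermat.Agent.EichlerShimura.GaloisHecke
import Fermat.Agent.LevelP.Model.Main
import Fermat.Prelude.Def_ModularCurve_HeckeModule
import Mathlib.Algebra.FreeAlgebra

/-!
# Eisenstein residues of a non-Eisenstein, new eigenclass are `p`-th powers

On `q`-expansions `T_ℓ` is the product over the `ℓ + 1` conjugates, which commutes with Gauss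
reduction; `div w̄` is Eisenstein and an eigen divisor class of level `M` is killed by the old
killer.
-/

set_option autoImplicit false
set_option synthInstance.maxHeartbeats 400000

noncomputable section

namespace Fermat.Agent.LevelP

open AlgebraicCurve ModularCurve IsLocalRing Fermat.Agent.Modular Fermat.Agent.BadPrime

local notation "Qb" => AlgebraicClosure ℚ

variable (A : ValuationSubring Qb) (p M : ℕ) [Fact p.Prime] [NeZero M]
  [IsAlgClosed (ResidueField A)]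

local notation "F" => modularFunctionFieldBar (M * p)
local notation "Fb" => modularFunctionFieldFullC (ResidueField A) M

/-- Primes not dividing `R`. -/
abbrev GoodPrime (R : ℕ) : Type := {ℓ : Nat.Primes // ¬ (ℓ : ℕ) ∣ R}

/-- A word in Hecke operators away from `R` that kills the torsion of `J₀(M)` but not the eigen
system `a` modulo `p`. -/
def HasOldKiller (R : ℕ) (a : ℕ → ℤ) : Prop :=
  ∃ t : FreeAlgebra ℤ (GoodPrime R),
    (∀ x : JZero M, IsOfFinAddOrder x →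
      FreeAlgebra.lift ℤ (fun ℓ => heckeOperatorBar M ℓ.1) t x = 0) ∧
      ¬ (p : ℤ) ∣ FreeAlgebra.lift ℤ (fun ℓ : GoodPrime R => a (ℓ.1 : ℕ)) t

/-- Words in the Hecke operators commute with Galois. -/
theorem galois_smul_lift_hecke {R : ℕ} (t : FreeAlgebra ℤ (GoodPrime R)) (σ : Qb ≃ₐ[ℚ] Qb)
    (x : JZero M) :
    σ • FreeAlgebra.lift ℤ (fun ℓ : GoodPrime R => heckeOperatorBar M ℓ.1) t x =
      FreeAlgebra.lift ℤ (fun ℓ : GoodPrime R => heckeOperatorBar M ℓ.1) t (σ • x) := by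
  set S : Module.End ℤ (JZero M) :=
    (DistribSMul.toAddMonoidHom (JZero M) σ).toIntLinearMap with hS
  suffices h : Commute S (FreeAlgebra.lift ℤ (fun ℓ : GoodPrime R => heckeOperatorBar M ℓ.1) t) from
    LinearMap.congr_fun h.eq x
  induction t using FreeAlgebra.induction with
  | grade0 n => rw [AlgHom.commutes]; exact (Algebra.commutes n S).symm
  | grade1 ℓ =>
    rw [FreeAlgebra.lift_ι_apply]
    exact LinearMap.ext fun y => EichlerShimura.galois_smul_heckeOperatorBar ℓ.1 σ y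
  | mul v w hv hw => rw [map_mul]; exact hv.mul_right hw
  | add v w hv hw => rw [map_add]; exact hv.add_right hw

/-- Step c. -/
theorem rigid_of_eigen (hp5 : 5 ≤ p) (hpM : ¬ p ∣ M) (hA : A.LiesOverPrime p)
    (T : TwoCompData p A F Fb)
    (hT : ∀ (f : F) (g : Fb), (∃ h : f ∈ T.V false, T.red false ⟨f, h⟩ = g) ↔
      HasGaussRed (residue A) (f : LaurentSeries Qb) (g : LaurentSeries (ResidueField A)))
    (hw : ((T.w : F) : LaurentSeries Qb) = coeffEmb Qb (modularUnitSeries p))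
    (hnode : ∀ y, T.On y false →
      (T.IsNode y → 0 ≤ (T.loc y false).ord (X0.jResM A M)) ∧
      (¬ T.IsNode y → 0 ≤ (T.loc y false).ord (X0.jResM A M) →
        (T.loc y false).ord (T.residueAt false T.w) = 0))
    (R : ℕ) (hR : M * p ∣ R) (a : ℕ → ℤ) (hkill : HasOldKiller p M R a)
    (hne : ∃ ℓ : GoodPrime R, ¬ (p : ℤ) ∣ a (ℓ.1 : ℕ) - (ℓ.1 : ℕ) - 1)
    (D : Divisor Qb F) (hdeg : Divisor.degree D = 0)
    (heig : ∀ ℓ : GoodPrime R, ∀ h : D ∈ (Divisor.degZero : AddSubgroup (Divisor Qb F)),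
      heckeOperatorBar (M * p) ℓ.1 (Pic0.mk ⟨D, h⟩) = a (ℓ.1 : ℕ) • Pic0.mk ⟨D, h⟩) :
    T.Rigid D := by
  obtain ⟨t, ht, hta⟩ := hkill
  intro f hf hdiv hv hE
  obtain ⟨c, hc⟩ := hE
  exact StepC.exists_pow_eq_residue hp5 hpM hA hT hw hnode (fun ℓ : GoodPrime R => ℓ.1)
    (fun ℓ h => ℓ.2 (h.trans hR)) (fun ℓ : GoodPrime R => a (ℓ.1 : ℕ)) t
    (fun y => reductionModL_eq_zero_of_kills_torsion A hA
      (FreeAlgebra.lift ℤ (fun ℓ : GoodPrime R => heckeOperatorBar M ℓ.1) t).toAddMonoidHom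
      (galois_smul_lift_hecke M t) ht y) hta hne (Divisor.mem_degZero.mpr hdeg)
    (fun ℓ => heig ℓ _) hf hdiv hv hc

/-- The Atkin–Lehner involution preserves eigenclasses. -/
theorem eigen_swap (hpM : ¬ p ∣ M) (R : ℕ) (hR : M * p ∣ R) (a : ℕ → ℤ) (D : Divisor Qb F) (hdeg : Divisor.degree D = 0)
    (heig : ∀ ℓ : GoodPrime R, ∀ h : D ∈ (Divisor.degZero : AddSubgroup (Divisor Qb F)),
      heckeOperatorBar (M * p) ℓ.1 (Pic0.mk ⟨D, h⟩) = a (ℓ.1 : ℕ) • Pic0.mk ⟨D, h⟩)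
    (ℓ : GoodPrime R)
    (h : SemilinearAut.ofAlgAut (X0.swap p M) • D ∈ (Divisor.degZero : AddSubgroup (Divisor Qb F))) :
    heckeOperatorBar (M * p) ℓ.1 (Pic0.mk ⟨_, h⟩) = a (ℓ.1 : ℕ) • Pic0.mk ⟨_, h⟩ := by
  have hℓp : (ℓ.1 : ℕ) ≠ p := fun e => ℓ.2 (e.symm ▸ (dvd_mul_left p M).trans hR)
  set g := SemilinearAut.ofAlgAut (X0.swap p M)
  let D₀ : (Divisor.degZero : AddSubgroup (Divisor Qb F)) := ⟨D, hdeg⟩
  have e : Pic0.mk ⟨g • D, h⟩ = g • Pic0.mk D₀ :=
    (congrArg Pic0.mk (Subtype.ext rfl)).trans (SemilinearAut.pic0_smul_mk g D₀).symm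
  rw [e, X0.heckeOperatorBar_swap_smul p M hpM ℓ.1 hℓp, heig ℓ hdeg]
  exact map_zsmul (DistribSMul.toAddMonoidHom (JZero (M * p)) g) _ _

end Fermat.Agent.LevelP
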